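import Fermat.Agent.MazurP.Final

/-!
# Classes killed by a Hecke relation of level `M` are `q`-new: `U_q = - w_q`
-/

set_option autoImplicit false
set_option linter.unusedSectionVars false
set_option linter.style.haveILetI false
set_option linter.unusedVariables false
set_option synthInstance.maxHeartbeats 400000

noncomputable section

namespace Fermat.Agent.MazurP

open ModularCurve Fermat.Agent.GoodRed Fermat.Agent.Models Fermat.Agent.ModFun
open Fermat.Agent.Curves AlgebraicCurve Fermat.Agent.SSMod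
open Fermat.Agent.HeckeQ
open Fermat.Agent.AnJac Fermat.Agent.GalRep Fermat.Agent.S43Glue CuspForm Matrix
open Fermat.Agent.AnJacH (Nq coe_Nq UmN)

local notation "ℒ" => LaurentSeries
local notation "Qbar" => AlgebraicClosure ℚ
local notation "GQ" => Qbar ≃ₐ[ℚ] Qbar

/-- `hW` and `hM` commute -/
theorem hW_hM {q r : ℕ} [NeZero q] [NeZero r] [HasPrim Qbar q] [hr : HasPrim Qbar r]
    (hco : r.Coprime q) (u : ℒ Qbar) : hW q (hM r u) = hM r (hW q u) := by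
  obtain ⟨ζ, hζ⟩ := exists_zeta q
  obtain ⟨ξ, hξ⟩ := hr.ex
  rw [← AnJacH.heckeW_eq_hW hζ, ← AnJacH.heckeW_eq_hW hζ, ← heckeMul_eq_hM' hξ,
    ← heckeMul_eq_hM' hξ, AnJacH.heckeMul_heckeW hζ hξ hco]

section New

variable {q M p : ℕ} [hq : Fact q.Prime] [NeZero q] [NeZero M] [NeZero (q * M)]
  [hp : Fact p.Prime] (hqM : Nat.Coprime q M) {S : Set ℕ}
  {hSN : ∀ i : JS S, ¬ i.1 ∣ q * M} {θ : heckeAlgebra (q * M) 2 S →+* ZMod p}
  {Wm : Matrix (Fin (rk (q * M))) (Fin (rk (q * M))) (ZMod p)}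
  (hWm : KSys.IsMat (KQ (q * M)) (bL (q * M)) (KQ (q * M)) (bL (q * M)) p (al ιQ hqM) Wm)
  {Am : Matrix (Fin (rk M)) (Fin (rk (q * M))) (ZMod p)}
  (hAm : KSys.IsMat (KQ (q * M)) (bL (q * M)) (KQ M) (bL M) p (Nq q M) Am)

include hqM hAm in
theorem A_HV (hSM : ∀ i : JS S, ¬ i.1 ∣ M) (hSN : ∀ i : JS S, ¬ i.1 ∣ q * M) (i : JS S)
    (x : Fin (rk (q * M)) → ZMod p) :
    HV p (FreeAlgebra.ι ℤ i) *ᵥ (Am *ᵥ x) = Am *ᵥ (HV p (FreeAlgebra.ι ℤ i) *ᵥ x) := by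
  have h0 := (hAm.comp (isMat_HV hSM i)).eq (pne p) (B := Am * HV p (FreeAlgebra.ι ℤ i)) (by
    have h1 := (isMat_HV hSN i).comp hAm
    have h2 : (fun u => Nq q M (hMf hSN i u)) = fun u => hMf hSM i (Nq q M u) := by
      funext u
      apply Subtype.ext
      haveI : NeZero i.1 := ⟨i.2.1.ne_zero⟩
      haveI : HasPrim Qbar i.1 := hasPrim_field i
      haveI : HasPrim Qbar q := hasPrim_K
      have hco : Nat.Coprime i.1 q := by
        rw [Nat.coprime_primes i.2.1 hq.out]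
        intro h
        exact hSN i (h ▸ dvd_mul_right q M)
      have e1 : ((al ιQ hqM (hMf hSN i u) : modularFunctionFieldFullC Qbar (q * M)) : ℒ Qbar) =
          hM i.1 ((al ιQ hqM u : modularFunctionFieldFullC Qbar (q * M)) : ℒ Qbar) :=
        al_hM ιQ hqM i.2.1 (hSN i) rfl
      rw [coe_Nq hqM, e1]
      show hM i.1 (u : ℒ Qbar) * hW q (hM i.1 _) = hM i.1 ((Nq q M u : _) : ℒ Qbar)
      rw [coe_Nq hqM, hM_mul, hW_hM hco]
    rw [← h2]
    exact h1)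
  rw [Matrix.mulVec_mulVec, Matrix.mulVec_mulVec]
  exact congrArg (fun B => B *ᵥ x) h0

theorem HV_eq_zero {N : ℕ} [NeZero N] {P : FreeAlgebra ℤ (JS S)} (hP : lat N P = 0) :
    HV (N := N) p P = 0 := by
  rw [HV, mt, hP, map_zero, map_zero]

include hqM hAm in
theorem A_HV_all (hSN : ∀ i : JS S, ¬ i.1 ∣ q * M) (P : FreeAlgebra ℤ (JS S)) :
    ∀ x, HV p P *ᵥ (Am *ᵥ x) = Am *ᵥ (HV p P *ᵥ x) := by
  have hSM : ∀ i : JS S, ¬ i.1 ∣ M := fun i h => hSN i (h.mul_left q)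
  induction P using FreeAlgebra.induction with
  | grade0 c =>
    intro x
    have h1 : ∀ (r : ℕ), (c : Matrix (Fin r) (Fin r) (ZMod p)) = (c : ZMod p) • 1 := by
      intro r
      rw [← Algebra.algebraMap_eq_smul_one, map_intCast]
    rw [HV_algebraMap, HV_algebraMap, h1, h1, Matrix.smul_mulVec, Matrix.smul_mulVec,
      Matrix.one_mulVec, Matrix.one_mulVec, Matrix.mulVec_smul]
  | grade1 i => exact A_HV hqM hAm hSM hSN i
  | mul P Q hP hQ =>
    intro x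
    rw [HV_mul, HV_mul, ← Matrix.mulVec_mulVec, ← Matrix.mulVec_mulVec, hQ, hP]
  | add P Q hP hQ =>
    intro x
    rw [HV_add, HV_add, Matrix.add_mulVec, Matrix.add_mulVec, hP, hQ, Matrix.mulVec_add]

include hqM hAm in
/-- the norm to level `M` vanishes -/
theorem A_zero {P : FreeAlgebra ℤ (JS S)} (hP : lat M P = 0) (hP1 : θ (hkA (q * M) hSN P) = 1)
    {x : Fin (rk (q * M)) → ZMod p} (hx : x ∈ WW hSN θ) : Am *ᵥ x = 0 := by
  have h1 := WW_all hx P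
  rw [hP1, one_smul] at h1
  rw [← h1, ← A_HV_all hqM hAm hSN P, HV_eq_zero hP, Matrix.zero_mulVec]

include hWm hAm in
/-- `U_q = - w_q` -/
theorem U_eq {P : FreeAlgebra ℤ (JS S)} (hP : lat M P = 0) (hP1 : θ (hkA (q * M) hSN P) = 1)
    {x : Fin (rk (q * M)) → ZMod p} (hx : x ∈ WW hSN θ) :
    UmN (q * M) p q (dvd_mul_right q M) *ᵥ x = -(Wm *ᵥ x) := by
  have h1 := AnJacH.ker_AW hqM hAm hWm (pne p) (x := x) (by
    rw [← Matrix.mulVec_mulVec]
    exact A_zero hqM hAm hP hP1 (W_stable hqM hWm hx))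
  exact (neg_eq_of_add_eq_zero_right h1).symm

include hqM in
/-- **classes in the eigenspace are `q`-new** -/
theorem exists_new {P : FreeAlgebra ℤ (JS S)} (hP : lat M P = 0)
    (hP1 : θ (hkA (q * M) hSN P) = 1)
    {x : Fin (rk (q * M)) → ZMod p} (hx : x ∈ WW hSN θ)
    {u : modularFunctionFieldFullC Qbar (q * M)} (hu : (KQ (q * M)).Cls (bL (q * M)) p u x)
    {ζ : Qbarˣ} (hζ : IsPrimitiveRoot ζ q) :
    ∃ g, g ≠ 0 ∧ FU ιQ (dvd_mul_right q M) hζ u * al ιQ hqM u = g ^ p := by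
  obtain ⟨Wm, hWm⟩ := AnJacH.exists_alMat (q := q) (M := M) hqM (pne p)
  obtain ⟨Am, hAm⟩ := AnJacH.exists_NqMat q M (pne p)
  have h1 := AnJacH.isMat_U (n := p) (dvd_mul_right q M) hζ u x hu
  rw [U_eq hqM hWm hAm hP hP1 hx] at h1
  have h2 := h1.mul (hWm u x hu)
  rw [neg_add_cancel] at h2
  exact h2.exists_pow_one (pne p)

include hqM in
/-- `U_q ^ 2 = 1` on the eigenspace -/
theorem exists_UU {P : FreeAlgebra ℤ (JS S)} (hP : lat M P = 0)
    (hP1 : θ (hkA (q * M) hSN P) = 1)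
    {x : Fin (rk (q * M)) → ZMod p} (hx : x ∈ WW hSN θ)
    {u : modularFunctionFieldFullC Qbar (q * M)} (hu : (KQ (q * M)).Cls (bL (q * M)) p u x)
    {ζ : Qbarˣ} (hζ : IsPrimitiveRoot ζ q) :
    ∃ g, g ≠ 0 ∧ FU ιQ (dvd_mul_right q M) hζ (FU ιQ (dvd_mul_right q M) hζ u) = u * g ^ p := by
  obtain ⟨Wm, hWm⟩ := AnJacH.exists_alMat (q := q) (M := M) hqM (pne p)
  obtain ⟨Am, hAm⟩ := AnJacH.exists_NqMat q M (pne p)
  have h1 := AnJacH.isMat_U (n := p) (dvd_mul_right q M) hζ _ _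
    (AnJacH.isMat_U (n := p) (dvd_mul_right q M) hζ u x hu)
  rw [U_eq hqM hWm hAm hP hP1 hx, Matrix.mulVec_neg,
    U_eq hqM hWm hAm hP hP1 (W_stable hqM hWm hx), neg_neg, Matrix.mulVec_mulVec,
    AnJacH.W_sq hqM hWm (pne p), Matrix.one_mulVec] at h1
  exact h1.exists_pow (pne p) hu

end New

end Fermat.Agent.MazurP
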