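import Fermat.Agent.MazurP.Toric2
import Fermat.Agent.TWGal.Inertia
import Fermat.Agent.SSMod.JL

/-!
# Frobenius on inertia-invariant classes not coming from level `M`
-/

set_option autoImplicit false
set_option linter.unusedSectionVars false
set_option linter.style.haveILetI false
set_option linter.unusedVariables false
set_option synthInstance.maxHeartbeats 400000

noncomputable section

namespace Fermat.Agent.MazurP

open ModularCurve Fermat.Agent.GoodRed Fermat.Agent.Models Fermat.Agent.ModFun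
open Fermat.Agent.Curves Fermat.Agent.AnJac AlgebraicCurve IsLocalRing Fermat.Agent.SSMod
open Fermat.Agent.HeckeQ Fermat.Agent.GalRep Fermat.Agent.Mono
open Fermat.Agent.GenusX0 (je)
open scoped Pointwise

local notation "ℒ" => LaurentSeries
local notation "Qbar" => AlgebraicClosure ℚ
local notation "GQ" => Qbar ≃ₐ[ℚ] Qbar

/-- an inertia-invariant, non-Eisenstein class killed by a Hecke relation of level `M` -/
structure ToricData (A : ValuationSubring Qbar) (S : Set ℕ) (q M p : ℕ) [NeZero q] [NeZero M]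
    (u : (ℒ Qbar)ˣ) : Prop where
  mem : (u : ℒ Qbar) ∈ modularFunctionFieldFullC Qbar (q * M)
  dvd : ∀ P : Place Qbar (modularFunctionFieldFullC Qbar (q * M)), (p : ℤ) ∣ P.ord ⟨u, mem⟩
  inert : ∀ τ ∈ A.inertiaSubgroupIn ℚ, ∃ g ∈ modularFunctionFieldFullC Qbar (q * M),
      coeffMap ((τ : Qbar ≃+* Qbar) : Qbar →+* Qbar) (u : ℒ Qbar) = (u : ℒ Qbar) * g ^ p
  eis : ∃ (r : ℕ) (hr : r.Prime) (a : ℕ) (f : ℒ Qbar),
    haveI : NeZero r := ⟨hr.ne_zero⟩
    haveI : Fact r.Prime := ⟨hr⟩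
    haveI : HasPrim Qbar r := hasPrim_K
    ¬ r ∣ 2 * (q * M) ∧ ¬ (p : ℤ) ∣ (r + 1 : ℤ) - a ∧
      f ∈ modularFunctionFieldFullC Qbar (q * M) ∧ f ≠ 0 ∧
      hM r (u : ℒ Qbar) = (u : ℒ Qbar) ^ a * f ^ p
  tor : ∃ (P : FreeAlgebra ℤ (JS S)) (f : (ℒ Qbar)ˣ), lat M P = 0 ∧
    (f : ℒ Qbar) ∈ modularFunctionFieldFullC Qbar (q * M) ∧
    op hasPrim_field P u = u * f ^ p

variable {A : ValuationSubring Qbar} {q : ℕ}

attribute [-instance] DivisionRing.toRatAlgebra in
set_option maxHeartbeats 1000000 in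
theorem toric_direct (hq : q.Prime) [NeZero q] (hA : A.LiesOverPrime q) {M : ℕ} [NeZero M]
    (hqM : Nat.Coprime q M) (h : JLift (residue A) M)
    {σ : GQ} (hσ : A.IsFrobeniusAt σ q) {p : ℕ} (hp : p.Prime) (hp5 : 5 ≤ p) (hpq : p ≠ q)
    {S : Set ℕ} (hqS : q ∈ S) (hSN : ∀ i : JS S, ¬ i.1 ∣ q * M) {u : (ℒ Qbar)ˣ}
    (H : ToricData A S q M p u) :
    ∃ g ∈ modularFunctionFieldFullC Qbar (q * M),
      coeffMap ((σ : Qbar ≃+* Qbar) : Qbar →+* Qbar)
        ((al ιQ hqM ⟨u, H.mem⟩ : modularFunctionFieldFullC Qbar (q * M)) : ℒ Qbar) *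
          (u : ℒ Qbar) ^ q = g ^ p := by
  haveI : Fact q.Prime := ⟨hq⟩
  haveI := FrobDens.charP_residueField A hq hA
  letI : Algebra (ZMod q) (ResidueField A) := ZMod.algebra _ q
  haveI := TWGal.isAlgebraic_residueField (A := A) hq hA
  haveI : Algebra.IsAlgebraic ℚ Qbar := AlgebraicClosure.isAlgebraic ℚ
  haveI : @Algebra.IsAlgebraic ℤ Qbar _ _ (Ring.toIntAlgebra Qbar) := algebraic_int_Qbar
  have hrk : RankOne (residue A) := @rankOne_of_liesOver Qbar _ A _ algebraic_int_Qbar q hq hA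
  haveI : NeZero (q * M) := ⟨Nat.mul_ne_zero hq.ne_zero (NeZero.ne M)⟩
  haveI := isFunctionField_fullC Qbar (q * M) (by exact_mod_cast NeZero.ne (q * M))
  haveI := isFunctionField_fullC (ResidueField A) M (cast_ne_zero_of_coprime (q := q) hqM)
  have hE := (resField_eq (q := q) (π := residue A) residue_surjective ιQ hqM hrk).symm
  have hqp : ¬ q ∣ p := fun h => hpq ((Nat.prime_dvd_prime_iff_eq hq hp).mp h).symm
  have hpκ : (p : ResidueField A) ≠ 0 := by
    rw [Ne, CharP.cast_eq_zero_iff _ q]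
    exact hqp
  have hqM' : ¬ q ∣ M := (Nat.Prime.coprime_iff_not_dvd hq).1 hqM
  have hSM : ∀ i : JS S, ¬ i.1 ∣ M := fun i h => hSN i (h.mul_left q)
  obtain ⟨r, hr, a, f, hrN, ha, hfm, hf0, hT⟩ := H.eis
  haveI : NeZero r := ⟨hr.ne_zero⟩
  haveI : Fact r.Prime := ⟨hr⟩
  haveI : HasPrim Qbar r := hasPrim_K
  haveI : HasPrim A r := hasPrim_val' A
  have hrN' : ¬ r ∣ q * M := fun h => hrN (h.mul_left 2)
  have hrκ : (r : ResidueField A) ≠ 0 := by
    rw [Ne, CharP.cast_eq_zero_iff _ q]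
    intro h1
    exact hrN' (((Nat.prime_dvd_prime_iff_eq hq hr).mp h1 ▸ dvd_refl _ : r ∣ q).mul_right M)
  haveI : HasPrim (ResidueField A) r := hasPrim_alg hr.ne_zero hrκ
  have hu0 : (⟨u, H.mem⟩ : modularFunctionFieldFullC Qbar (q * M)) ≠ 0 :=
    fun h => u.ne_zero (congrArg Subtype.val h)
  have hf0' : (⟨f, hfm⟩ : modularFunctionFieldFullC Qbar (q * M)) ≠ 0 :=
    fun h => hf0 (congrArg Subtype.val h)
  obtain ⟨P, f', hP, hfm', hop⟩ := H.tor
  have hxm : hM r (u : ℒ Qbar) ∈ modularFunctionFieldFullC Qbar (q * M) :=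
    hM_mem_K hr hrN' H.mem
  obtain ⟨g, hg⟩ := core (π := residue A) residue_surjective ιQ hqM hE hA hrk h
    (actsAt_frob hq hA hσ) hr hrN' hp hp5 hpκ (u := ⟨u, H.mem⟩) (f := ⟨f, hfm⟩)
    (x := ⟨hM r (u : ℒ Qbar), hxm⟩) hu0 hf0' rfl (Subtype.ext hT) ha H.dvd (by
      intro b hb hb1 m hm
      refine value_lemma_res (residue A) residue_surjective hq hA hqp hb (fun τ hτ => ?_) hm
      refine hb1 (τ : Qbar ≃+* Qbar) (actsAt_inertia hτ) ?_
      obtain ⟨g, hg, e⟩ := H.inert τ hτ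
      refine ⟨⟨g, hg⟩, ?_⟩
      apply Subtype.ext
      show coeffMap ((τ : Qbar ≃+* Qbar) : Qbar →+* Qbar) (u : ℒ Qbar) / (u : ℒ Qbar) = g ^ p
      rw [e, mul_div_cancel_left₀ _ u.ne_zero])
    (fun i hi => by
      refine hres_of ιQ hqM hE hu0 (fun h1 => ?_) (fun h1 => ?_) i hi
      · exact resPow_core ιQ hqM hE hqM' hqS hSM hp hqp P hP H.mem hfm' hop h1
      · obtain ⟨h2, h3⟩ := op_al ιQ hqM hasPrim_field hSN P H.mem
        rw [al_mk ιQ hqM H.mem] at h1 ⊢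
        refine resPow_core ιQ hqM hE hqM' hqS hSM hp hqp P hP (alU_mem ιQ hqM H.mem)
          (f := alU ιQ hqM hfm') (alU_mem ιQ hqM hfm') ?_ h1
        rw [h3]
        apply Units.ext
        rw [Units.val_mul, Units.val_pow_eq_pow_val]
        have e : (⟨(op hasPrim_field P u : ℒ Qbar), h2⟩ :
            modularFunctionFieldFullC Qbar (q * M)) = ⟨u, H.mem⟩ * (⟨f', hfm'⟩) ^ p := by
          apply Subtype.ext
          rw [MulMemClass.coe_mul, SubmonoidClass.coe_pow]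
          show (op hasPrim_field P u : ℒ Qbar) = (u : ℒ Qbar) * (f' : ℒ Qbar) ^ p
          rw [hop, Units.val_mul, Units.val_pow_eq_pow_val]
        show ((al ιQ hqM ⟨_, h2⟩ : modularFunctionFieldFullC Qbar (q * M)) : ℒ Qbar) = _
        rw [e, map_mul, map_pow, MulMemClass.coe_mul, SubmonoidClass.coe_pow]
        rfl)
  exact ⟨g, g.2, congrArg Subtype.val hg⟩

attribute [-instance] DivisionRing.toRatAlgebra in
set_option maxHeartbeats 1600000 in
/-- the same statement, with nodes at an auxiliary level -/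
theorem toric_up (hq : q.Prime) [NeZero q] (hA : A.LiesOverPrime q) {M s : ℕ} [NeZero M] [NeZero s]
    (hqM : Nat.Coprime q M) (hqsM : Nat.Coprime q (s * M)) (hs : s.Prime) (hsM : ¬ s ∣ M)
    (hs2 : s ∣ 2) (h : JLift (residue A) (s * M))
    {σ : GQ} (hσ : A.IsFrobeniusAt σ q) {p : ℕ} (hp : p.Prime) (hp5 : 5 ≤ p) (hpq : p ≠ q)
    (hps : ¬ p ∣ s + 1)
    {S : Set ℕ} (hqS : q ∈ S) (hSN : ∀ i : JS S, ¬ i.1 ∣ q * M) {u : (ℒ Qbar)ˣ}
    (H : ToricData A S q M p u) :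
    ∃ g ∈ modularFunctionFieldFullC Qbar (q * M),
      coeffMap ((σ : Qbar ≃+* Qbar) : Qbar →+* Qbar)
        ((al ιQ hqM ⟨u, H.mem⟩ : modularFunctionFieldFullC Qbar (q * M)) : ℒ Qbar) *
          (u : ℒ Qbar) ^ q = g ^ p := by
  haveI : Fact q.Prime := ⟨hq⟩
  haveI := FrobDens.charP_residueField A hq hA
  letI : Algebra (ZMod q) (ResidueField A) := ZMod.algebra _ q
  haveI := TWGal.isAlgebraic_residueField (A := A) hq hA
  haveI : Algebra.IsAlgebraic ℚ Qbar := AlgebraicClosure.isAlgebraic ℚ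
  haveI : @Algebra.IsAlgebraic ℤ Qbar _ _ (Ring.toIntAlgebra Qbar) := algebraic_int_Qbar
  have hrk : RankOne (residue A) := @rankOne_of_liesOver Qbar _ A _ algebraic_int_Qbar q hq hA
  haveI : NeZero (s * M) := ⟨Nat.mul_ne_zero hs.ne_zero (NeZero.ne M)⟩
  haveI : NeZero (q * M) := ⟨Nat.mul_ne_zero hq.ne_zero (NeZero.ne M)⟩
  haveI : NeZero (q * (s * M)) := ⟨Nat.mul_ne_zero hq.ne_zero (NeZero.ne _)⟩
  haveI := isFunctionField_fullC Qbar (q * M) (by exact_mod_cast NeZero.ne (q * M))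
  haveI := isFunctionField_fullC Qbar (q * (s * M)) (by exact_mod_cast NeZero.ne (q * (s * M)))
  haveI := isFunctionField_fullC (ResidueField A) M (cast_ne_zero_of_coprime (q := q) hqM)
  haveI := isFunctionField_fullC (ResidueField A) (s * M)
    (cast_ne_zero_of_coprime (q := q) hqsM)
  have hE := (resField_eq (q := q) (π := residue A) residue_surjective ιQ hqM hrk).symm
  have hE' := (resField_eq (q := q) (π := residue A) residue_surjective ιQ hqsM hrk).symm
  have hqp : ¬ q ∣ p := fun h => hpq ((Nat.prime_dvd_prime_iff_eq hq hp).mp h).symm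
  have hpκ : (p : ResidueField A) ≠ 0 := by
    rw [Ne, CharP.cast_eq_zero_iff _ q]
    exact hqp
  have hqM' : ¬ q ∣ M := (Nat.Prime.coprime_iff_not_dvd hq).1 hqM
  have hSM : ∀ i : JS S, ¬ i.1 ∣ M := fun i h => hSN i (h.mul_left q)
  obtain ⟨r, hr, a, f, hrN, ha, hfm, hf0, hT⟩ := H.eis
  haveI : NeZero r := ⟨hr.ne_zero⟩
  haveI : Fact r.Prime := ⟨hr⟩
  haveI : HasPrim Qbar r := hasPrim_K
  haveI : HasPrim A r := hasPrim_val' A
  have hrN' : ¬ r ∣ q * (s * M) := by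
    intro h1
    apply hrN
    rw [← level_eq] at h1
    exact h1.trans (mul_dvd_mul_right hs2 _)
  have hrN'' : ¬ r ∣ q * M := fun h1 => hrN (h1.mul_left 2)
  have hrκ : (r : ResidueField A) ≠ 0 := by
    rw [Ne, CharP.cast_eq_zero_iff _ q]
    intro h1
    exact hrN'' (((Nat.prime_dvd_prime_iff_eq hq hr).mp h1 ▸ dvd_refl _ : r ∣ q).mul_right M)
  haveI : HasPrim (ResidueField A) r := hasPrim_alg hr.ne_zero hrκ
  have hu0 : (⟨u, H.mem⟩ : modularFunctionFieldFullC Qbar (q * M)) ≠ 0 :=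
    fun h => u.ne_zero (congrArg Subtype.val h)
  have hf0' : (⟨f, hfm⟩ : modularFunctionFieldFullC Qbar (q * M)) ≠ 0 :=
    fun h => hf0 (congrArg Subtype.val h)
  obtain ⟨P, f', hP, hfm', hop⟩ := H.tor
  have hxm : hM r (u : ℒ Qbar) ∈ modularFunctionFieldFullC Qbar (q * M) :=
    hM_mem_K hr hrN'' H.mem
  have hinj : ∀ {x : modularFunctionFieldFullC Qbar (q * M)}, x ≠ 0 →
      incA Qbar q M s x ≠ 0 := fun hx => (map_ne_zero _).mpr hx
  have hle : modularFunctionFieldFullC Qbar (q * M) ≤ modularFunctionFieldFullC Qbar (s * (q * M)) :=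
    full_degeneracyC_le (K := Qbar) (Dvd.intro_left s rfl)
  have hle' : modularFunctionFieldFullC Qbar (q * M) ≤
      modularFunctionFieldFullC Qbar (q * (s * M)) :=
    full_degeneracyC_le (K := Qbar) (mul_dvd_mul_left q (dvd_mul_left M s))
  have e1 : incA Qbar q M s ⟨u, H.mem⟩ = ⟨(u : ℒ Qbar), hle' H.mem⟩ := Subtype.ext (coe_incA _)
  obtain ⟨g, hg⟩ := core (π := residue A) residue_surjective ιQ hqsM hE' hA hrk h
    (actsAt_frob hq hA hσ) hr hrN' hp hp5 hpκ (u := incA Qbar q M s ⟨u, H.mem⟩)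
    (f := incA Qbar q M s ⟨f, hfm⟩)
    (x := incA Qbar q M s ⟨hM r (u : ℒ Qbar), hxm⟩) (hinj hu0) (hinj hf0')
    (by rw [coe_incA, coe_incA])
    (by
      rw [← map_pow, ← map_pow, ← map_mul]
      congr 1
      exact Subtype.ext hT) ha
    (by
      rw [e1]
      exact ord_level (mul_dvd_mul_left q (dvd_mul_left M s)) H.mem (hle' H.mem) H.dvd) (by
      intro b hb hb1 m hm
      refine value_lemma_res (residue A) residue_surjective hq hA hqp hb (fun τ hτ => ?_) hm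
      refine hb1 (τ : Qbar ≃+* Qbar) (actsAt_inertia hτ) ?_
      obtain ⟨g, hg, e⟩ := H.inert τ hτ
      refine ⟨⟨g, hle' hg⟩, ?_⟩
      apply Subtype.ext
      rw [e1]
      show coeffMap ((τ : Qbar ≃+* Qbar) : Qbar →+* Qbar) (u : ℒ Qbar) / (u : ℒ Qbar) = g ^ p
      rw [e, mul_div_cancel_left₀ _ u.ne_zero])
    (fun i hi => by
      refine hres_of ιQ hqsM hE' (hinj hu0) (fun h1 => ?_) (fun h1 => ?_) i hi
      · exact resPow_up ιQ hqM hqsM hE hE' hs hsM hp hps hu0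
          (fun h2 => resPow_core ιQ hqM hE hqM' hqS hSM hp hqp P hP H.mem hfm' hop h2) h1
      · rw [al_incA ιQ hqM hqsM] at h1 ⊢
        refine resPow_up ιQ hqM hqsM hE hE' hs hsM hp hps (al_ne_zero ιQ hqM hu0)
          (fun h4 => ?_) h1
        obtain ⟨h2, h3⟩ := op_al ιQ hqM hasPrim_field hSN P H.mem
        rw [al_mk ιQ hqM H.mem] at h4 ⊢
        refine resPow_core ιQ hqM hE hqM' hqS hSM hp hqp P hP (alU_mem ιQ hqM H.mem)
          (f := alU ιQ hqM hfm') (alU_mem ιQ hqM hfm') ?_ h4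
        rw [h3]
        apply Units.ext
        rw [Units.val_mul, Units.val_pow_eq_pow_val]
        have e : (⟨(op hasPrim_field P u : ℒ Qbar), h2⟩ :
            modularFunctionFieldFullC Qbar (q * M)) = ⟨u, H.mem⟩ * (⟨f', hfm'⟩) ^ p := by
          apply Subtype.ext
          rw [MulMemClass.coe_mul, SubmonoidClass.coe_pow]
          show (op hasPrim_field P u : ℒ Qbar) = (u : ℒ Qbar) * (f' : ℒ Qbar) ^ p
          rw [hop, Units.val_mul, Units.val_pow_eq_pow_val]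
        show ((al ιQ hqM ⟨_, h2⟩ : modularFunctionFieldFullC Qbar (q * M)) : ℒ Qbar) = _
        rw [e, map_mul, map_pow, MulMemClass.coe_mul, SubmonoidClass.coe_pow]
        rfl)
  rw [al_incA ιQ hqM hqsM] at hg
  have h5 := congrArg Subtype.val hg
  have h6 : coeffMap ((σ : Qbar ≃+* Qbar) : Qbar →+* Qbar)
        ((al ιQ hqM ⟨u, H.mem⟩ : modularFunctionFieldFullC Qbar (q * M)) : ℒ Qbar) *
          (u : ℒ Qbar) ^ q = (g : ℒ Qbar) ^ p := h5
  refine exists_pow_descend hle (d := s + 1) (relfinrank_full hs ?_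
    (by exact_mod_cast NeZero.ne (s * (q * M)))) ?_ ?_ ?_ (w := (g : ℒ Qbar)) ?_ h6
  · intro h7
    rcases hs.dvd_mul.mp h7 with h8 | h8
    · have h9 := (Nat.prime_dvd_prime_iff_eq hs hq).mp h8
      rw [h9] at hqsM
      exact hq.one_lt.ne' (Nat.Coprime.eq_one_of_dvd hqsM (dvd_mul_right q M))
    · exact hsM h8
  · exact ((Nat.Prime.coprime_iff_not_dvd hp).2 hps).symm
  · exact mul_mem (galF (q * M) (σ : Qbar ≃+* Qbar) (al ιQ hqM ⟨u, H.mem⟩)).2 (pow_mem H.mem _)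
  · refine mul_ne_zero ?_ (pow_ne_zero _ u.ne_zero)
    refine (map_ne_zero _).mpr fun h7 => ?_
    exact al_ne_zero ιQ hqM hu0 (Subtype.ext h7)
  · rw [level_eq]
    exact g.2

/-- **Frobenius on inertia-invariant non-Eisenstein classes killed by a Hecke relation of level
`M`.** -/
theorem toric_all (hq : q.Prime) (hq2 : q ≠ 2) [NeZero q] (hA : A.LiesOverPrime q) {M : ℕ}
    [NeZero M] (hqM : Nat.Coprime q M)
    {σ : GQ} (hσ : A.IsFrobeniusAt σ q) {p : ℕ} (hp : p.Prime) (hp5 : 5 ≤ p) (hpq : p ≠ q)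
    {S : Set ℕ} (hqS : q ∈ S) (hSN : ∀ i : JS S, ¬ i.1 ∣ q * M) {u : (ℒ Qbar)ˣ}
    (H : ToricData A S q M p u) :
    ∃ g ∈ modularFunctionFieldFullC Qbar (q * M),
      coeffMap ((σ : Qbar ≃+* Qbar) : Qbar →+* Qbar)
        ((al ιQ hqM ⟨u, H.mem⟩ : modularFunctionFieldFullC Qbar (q * M)) : ℒ Qbar) *
          (u : ℒ Qbar) ^ q = g ^ p := by
  haveI : Fact q.Prime := ⟨hq⟩
  haveI := FrobDens.charP_residueField A hq hA
  by_cases h5 : 5 ≤ q
  · exact toric_direct hq hA hqM (jLift_of_five residue_surjective ιQ hqM h5) hσ hp hp5 hpq hqS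
      hSN H
  · have h3 : q = 3 := by
      have h2 := hq.two_le
      interval_cases q
      · exact absurd rfl hq2
      · rfl
      · exact absurd hq (by decide)
    subst h3
    by_cases h2 : 2 ∣ M
    · exact toric_direct hq hA hqM (jl23 3 A hA M (Or.inr ⟨rfl, h2,
        (Nat.Prime.coprime_iff_not_dvd hq).1 hqM⟩)) hσ hp hp5 hpq hqS hSN H
    · haveI : NeZero (2 * M) := ⟨Nat.mul_ne_zero two_ne_zero (NeZero.ne M)⟩
      have hq2M : Nat.Coprime 3 (2 * M) := Nat.Coprime.mul_right (by norm_num) hqM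
      refine toric_up hq hA hqM hq2M Nat.prime_two h2 (dvd_refl 2)
        (jl23 3 A hA (2 * M) (Or.inr ⟨rfl, dvd_mul_right 2 M,
          (Nat.Prime.coprime_iff_not_dvd hq).1 hq2M⟩)) hσ hp hp5 hpq ?_ hqS hSN H
      intro h
      have := Nat.le_of_dvd (by norm_num) h
      omega

end Fermat.Agent.MazurP
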