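import Fermat.Agent.MazurP.Op
import Fermat.Agent.S43Glue.Dict

/-!
# Hecke algebras modulo `p` and the lattice
-/

set_option autoImplicit false
set_option linter.unusedSectionVars false
set_option linter.style.haveILetI false

noncomputable section

namespace Fermat.Agent.MazurP

open Fermat.Agent.AnJac Fermat.Agent.GalRep Fermat.Agent.S43Glue CuspForm Matrix

local notation "Qbar" => AlgebraicClosure ℚ
local notation "GQ" => Qbar ≃ₐ[ℚ] Qbar

section Eigen

/-- eigenvectors modulo `p` -/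
theorem exists_eigen_abs {R : Type*} [CommRing R] [IsNoetherianRing R] [Algebra.IsIntegral ℤ R]
    {p : ℕ} [hp : Fact p.Prime] {r : ℕ} (act : R →+* Matrix (Fin r) (Fin r) ℤ)
    (hinj : Function.Injective act) (θ : R →+* ZMod p) :
    ∃ x : Fin r → ZMod p, x ≠ 0 ∧
      ∀ t : R, (Int.castRingHom (ZMod p)).mapMatrix (act t) *ᵥ x = θ t • x := by
  set f : R →+* Module.End (ZMod p) (Fin r → ZMod p) :=
    ((Matrix.toLinAlgEquiv' (R := ZMod p) (n := Fin r)).toRingEquiv.toRingHom).comp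
      ((Int.castRingHom (ZMod p)).mapMatrix.comp act) with hf
  have hfx : ∀ t x, f t x = (Int.castRingHom (ZMod p)).mapMatrix (act t) *ᵥ x := by
    intro t x
    exact Matrix.toLin'_apply _ _
  letI : Module R (Fin r → ZMod p) := Module.compHom _ f
  have hsmul : ∀ (t : R) (x : Fin r → ZMod p), t • x = f t x := fun _ _ => rfl
  haveI : NeZero p := ⟨hp.out.ne_zero⟩
  haveI : Module.Finite R (Fin r → ZMod p) := Module.Finite.of_finite
  set 𝔪 : Ideal R := RingHom.ker θ with h𝔪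
  have hcp : (p : R) ∈ 𝔪 := by
    rw [h𝔪, RingHom.mem_ker, map_natCast, CharP.cast_eq_zero]
  have hann : Module.annihilator R (Fin r → ZMod p) ≤ 𝔪 := by
    intro t ht
    rw [Module.mem_annihilator] at ht
    have h1 : (Int.castRingHom (ZMod p)).mapMatrix (act t) = 0 := by
      ext i j
      have h2 := congrFun (ht (Pi.single j 1)) i
      rw [hsmul, hfx, Matrix.mulVec_single_one] at h2
      exact h2
    set F : Polynomial ℤ := (act t).charpoly with hF
    have h2 : Polynomial.aeval t F = 0 := by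
      apply hinj
      rw [map_zero, Polynomial.aeval_def, Polynomial.hom_eval₂]
      have h3 : act.comp (algebraMap ℤ R) = algebraMap ℤ (Matrix (Fin r) (Fin r) ℤ) :=
        RingHom.ext_int _ _
      rw [h3, ← Polynomial.aeval_def]
      exact Matrix.aeval_self_charpoly (act t)
    have h4 := congrArg θ h2
    rw [map_zero, Polynomial.aeval_def, Polynomial.hom_eval₂] at h4
    have h5 : θ.comp (algebraMap ℤ R) = Int.castRingHom (ZMod p) := RingHom.ext_int _ _
    rw [h5, Polynomial.eval₂_eq_eval_map, hF, ← Matrix.charpoly_map] at h4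
    have h6 : (act t).map (Int.castRingHom (ZMod p)) = 0 := h1
    rw [h6, Matrix.charpoly_zero, Polynomial.eval_pow, Polynomial.eval_X] at h4
    rw [h𝔪, RingHom.mem_ker]
    exact eq_zero_of_pow_eq_zero h4
  haveI hprime : 𝔪.IsPrime := RingHom.ker_isPrime θ
  have hmin : 𝔪 ∈ (Module.annihilator R (Fin r → ZMod p)).minimalPrimes := by
    refine ⟨⟨hprime, hann⟩, fun 𝔮 h𝔮 hle => ?_⟩
    haveI := h𝔮.1
    have hmax : 𝔮.IsMaximal := by
      refine Ideal.isMaximal_of_isIntegral_of_isMaximal_comap (R := ℤ) 𝔮 ?_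
      have h1 : (p : ℤ) ∈ 𝔮.comap (algebraMap ℤ R) := by
        rw [Ideal.mem_comap, eq_intCast, Int.cast_natCast]
        apply h𝔮.2
        rw [Module.mem_annihilator]
        intro x
        rw [hsmul, map_natCast, Module.End.natCast_apply]
        ext i
        rw [Pi.smul_apply, nsmul_eq_mul, CharP.cast_eq_zero, zero_mul]
        rfl
      haveI : (𝔮.comap (algebraMap ℤ R)).IsPrime := Ideal.IsPrime.comap _
      have h2 : Ideal.span {(p : ℤ)} ≤ 𝔮.comap (algebraMap ℤ R) := by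
        rw [Ideal.span_singleton_le_iff_mem]; exact h1
      have h3 : (Ideal.span {(p : ℤ)}).IsMaximal :=
        PrincipalIdealRing.isMaximal_of_irreducible (Nat.prime_iff_prime_int.mp hp.out).irreducible
      rw [← h3.eq_of_le (Ideal.IsPrime.ne_top inferInstance) h2]
      exact h3
    exact (hmax.eq_of_le hprime.ne_top hle).ge
  have hass := Module.associatedPrimes.minimalPrimes_annihilator_subset_associatedPrimes R (Fin r → ZMod p) hmin
  rw [AssociatedPrimes.mem_iff, isAssociatedPrime_iff] at hass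
  obtain ⟨-, x, hx⟩ := hass
  have hmem : ∀ t : R, t ∈ 𝔪 ↔ f t x = 0 := by
    intro t
    rw [hx, Submodule.mem_colon_singleton, Submodule.mem_bot, hsmul]
  refine ⟨x, ?_, fun t => ?_⟩
  · rintro rfl
    have h1 := (hmem 1).mpr (by rw [map_zero])
    exact hprime.ne_top ((Ideal.eq_top_iff_one _).mpr h1)
  · have h1 : t - ((θ t).val : R) ∈ 𝔪 := by
      rw [h𝔪, RingHom.mem_ker, map_sub, map_natCast, ZMod.natCast_zmod_val, sub_self]
    rw [hmem, map_sub, LinearMap.sub_apply, sub_eq_zero, map_natCast, Module.End.natCast_apply] at h1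
    rw [← hfx, h1]
    ext i
    rw [Pi.smul_apply, Pi.smul_apply, nsmul_eq_mul, ZMod.natCast_zmod_val, smul_eq_mul]

end Eigen

section Hecke

variable (N : ℕ) [NeZero N] (S : Set ℕ)

/-- forget the set `S` -/
def emb : FreeAlgebra ℤ (JS S) →ₐ[ℤ] FreeAlgebra ℤ PrimeT :=
  FreeAlgebra.lift ℤ fun i => FreeAlgebra.ι ℤ ⟨i.1, i.2.1⟩

theorem lat_eq (P : FreeAlgebra ℤ (JS S)) : lat N P = actL N (emb S P) := by
  have h : (lat N : FreeAlgebra ℤ (JS S) →ₐ[ℤ] _) = (actL N).comp (emb S) := by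
    apply FreeAlgebra.hom_ext
    funext i
    simp only [Function.comp_apply, AlgHom.comp_apply, lat, emb, FreeAlgebra.lift_ι_apply]
    exact AddMonoidHom.ext fun φ => (actL_ι ⟨i.1, i.2.1⟩ φ).symm
  rw [h]; rfl

variable {S} (hSN : ∀ i : JS S, ¬ i.1 ∣ N)

/-- the map to the Hecke algebra of cusp forms -/
def hkA : FreeAlgebra ℤ (JS S) →ₐ[ℤ] heckeAlgebra N 2 S :=
  FreeAlgebra.lift ℤ fun i => heckeAlgebra.T i.2.1 (hSN i) i.2.2

theorem hkA_ι (i : JS S) : hkA N hSN (FreeAlgebra.ι ℤ i) = heckeAlgebra.T i.2.1 (hSN i) i.2.2 :=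
  FreeAlgebra.lift_ι_apply _ _

theorem val_hkA (P : FreeAlgebra ℤ (JS S)) :
    (hkA N hSN P : Module.End ℂ (CuspForm (CongruenceSubgroup.Gamma0 N) 2)) =
      actS N (emb S P) := by
  have h : (heckeAlgebra N 2 S).val.comp (hkA N hSN) = (actS N).comp (emb S) := by
    apply FreeAlgebra.hom_ext
    funext i
    simp only [Function.comp_apply, AlgHom.comp_apply, hkA, emb, FreeAlgebra.lift_ι_apply]
    rw [actS_ι, DSLift.heckeOp_of_not_dvd (h := hSN i)]
    rfl
  exact DFunLike.congr_fun h P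

theorem lat_eq_zero_iff (P : FreeAlgebra ℤ (JS S)) : lat N P = 0 ↔ hkA N hSN P = 0 := by
  rw [lat_eq, actL_eq_zero_iff, ← val_hkA N hSN]
  exact ⟨fun h => Subtype.ext h, fun h => by rw [h]; rfl⟩

theorem hkA_surjective (hS : ∀ r : ℕ, r.Prime → r ∣ N → r ∈ S) :
    Function.Surjective (hkA N hSN) := by
  intro ⟨x, hx⟩
  suffices h : x ∈ ((heckeAlgebra N 2 S).val.comp (hkA N hSN)).range by
    obtain ⟨y, hy⟩ := h
    exact ⟨y, Subtype.ext hy⟩
  refine (Algebra.adjoin_le ?_ : heckeAlgebra N 2 S ≤ _) hx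
  rintro M (⟨ℓ, hℓ, hℓN, hℓS, rfl⟩ | ⟨q, hqN, hq, hqS, rfl⟩)
  · refine ⟨FreeAlgebra.ι ℤ ⟨ℓ, hℓ, hℓS⟩, ?_⟩
    have h1 := hkA_ι N hSN ⟨ℓ, hℓ, hℓS⟩
    exact congrArg Subtype.val h1
  · exact absurd (hS q hq hqN) hqS

/-- the integral matrices -/
def mt (P : FreeAlgebra ℤ (JS S)) :
    Matrix (Fin (Module.finrank ℤ (Lat N))) (Fin (Module.finrank ℤ (Lat N))) ℤ :=
  tmA (bL N) (lat N P)

/-- a homomorphism of the Hecke algebra of level `N` from its values -/
theorem exists_lift_theta (hS : ∀ r : ℕ, r.Prime → r ∣ N → r ∈ S) {k : Type*} [Ring k]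
    (χ : FreeAlgebra ℤ (JS S) →+* k) (h : ∀ P : FreeAlgebra ℤ (JS S), lat N P = 0 → χ P = 0) :
    ∃ θ : heckeAlgebra N 2 S →+* k, ∀ P, θ (hkA N hSN P) = χ P := by
  refine ⟨RingHom.liftOfSurjective (hkA N hSN).toRingHom (hkA_surjective N hSN hS) ⟨χ, ?_⟩,
    fun P => ?_⟩
  · intro P hP
    exact h P ((lat_eq_zero_iff N hSN P).mpr hP)
  · exact RingHom.liftOfSurjective_comp_apply (hkA N hSN).toRingHom (hkA_surjective N hSN hS)
      ⟨χ, _⟩ P

/-- **Eigenvectors modulo `p`** -/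
theorem exists_eigen (hS : ∀ r : ℕ, r.Prime → r ∣ N → r ∈ S) {p : ℕ} [hp : Fact p.Prime]
    (θ : heckeAlgebra N 2 S →+* ZMod p) :
    ∃ x : Fin (Module.finrank ℤ (Lat N)) → ZMod p, x ≠ 0 ∧
      ∀ P : FreeAlgebra ℤ (JS S), (Int.castRingHom (ZMod p)).mapMatrix (mt N P) *ᵥ x =
        θ (hkA N hSN P) • x := by
  obtain ⟨act, hact⟩ := exists_lift_theta N hSN hS
    (k := Matrix (Fin (Module.finrank ℤ (Lat N))) (Fin (Module.finrank ℤ (Lat N))) ℤ)
    ((tmA (bL N)).comp (lat N : FreeAlgebra ℤ (JS S) →ₐ[ℤ] _).toRingHom) (fun P hP => by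
      show tmA (bL N) (lat N P) = 0
      rw [hP, map_zero])
  have hinj : Function.Injective act := by
    rw [injective_iff_map_eq_zero]
    intro x hx
    obtain ⟨P, rfl⟩ := hkA_surjective N hSN hS x
    rw [hact] at hx
    have h1 : tmA (bL N) (lat N P) = 0 := hx
    rw [← lat_eq_zero_iff]
    exact tmA_injective (bL N) (h1.trans (map_zero (tmA (bL N))).symm)
  haveI : Module.Finite ℤ (heckeAlgebra N 2 S) := Fermat.Agent.S22.result N 2 S
  haveI : IsNoetherianRing (heckeAlgebra N 2 S) := IsNoetherianRing.of_finite ℤ _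
  obtain ⟨x, hx0, hx⟩ := exists_eigen_abs act hinj θ
  refine ⟨x, hx0, fun P => ?_⟩
  have h1 := hx (hkA N hSN P)
  rw [hact] at h1
  exact h1

end Hecke

end Fermat.Agent.MazurP
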