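import Fermat.Agent.Models.RamSlope

/-!
# Slopes of inertia-invariant Kummer functions
-/

set_option autoImplicit false
set_option linter.unusedSectionVars false
set_option linter.style.haveILetI false

noncomputable section

namespace Fermat.Agent.MazurP

open AlgebraicCurve Fermat.Agent.Curves Polynomial Fermat.Agent.Mono Fermat.Agent.Models

variable {k κ : Type*} [Field k] [Field κ] {B : Res k κ} {F : Type*} [Field F] [Algebra k F]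
  {𝓕 : Type*} [Field 𝓕] [Algebra κ 𝓕] {C : Bool → Comp B F 𝓕}
  [IsAlgClosed k] [IsAlgClosed κ] [IsFunctionField k F] [IsFunctionField κ 𝓕]

/-- the nodes on the first component -/
def nodes (C : Bool → Comp B F 𝓕) (t : F) : Set (Place κ 𝓕) :=
  {𝔭 | ∃ (M : Ideal (chart C t)) (𝔮 : Place κ 𝓕), 𝔭 ∈ spec t M true ∧ 𝔮 ∈ spec t M false}

/-- orders at smooth points -/
theorem ord_zero_smooth {t : F} (hm : NodeModel C t) {M : Ideal (chart C t)} {𝔭 : Place κ 𝓕}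
    (h𝔭 : 𝔭 ∈ spec t M true) (hj : ¬ (spec t M false).Nonempty) {x : F}
    (hx : (C true).r x ≠ 0) (hxP : ∀ P ∈ gen t M, P.ord x = 0) : 𝔭.ord ((C true).r x) = 0 := by
  have hM := isPoint_of_spec hm.rank hm.incomp hm.good ⟨𝔭, h𝔭⟩
  have hcnt := local_conserve' hm.rank hm.incomp hm.good hm.surj hM (Res.ne_zero_of_r hx)
    (fun j hj' => by
      cases j
      · exact absurd hj' hj
      · exact hx)
  rw [Finset.sum_eq_single true (fun j _ hji => by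
      cases j
      · exact cnt_empty hj _
      · exact absurd rfl hji)
    (fun h => absurd (Finset.mem_univ true) h),
    cnt_subsingleton (spec_subsingleton hm.good hm.surj M true) h𝔭,
    cnt_eq_zero hxP] at hcnt
  exact hcnt.symm

variable {t : F} {q : ℕ} {a b : F} {j : 𝓕} {R : Subfield F}
    {φ : 𝓕 ≃+* 𝓕} {g d : F} {q₀ : k}

theorem nodes_ord (h : Cross C t q a b j) (hl : CrossLift C t q j R φ g d q₀) {𝔭 : Place κ 𝓕}
    (h𝔭 : 𝔭 ∈ nodes C t) : ∃ m : ℕ, 0 < m ∧ (m : ℤ) * 𝔭.ord ((C true).r g) = 12 := by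
  obtain ⟨M, 𝔮, h1, h2⟩ := h𝔭
  obtain ⟨Y, m, hm0, h3, -⟩ := CrossLift.exists_isNode h hl h1 h2
  exact ⟨m, hm0, h3⟩

/-- points of the first component away from the poles of `t` -/
theorem node_or_smooth (h : Cross C t q a b j) (hl : CrossLift C t q j R φ g d q₀) {n : ℕ}
    (hn : n ≠ 0) {u : F} (hu0 : u ≠ 0) (hu : ∀ P : Place k F, (n : ℤ) ∣ P.ord u)
    {𝔭 : Place κ 𝓕} (ht : (C true).r t ∈ 𝔭.toValuationSubring) :
    𝔭 ∈ nodes C t ∨ (𝔭.ord ((C true).r g) = 0 ∧ (n : ℤ) ∣ so (C true) 𝔭 u) := by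
  have hm := hl.nodeModel h
  set M := RingHom.ker (evb hm.rank hm.incomp hm.good true 𝔭 ht) with hM
  have h𝔭 : 𝔭 ∈ spec t M true := (mem_spec_iff hm.rank hm.incomp hm.good).mpr ⟨ht, hM⟩
  by_cases h2 : (spec t M false).Nonempty
  · obtain ⟨𝔮, h𝔮⟩ := h2
    exact Or.inl ⟨M, 𝔮, h𝔭, h𝔮⟩
  · right
    refine ⟨ord_zero_smooth hm h𝔭 h2 hl.g_r fun P hP => ?_, ?_⟩
    · have hg0 : g ≠ 0 := Res.ne_zero_of_r hl.g_r
      have hd0 : d ≠ 0 := Res.ne_zero_of_r hl.u_r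
      obtain ⟨h3, h4⟩ := hl.reg M P hP
      rw [mem_iff_ord P hg0] at h3
      rw [mem_iff_ord P hd0] at h4
      have h5 : P.ord (d * g) = 0 := by rw [hl.ug, ord_algebraMap]
      rw [P.ord_mul hd0 hg0] at h5
      omega
    · refine so_dvd_smooth hm.rank hm.incomp hm.good hm.surj
        (hm.lp M (isPoint_evb hm.rank hm.incomp hm.good true 𝔭 ht)) h𝔭 (fun j hj => ?_) hn hu0 hu
      cases j
      · exact h2
      · exact absurd rfl hj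

/-- orders on both components from the nodes on the first component -/
theorem dvd_all (h : Cross C t q a b j) (hl : CrossLift C t q j R φ g d q₀) {n : ℕ}
    (hn : n ≠ 0) {u : F} (hu0 : u ≠ 0) (hu : ∀ P : Place k F, (n : ℤ) ∣ P.ord u)
    (key : ∀ 𝔭 ∈ nodes C t, (n : ℤ) ∣ so (C true) 𝔭 u) (i : Bool) (𝔭 : Place κ 𝓕) :
    (n : ℤ) ∣ so (C i) 𝔭 u := by
  rcases dvd_or_node (hl.nodeModel h) hn hu0 hu i 𝔭 with h1 | ⟨M, 𝔮, h1, h2⟩
  · exact h1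
  · cases i
    · obtain ⟨Y, m, hm0, h3, h4⟩ := CrossLift.exists_isNode h hl h2 h1
      have h5 := so_add_dvd h.rank h.commens h.incomp h.good h.surj h4 hn hu0 hu
      exact (dvd_add_right (key 𝔮 ⟨M, 𝔭, h2, h1⟩)).mp h5
    · exact key 𝔭 ⟨M, 𝔮, h1, h2⟩

/-- **Slopes** of an inertia-invariant Kummer function. -/
theorem exists_slope (h : Cross C t q a b j) (hl : CrossLift C t q j R φ g d q₀) {n : ℕ}
    (hn : n ≠ 0) {u : F} (hu0 : u ≠ 0) (hu : ∀ P : Place k F, (n : ℤ) ∣ P.ord u)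
    (hval : ∀ b : k, b ≠ 0 → (∀ (σ : F ≃+* F) (σ₀ : k ≃+* k) (s : Place k F ≃ Place k F),
          Inertial C σ σ₀ s → Inertial C σ.symm σ₀.symm s.symm → σ t = t →
          (∃ f : F, σ u / u = f ^ n) → B.r (σ₀ b / b) = 1) →
        ∀ m : ℤ, B.r (b ^ n * q₀ ^ m) ≠ 0 → (n : ℤ) ∣ m) :
    ∃ lam : ℤ, ∀ 𝔭 ∈ nodes C t,
      (n : ℤ) ∣ 12 * so (C true) 𝔭 u - lam * 𝔭.ord ((C true).r g) := by
  by_cases hne : (nodes C t).Nonempty
  swap
  · exact ⟨0, fun 𝔭 h𝔭 => absurd ⟨𝔭, h𝔭⟩ hne⟩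
  obtain ⟨𝔭₀, h𝔭₀⟩ := hne
  have hdat : ∀ 𝔭 ∈ nodes C t, ∃ (M : Ideal (chart C t)) (𝔮 : Place κ 𝓕) (Y : F) (m : ℕ), 0 < m ∧
      (m : ℤ) * 𝔭.ord ((C true).r g) = 12 ∧ IsNode C t M true false 𝔭 𝔮 Y (q₀ ^ m) := by
    rintro 𝔭 ⟨M, 𝔮, h1, h2⟩
    obtain ⟨Y, m, hm0, h3, h4⟩ := CrossLift.exists_isNode h hl h1 h2
    exact ⟨M, 𝔮, Y, m, hm0, h3, h4⟩
  obtain ⟨M₀, 𝔮₀, Y₀, m₀, hm₀, hmo₀, hN₀⟩ := hdat 𝔭₀ h𝔭₀
  refine ⟨m₀ * so (C true) 𝔭₀ u, fun 𝔭 h𝔭 => ?_⟩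
  set lam : ℤ := m₀ * so (C true) 𝔭₀ u with hlam
  obtain ⟨M, 𝔮, Y, m, hm, hmo, hNd⟩ := hdat 𝔭 h𝔭
  obtain ⟨b, hb0, hb1, hb2⟩ := monodromy_pair h.rank h.commens h.incomp h.good h.surj hNd hN₀ hn
    hu0 hu
  have h3 := hval b hb0 hb1 (m * (-so (C false) 𝔮 u) - m₀ * (-so (C false) 𝔮₀ u)) (by
    convert hb2 using 2
    rw [zpow_sub₀ hl.q_ne, zpow_mul, zpow_mul, zpow_natCast, zpow_natCast, mul_div_assoc])
  have h4 := so_add_dvd h.rank h.commens h.incomp h.good h.surj hNd hn hu0 hu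
  have h5 := so_add_dvd h.rank h.commens h.incomp h.good h.surj hN₀ hn hu0 hu
  have h6 : (n : ℤ) ∣ m * so (C true) 𝔭 u - lam := by
    have e : m * so (C true) 𝔭 u - lam = (m : ℤ) * (so (C true) 𝔭 u + so (C false) 𝔮 u) -
        m₀ * (so (C true) 𝔭₀ u + so (C false) 𝔮₀ u) +
        (m * (-so (C false) 𝔮 u) - m₀ * (-so (C false) 𝔮₀ u)) := by rw [hlam]; ring
    rw [e]
    exact dvd_add (dvd_sub (h4.mul_left _) (h5.mul_left _)) h3
  have e2 : 12 * so (C true) 𝔭 u - lam * 𝔭.ord ((C true).r g) =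
      𝔭.ord ((C true).r g) * (m * so (C true) 𝔭 u - lam) := by
    rw [← hmo]
    ring
  rw [e2]
  exact h6.mul_left _

end Fermat.Agent.MazurP
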