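import Fermat.Agent.TorLift.Newton2
import Fermat.Agent.SSMod.Base
import Fermat.Agent.GoodRed.FG
import Fermat.Agent.GoodRed.ValRing
import Fermat.Agent.TWGal.Inertia

/-!
# The field `ℂ_q`: completeness, residue field, embedding into `ℂ`
-/

set_option autoImplicit false
set_option linter.unusedSectionVars false
set_option linter.style.haveILetI false
set_option synthInstance.maxHeartbeats 400000

noncomputable section

namespace Fermat.Agent.MazurP

open Cardinal Topology Filter IsLocalRing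
open Fermat.Agent.TorLift Fermat.Agent.SSMod Fermat.Agent.GoodRed Fermat.Agent.Models

section Card

theorem card_le_seq {X D : Type} [MetricSpace X] (f : D → X)
    (hf : ∀ (x : X) (ε : ℝ), 0 < ε → ∃ d, dist x (f d) < ε) : #X ≤ #(ℕ → D) := by
  choose g hg using fun (x : X) (n : ℕ) => hf x (1 / ((n : ℝ) + 1)) (by positivity)
  have hinj : Function.Injective g := by
    intro x y hxy
    by_contra hne
    have hd : 0 < dist x y := dist_pos.mpr hne
    obtain ⟨n, hn⟩ := exists_nat_one_div_lt (half_pos hd)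
    have h1 := hg x n
    have h2 := hg y n
    rw [hxy] at h1
    have h3 : dist x y ≤ dist x (f (g y n)) + dist y (f (g y n)) := dist_triangle_right _ _ _
    linarith
  exact mk_le_of_injective hinj

variable (q : ℕ) [hq : Fact q.Prime]

theorem card_Qq : #ℚ_[q] ≤ 𝔠 := by
  refine (card_le_seq (fun x : ℚ => (x : ℚ_[q])) fun x ε hε => ?_).trans ?_
  · obtain ⟨r, hr⟩ := Padic.rat_dense q x hε
    exact ⟨r, by rw [dist_eq_norm]; exact hr⟩
  · rw [← power_def]
    simp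

theorem card_Cq : #ℂ_[q] = 𝔠 := by
  apply le_antisymm
  · refine (card_le_seq (fun x : PadicAlgCl q => (x : ℂ_[q])) fun x ε hε => ?_).trans ?_
    · obtain ⟨y, hy⟩ := (Metric.denseRange_iff.mp
        (UniformSpace.Completion.denseRange_coe (α := PadicAlgCl q))) x ε hε
      exact ⟨y, hy⟩
    · have h1 : #(PadicAlgCl q) ≤ 𝔠 :=
        (Algebra.IsAlgebraic.cardinalMk_le_max ℚ_[q] (PadicAlgCl q)).trans
          (max_le (card_Qq q) aleph0_le_continuum)
      rw [← power_def]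
      calc #(PadicAlgCl q) ^ #ℕ ≤ 𝔠 ^ #ℕ := power_le_power_right h1
        _ = 𝔠 := by simp
  · exact continuum_le_cardinal_of_nontriviallyNormedField _

theorem exists_embedding : Nonempty (ℂ_[q] →+* ℂ) := by
  have h1 : #ℂ_[q] = #ℂ := by rw [card_Cq, Cardinal.mk_complex]
  have h2 : ℵ₀ < #ℂ_[q] := by rw [card_Cq]; exact aleph0_lt_continuum
  obtain ⟨e⟩ := IsAlgClosed.ringEquiv_of_equiv_of_charZero h2 (Cardinal.eq.mp h1)
  exact ⟨e⟩

end Card

section OC

variable (q : ℕ) [hq : Fact q.Prime]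

/-- the unit ball -/
def OC : ValuationSubring ℂ_[q] where
  carrier := {x | ‖x‖ ≤ 1}
  mul_mem' {a b} ha hb := by
    show ‖a * b‖ ≤ 1
    rw [norm_mul]
    exact mul_le_one₀ ha (norm_nonneg _) hb
  one_mem' := by
    show ‖(1 : ℂ_[q])‖ ≤ 1
    rw [norm_one]
  add_mem' {a b} ha hb := (PadicComplex.isNonarchimedean q a b).trans (max_le ha hb)
  zero_mem' := by
    show ‖(0 : ℂ_[q])‖ ≤ 1
    rw [norm_zero]; exact zero_le_one
  neg_mem' {a} ha := by
    show ‖-a‖ ≤ 1
    rw [norm_neg]; exact ha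
  mem_or_inv_mem' x := by
    show ‖x‖ ≤ 1 ∨ ‖x⁻¹‖ ≤ 1
    rw [norm_inv]
    rcases le_total ‖x‖ 1 with h | h
    · exact Or.inl h
    · exact Or.inr (inv_le_one_of_one_le₀ h)

theorem mem_OC {x : ℂ_[q]} : x ∈ OC q ↔ ‖x‖ ≤ 1 := Iff.rfl

theorem res_eq_zero {x : ℂ_[q]} (hx : x ∈ OC q) : residue (OC q) ⟨x, hx⟩ = 0 ↔ ‖x‖ < 1 := by
  rw [residue_eq_zero_iff, mem_maximalIdeal, mem_nonunits_iff, not_iff_comm]
  constructor
  · intro h
    have h1 : ‖x‖ = 1 := le_antisymm hx (not_lt.mp h)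
    have hx0 : x ≠ 0 := by rintro rfl; rw [norm_zero] at h1; exact zero_ne_one h1
    have h2 : x⁻¹ ∈ OC q := by rw [mem_OC, norm_inv, h1, inv_one]
    exact isUnit_iff_exists_inv.mpr ⟨⟨x⁻¹, h2⟩, Subtype.ext (mul_inv_cancel₀ hx0)⟩
  · intro h h1
    obtain ⟨⟨y, hy⟩, hxy⟩ := isUnit_iff_exists_inv.mp h
    have h2 : x * y = 1 := congrArg Subtype.val hxy
    have h3 : ‖x‖ * ‖y‖ = 1 := by rw [← norm_mul, h2, norm_one]
    have h4 : ‖x‖ * ‖y‖ < 1 := by
      calc ‖x‖ * ‖y‖ ≤ ‖x‖ * 1 := mul_le_mul_of_nonneg_left hy (norm_nonneg _)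
        _ < 1 := by rw [mul_one]; exact h1
    exact absurd h3 h4.ne

variable {κ : Type*} [Field κ] (e : ResidueField (OC q) ≃+* κ)

/-- the reduction -/
def πC : OC q →+* κ := (e : ResidueField (OC q) →+* κ).comp (residue (OC q))

theorem πC_surjective : Function.Surjective (πC q e) := by
  intro y
  obtain ⟨x, hx⟩ := residue_surjective (e.symm y)
  exact ⟨x, by rw [πC, RingHom.comp_apply, hx]; exact e.apply_symm_apply y⟩

theorem πC_eq_zero {x : ℂ_[q]} (hx : x ∈ OC q) : πC q e ⟨x, hx⟩ = 0 ↔ ‖x‖ < 1 := by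
  rw [πC, RingHom.comp_apply, ← res_eq_zero q hx]
  exact map_eq_zero_iff _ e.injective

instance : IsLocalHom (πC q e) where
  map_nonunit := by
    rintro ⟨x, hx⟩ h
    have h1 : ¬ ‖x‖ < 1 := by
      rw [← πC_eq_zero q e hx]
      exact h.ne_zero
    by_contra h2
    apply h1
    rw [← res_eq_zero q hx, residue_eq_zero_iff, mem_maximalIdeal]
    exact h2

theorem rankOne_πC : GoodRed.RankOne (πC q e) := by
  rintro ⟨a, ha⟩ - ha0 c
  rw [πC_eq_zero] at ha0
  rcases eq_or_ne c 0 with rfl | hc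
  · exact ⟨0, by rw [mul_zero]; exact zero_mem _⟩
  have hcpos : 0 < ‖c‖ := norm_pos_iff.mpr hc
  obtain ⟨n, hn⟩ := exists_pow_lt_of_lt_one (inv_pos.mpr hcpos) ha0
  refine ⟨n, ?_⟩
  rw [mem_OC, norm_mul, norm_pow]
  have := mul_lt_mul_of_pos_right hn hcpos
  rw [inv_mul_cancel₀ hcpos.ne'] at this
  exact this.le

theorem cplt_πC : Cplt (baseRes (πC q e) (πC_surjective q e)) := by
  intro ϖ hϖ hϖ0 hr x hx
  have hϖ' : ϖ ∈ OC q := hϖ
  rw [baseRes_r _ _ hϖ', πC_eq_zero] at hr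
  have hpos : 0 < ‖ϖ‖ := norm_pos_iff.mpr hϖ0
  have h1 : ∀ n, ‖x (n + 1) - x n‖ ≤ ‖ϖ‖ ^ n := by
    intro n
    obtain ⟨d, hd, he⟩ := hx n
    have hd' : ‖d‖ ≤ 1 := hd
    rw [he, norm_mul, norm_pow]
    exact mul_le_of_le_one_right (pow_nonneg (norm_nonneg _) _) hd'
  have h2 : ∀ n m, ‖x (n + m) - x n‖ ≤ ‖ϖ‖ ^ n := by
    intro n m
    induction m with
    | zero => rw [add_zero, sub_self, norm_zero]; positivity
    | succ m ih =>
      have e1 : x (n + (m + 1)) - x n = (x (n + m + 1) - x (n + m)) + (x (n + m) - x n) := by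
        rw [← add_assoc]; ring
      rw [e1]
      refine (PadicComplex.isNonarchimedean q _ _).trans (max_le ((h1 _).trans ?_) ih)
      exact pow_le_pow_of_le_one (norm_nonneg _) hr.le (Nat.le_add_right n m)
  have hcau : CauchySeq x := by
    rw [Metric.cauchySeq_iff']
    intro ε hε
    obtain ⟨N, hN⟩ := exists_pow_lt_of_lt_one hε hr
    refine ⟨N, fun n hn => ?_⟩
    obtain ⟨m, rfl⟩ := Nat.exists_eq_add_of_le hn
    rw [dist_eq_norm]
    exact (h2 N m).trans_lt hN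
  obtain ⟨y, hy⟩ := cauchySeq_tendsto_of_complete hcau
  refine ⟨y, fun n => ⟨(y - x n) / ϖ ^ n, ?_, ?_⟩⟩
  · show ‖(y - x n) / ϖ ^ n‖ ≤ 1
    rw [norm_div, norm_pow]
    apply div_le_one_of_le₀ _ (pow_nonneg (norm_nonneg _) _)
    have h3 : Tendsto (fun m => ‖x (n + m) - x n‖) atTop (𝓝 ‖y - x n‖) := by
      have h4 : Tendsto (fun m => x (n + m)) atTop (𝓝 y) := by
        have := (tendsto_add_atTop_iff_nat n).mpr hy
        simpa [add_comm] using this
      exact (h4.sub_const _).norm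
    exact le_of_tendsto h3 (Eventually.of_forall fun m => h2 n m)
  · rw [mul_div_cancel₀ _ (pow_ne_zero _ hϖ0)]

end OC

section Res

variable (q : ℕ) [hq : Fact q.Prime]

theorem charP_resOC : CharP (ResidueField (OC q)) q := by
  have h1 : ((q : ℕ) : ResidueField (OC q)) = 0 := by
    have h2 : (q : ℂ_[q]) ∈ OC q := natCast_mem _ _
    have h3 : residue (OC q) ⟨(q : ℂ_[q]), h2⟩ = 0 := by
      rw [res_eq_zero]
      have h4 : ‖(((q : ℚ_[q]) : PadicAlgCl q) : ℂ_[q])‖ = ‖(q : ℚ_[q])‖ := by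
        rw [PadicComplex.norm_extends, PadicAlgCl.norm_extends]
      have h5 : (((q : ℚ_[q]) : PadicAlgCl q) : ℂ_[q]) = (q : ℂ_[q]) := by
        rw [PadicComplex.coe_eq, map_natCast, map_natCast]
      rw [h5] at h4
      rw [h4]
      exact Padic.norm_p_lt_one
    rw [← h3]
    symm
    exact map_natCast (residue (OC q)) q
  exact (CharP.charP_iff_prime_eq_zero hq.out).mpr h1

theorem eval₂_hom {R S : Type*} [CommRing R] [CommRing S] (f : R →+* S) (x : R)
    (P : Polynomial ℤ) : f (P.eval₂ (Int.castRingHom R) x) = P.eval₂ (Int.castRingHom S) (f x) := by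
  rw [Polynomial.hom_eval₂]
  congr 1
  exact Subsingleton.elim _ _

/-- every residue class of `ℂ_q` is a root of a monic integral polynomial -/
theorem exists_monic_root (c : ResidueField (OC q)) : ∃ P : Polynomial ℤ, P.Monic ∧
    P.eval₂ (Int.castRingHom _) c = 0 := by
  obtain ⟨⟨x, hx⟩, rfl⟩ := residue_surjective c
  obtain ⟨y, hy⟩ := (Metric.denseRange_iff.mp
    (UniformSpace.Completion.denseRange_coe (α := PadicAlgCl q))) x 1 one_pos
  rw [dist_eq_norm] at hy
  have hy1 : ‖(y : ℂ_[q])‖ ≤ 1 := by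
    have := PadicComplex.isNonarchimedean q ((y : ℂ_[q]) - x) x
    rw [sub_add_cancel] at this
    refine this.trans (max_le ?_ hx)
    rw [← norm_neg, neg_sub]
    exact hy.le
  have hyA : (y : ℂ_[q]) ∈ OC q := hy1
  have hres : residue (OC q) ⟨x, hx⟩ = residue (OC q) ⟨(y : ℂ_[q]), hyA⟩ := by
    rw [← sub_eq_zero, ← map_sub]
    exact (res_eq_zero q (sub_mem hx hyA)).mpr hy
  rw [hres]
  rw [PadicComplex.norm_extends] at hy1
  have hint : IsIntegral ℚ_[q] y := Algebra.IsIntegral.isIntegral y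
  have hm := minpoly.monic hint
  have hco : ∀ n, ‖(minpoly ℚ_[q] y).coeff n‖ ≤ 1 := by
    rw [← spectralValue_le_one_iff hm]
    exact hy1
  have hz : ∀ n, ∃ m : ℤ, ‖(minpoly ℚ_[q] y).coeff n - m‖ < 1 := by
    intro n
    set a : ℤ_[q] := (⟨(minpoly ℚ_[q] y).coeff n, hco n⟩ : ℤ_[q]) with ha
    obtain ⟨m, -, hm⟩ := PadicInt.exists_mem_range a
    refine ⟨m, ?_⟩
    have h1 : ‖a - (m : ℤ_[q])‖ < 1 := PadicInt.mem_nonunits.mp hm
    have h2 : ‖a - (m : ℤ_[q])‖ = ‖(minpoly ℚ_[q] y).coeff n - ((m : ℤ) : ℚ_[q])‖ := by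
      rw [PadicInt.norm_def]
      congr 1
    rw [← h2]
    exact h1
  choose m hm' using hz
  set d := (minpoly ℚ_[q] y).natDegree with hd
  let P : Polynomial ℤ := Polynomial.X ^ d + ∑ i ∈ Finset.range d, Polynomial.C (m i) * Polynomial.X ^ i
  have hP : P.Monic := by
    apply Polynomial.monic_X_pow_add
    rw [Polynomial.degree_lt_iff_coeff_zero]
    intro j hj
    rw [Polynomial.finsetSum_coeff]
    refine Finset.sum_eq_zero fun i hi => ?_
    rw [Polynomial.coeff_C_mul_X_pow, if_neg]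
    have := Finset.mem_range.mp hi
    omega
  refine ⟨P, hP, ?_⟩
  have h1 : P.eval₂ (Int.castRingHom _) y - Polynomial.aeval y (minpoly ℚ_[q] y) =
      ∑ i ∈ Finset.range d, ((m i : PadicAlgCl q) -
        algebraMap ℚ_[q] (PadicAlgCl q) ((minpoly ℚ_[q] y).coeff i)) * y ^ i := by
    have e1 : Polynomial.aeval y (minpoly ℚ_[q] y) = y ^ d + ∑ i ∈ Finset.range d,
        algebraMap ℚ_[q] (PadicAlgCl q) ((minpoly ℚ_[q] y).coeff i) * y ^ i := by
      conv_lhs => rw [hm.as_sum]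
      rw [map_add, map_pow, Polynomial.aeval_X, map_sum]
      congr 1
      refine Finset.sum_congr rfl fun i _ => ?_
      rw [map_mul, map_pow, Polynomial.aeval_X, Polynomial.aeval_C]
    rw [e1]
    simp only [P, Polynomial.eval₂_add, Polynomial.eval₂_pow, Polynomial.eval₂_X,
      Polynomial.eval₂_finsetSum, Polynomial.eval₂_mul, Polynomial.eval₂_C]
    rw [add_sub_add_left_eq_sub, ← Finset.sum_sub_distrib]
    refine Finset.sum_congr rfl fun i _ => ?_
    rw [sub_mul]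
    rfl
  rw [minpoly.aeval, sub_zero] at h1
  have h2 : ‖P.eval₂ (Int.castRingHom _) y‖ < 1 := by
    rw [h1]
    refine Finset.sum_induction _ (fun z : PadicAlgCl q => ‖z‖ < 1) (fun a b ha hb =>
      (PadicAlgCl.isNonarchimedean q a b).trans_lt (max_lt ha hb))
      (by simp only [norm_zero]; exact one_pos) ?_
    intro i _
    rw [norm_mul, norm_pow, ← map_intCast (algebraMap ℚ_[q] (PadicAlgCl q)), ← map_sub]
    have h3 : ‖algebraMap ℚ_[q] (PadicAlgCl q) ((m i : ℚ_[q]) - (minpoly ℚ_[q] y).coeff i)‖ < 1 := by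
      have := PadicAlgCl.norm_extends q ((m i : ℚ_[q]) - (minpoly ℚ_[q] y).coeff i)
      rw [this, ← norm_neg, neg_sub]
      exact hm' i
    calc _ ≤ ‖algebraMap ℚ_[q] (PadicAlgCl q) ((m i : ℚ_[q]) - (minpoly ℚ_[q] y).coeff i)‖ * 1 :=
          mul_le_mul_of_nonneg_left (pow_le_one₀ (norm_nonneg _) hy1) (norm_nonneg _)
      _ < 1 := by rw [mul_one]; exact h3
  rw [← eval₂_hom]
  have h4 : ((P.eval₂ (Int.castRingHom _) (⟨(y : ℂ_[q]), hyA⟩ : OC q) : OC q) : ℂ_[q]) =
      ((P.eval₂ (Int.castRingHom _) y : PadicAlgCl q) : ℂ_[q]) := by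
    have h5 := eval₂_hom (OC q).subtype (⟨(y : ℂ_[q]), hyA⟩ : OC q) P
    have h6 := eval₂_hom (algebraMap (PadicAlgCl q) ℂ_[q]) y P
    exact h5.trans h6.symm
  have h7 : ((P.eval₂ (Int.castRingHom _) (⟨(y : ℂ_[q]), hyA⟩ : OC q) : OC q) : ℂ_[q]) ∈ OC q :=
    SetLike.coe_mem _
  exact (res_eq_zero q h7).mpr (by rw [h4, PadicComplex.norm_extends]; exact h2)

theorem isAlgebraic_of_monic {E : Type} [Field E] [Algebra (ZMod q) E]
    (h : ∀ x : E, ∃ P : Polynomial ℤ, P.Monic ∧ P.eval₂ (Int.castRingHom _) x = 0) :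
    Algebra.IsAlgebraic (ZMod q) E := by
  constructor
  intro x
  obtain ⟨P, hP, hx⟩ := h x
  refine ⟨P.map (Int.castRingHom (ZMod q)), (hP.map _).ne_zero, ?_⟩
  rw [Polynomial.aeval_def, Polynomial.eval₂_map, ← hx]
  congr 1
  exact Subsingleton.elim _ _

/-- the residue field of `ℂ_q` is any algebraic closure of `𝔽_q` -/
theorem exists_resEquiv {κ : Type} [Field κ] [Algebra (ZMod q) κ] [IsAlgClosed κ]
    [Algebra.IsAlgebraic (ZMod q) κ] :
    Nonempty (ResidueField (OC q) ≃+* κ) := by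
  haveI := charP_resOC q
  letI : Algebra (ZMod q) (ResidueField (OC q)) := ZMod.algebra _ _
  haveI : Algebra.IsAlgebraic (ZMod q) (ResidueField (OC q)) :=
    isAlgebraic_of_monic q (exists_monic_root q)
  haveI : IsAlgClosure (ZMod q) (ResidueField (OC q)) := ⟨inferInstance, inferInstance⟩
  haveI : IsAlgClosure (ZMod q) κ := ⟨inferInstance, inferInstance⟩
  exact ⟨(IsAlgClosure.equiv (ZMod q) (ResidueField (OC q)) κ).toRingEquiv⟩

end Res

end Fermat.Agent.MazurP
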