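import Fermat.Agent.MazurP.Op
import Fermat.Agent.MazurP.Cq
import Fermat.Agent.GoodRed.HauptGood
import Fermat.Agent.GoodRed.KLAll
import Fermat.Agent.GoodRed.ModRed
import Fermat.Agent.SSMod.RhoUnip

/-!
# Hecke polynomials on torsion classes in characteristic `q`
-/

set_option autoImplicit false
set_option linter.unusedSectionVars false
set_option linter.style.haveILetI false
set_option synthInstance.maxHeartbeats 400000

noncomputable section

namespace Fermat.Agent.MazurP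

open AlgebraicCurve Fermat.Agent.Curves Fermat.Agent.GoodRed ModularCurve
open Fermat.Agent.Models Fermat.Agent.SSMod IntermediateField Fermat.Agent.HeckeQ
open Fermat.Agent.ModFun Fermat.Agent.TorLift Fermat.Agent.AnJac IsLocalRing

local notation "ℒ" => LaurentSeries

section Norm

variable {K κ : Type*} [Field K] [Field κ] {A : ValuationSubring K} (π : A →+* κ)
  [IsLocalHom π] [IsAlgClosed K] [IsAlgClosed κ] [CharZero K] {r M : ℕ} [NeZero r] [NeZero M]

include π in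
set_option maxHeartbeats 1600000 in
/-- norms and reduction -/
theorem LR_norm (hπ : Function.Surjective π) (hrk : GoodRed.RankOne π)
    (hr : r.Prime) (hrM : ¬ r ∣ M) (hrκ : (r : κ) ≠ 0) (hMκ : (M : κ) ≠ 0)
    {s : modularFunctionFieldFullC K (r * M)} {y : modularFunctionFieldFullC κ (r * M)}
    (h : LR π (s : ℒ K) (y : ℒ κ)) :
    LR π ((letI := algebraAlong (alpha K r M); Algebra.norm (modularFunctionFieldFullC K M) s :
      modularFunctionFieldFullC K M) : ℒ K)
      ((letI := algebraAlong (alpha κ r M); Algebra.norm (modularFunctionFieldFullC κ M) y :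
      modularFunctionFieldFullC κ M) : ℒ κ) := by
  have hMK : (M : K) ≠ 0 := by exact_mod_cast NeZero.ne M
  have hrMK : ((r * M : ℕ) : K) ≠ 0 := by
    exact_mod_cast mul_ne_zero hr.ne_zero (NeZero.ne M)
  have hrMκ : ((r * M : ℕ) : κ) ≠ 0 := by
    rw [Nat.cast_mul]; exact mul_ne_zero hrκ hMκ
  haveI := isFunctionField_fullC K M hMK
  haveI := isFunctionField_fullC κ M hMκ
  haveI := isFunctionField_fullC K (r * M) hrMK
  haveI := isFunctionField_fullC κ (r * M) hrMκ
  letI := algebraAlong (alpha K r M)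
  haveI := isScalarTower_along (alpha K r M)
  letI := algebraAlong (alpha κ r M)
  haveI := isScalarTower_along (alpha κ r M)
  set C₀ := cGood π M hπ hMK hMκ with hC₀
  set C₁ := cGood π (r * M) hπ hrMK hrMκ with hC₁
  have ha : ∀ z ∈ C₀.O, LR π ((alpha K r M z : modularFunctionFieldFullC K (r * M)) : ℒ K)
      ((alpha κ r M (C₀.r z) : modularFunctionFieldFullC κ (r * M)) : ℒ κ) := by
    intro z hz
    rw [coe_alpha, coe_alpha]
    exact cGood_spec π M hz
  have hO : Over C₀ (one C₁) := by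
    constructor
    · intro _ z hz
      exact (cGood_r_eq π (r * M) (ha z hz)).1
    · intro _ z hz
      exact (cGood_r_eq π (r * M) (ha z hz)).2
  have hd1 : Module.finrank (modularFunctionFieldFullC K M) (modularFunctionFieldFullC K (r * M)) =
      r + 1 := finrank_alpha hr hrM hrMK
  have hd2 : Module.finrank (modularFunctionFieldFullC κ M) (modularFunctionFieldFullC κ (r * M)) =
      r + 1 := finrank_alpha hr hrM hrMκ
  haveI : FiniteDimensional (modularFunctionFieldFullC K M) (modularFunctionFieldFullC K (r * M)) :=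
    Module.finite_of_finrank_pos (by omega)
  haveI : FiniteDimensional (modularFunctionFieldFullC κ M) (modularFunctionFieldFullC κ (r * M)) :=
    Module.finite_of_finrank_pos (by omega)
  haveI : Infinite κ := IsAlgClosed.instInfinite
  have hb' := cGood_r_eq π (r * M) (hπ := hπ) (hNK := hrMK) (hNκ := hrMκ) h
  have key := hO.norm (baseRes_rankOne π hπ hrk) (incomp_one C₁)
    (by rw [Fintype.sum_unique, hd1, hd2]) s (fun _ => hb'.1)
  rw [Fintype.prod_unique] at key
  have h4 : (one C₁ ()).r s = y := hb'.2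
  have h5 : C₀.r (Algebra.norm (modularFunctionFieldFullC K M) s) =
      Algebra.norm (modularFunctionFieldFullC κ M) y := by
    rw [← h4]; exact key.2
  rw [← h5]
  exact cGood_spec π M key.1

end Norm

section Level

variable {K κ : Type} [Field K] [Field κ] {A : ValuationSubring K} (π : A →+* κ)
  [IsLocalHom π] [IsAlgClosed K] [IsAlgClosed κ] [CharZero K] (M : ℕ) [NeZero M]

/-- there is a good chart at level `M` or `2M` or `3M` -/
theorem good_or_level (ι : K →+* ℂ) (hπ : Function.Surjective π) (hNκ : (M : κ) ≠ 0) :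
    HasGood π M ∨ ∃ r : ℕ, r.Prime ∧ ¬ r ∣ M ∧ (r : κ) ≠ 0 ∧ HasGood π (r * M) ∧
      ∀ m : ℕ, (m : κ) ≠ 0 → Nat.Coprime (r + 1) m := by
  have hNK : (M : K) ≠ 0 := by exact_mod_cast NeZero.ne M
  by_cases h6 : (6 : κ) = 0
  · have h23 : (2 : κ) * 3 = 0 := by rw [← h6]; norm_num
    rcases mul_eq_zero.1 h23 with h2 | h3
    · have h3 : ((3 : ℕ) : κ) ≠ 0 := by
        intro h
        have : (1 : κ) = 3 - 2 := by norm_num
        push_cast at h
        rw [h, h2, sub_zero] at this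
        exact one_ne_zero this
      by_cases h3N : 3 ∣ M
      · exact Or.inl (haup3.hasGood π M ι hπ hNK hNκ (by norm_num) h3 h3N)
      · have h3Nκ : ((3 * M : ℕ) : κ) ≠ 0 := by
          push_cast; exact mul_ne_zero (by exact_mod_cast h3) hNκ
        have h3NK : ((3 * M : ℕ) : K) ≠ 0 := by
          push_cast; exact mul_ne_zero (by norm_num) hNK
        refine Or.inr ⟨3, Nat.prime_three, h3N, h3,
          haup3.hasGood π (3 * M) ι hπ h3NK h3Nκ (by norm_num) h3 (Dvd.intro _ rfl), ?_⟩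
        intro m hm
        have hodd : ¬ 2 ∣ m := by
          rintro ⟨m', rfl⟩
          apply hm
          push_cast
          rw [h2, zero_mul]
        have : Nat.Coprime 2 m := (Nat.Prime.coprime_iff_not_dvd Nat.prime_two).2 hodd
        exact Nat.Coprime.pow_left 2 this
    · have h2 : ((2 : ℕ) : κ) ≠ 0 := by
        intro h
        have : (1 : κ) = 3 - 2 := by norm_num
        push_cast at h
        rw [h, h3, sub_zero] at this
        exact one_ne_zero this.symm.symm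
      by_cases h2N : 2 ∣ M
      · exact Or.inl (haup2.hasGood π M ι hπ hNK hNκ (by norm_num) h2 h2N)
      · have h2Nκ : ((2 * M : ℕ) : κ) ≠ 0 := by
          push_cast; exact mul_ne_zero (by exact_mod_cast h2) hNκ
        have h2NK : ((2 * M : ℕ) : K) ≠ 0 := by
          push_cast; exact mul_ne_zero (by norm_num) hNK
        refine Or.inr ⟨2, Nat.prime_two, h2N, h2,
          haup2.hasGood π (2 * M) ι hπ h2NK h2Nκ (by norm_num) h2 (Dvd.intro _ rfl), ?_⟩
        intro m hm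
        have hodd : ¬ 3 ∣ m := by
          rintro ⟨m', rfl⟩
          apply hm
          push_cast
          rw [h3, zero_mul]
        exact (Nat.Prime.coprime_iff_not_dvd Nat.prime_three).2 hodd
  · exact Or.inl (hasGood_of_six π M ι h6 hπ hNK hNκ)

variable {M}

set_option maxHeartbeats 1600000 in
theorem exists_lift_class (ι : K →+* ℂ) (hπ : Function.Surjective π) (hrk : GoodRed.RankOne π)
    (hcp : Cplt (baseRes π hπ)) {π₀ : K} (h0 : π₀ ≠ 0) (hO : π₀ ∈ (baseRes π hπ).O)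
    (hr0 : (baseRes π hπ).r π₀ = 0) (hMκ : (M : κ) ≠ 0) {n : ℕ} (hn : (n : κ) ≠ 0)
    {u : modularFunctionFieldFullC κ M} (hu0 : u ≠ 0)
    (hu : ∀ P : Place κ (modularFunctionFieldFullC κ M), (n : ℤ) ∣ P.ord u) :
    ∃ (m : ℕ) (s : modularFunctionFieldFullC K M) (w : modularFunctionFieldFullC κ M),
      Nat.Coprime m n ∧ s ≠ 0 ∧ w ≠ 0 ∧ LR π (s : ℒ K) ((u ^ m * w ^ n :
        modularFunctionFieldFullC κ M) : ℒ κ) ∧
      ∀ P : Place K (modularFunctionFieldFullC K M), (n : ℤ) ∣ P.ord s := by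
  rcases good_or_level π M ι hπ hMκ with hg | ⟨r, hr, hrM, hrκ, hg, hco⟩
  · obtain ⟨s, hs, w, hw, hs0, hw0, h1, h2⟩ := exists_torsion_lift_N π M hg hπ hrk hcp h0 hO hr0 hn
      u.2 (fun h => hu0 (Subtype.ext h)) hu
    refine ⟨1, ⟨s, hs⟩, ⟨w, hw⟩, Nat.coprime_one_left n, fun h => hs0 (congrArg Subtype.val h),
      fun h => hw0 (congrArg Subtype.val h), ?_, h2 hs⟩
    rw [pow_one]
    exact h1
  · haveI : NeZero r := ⟨hr.ne_zero⟩
    haveI : NeZero (r * M) := ⟨Nat.mul_ne_zero hr.ne_zero (NeZero.ne M)⟩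
    have hMK : (M : K) ≠ 0 := by exact_mod_cast NeZero.ne M
    have hrMK : ((r * M : ℕ) : K) ≠ 0 := by
      exact_mod_cast mul_ne_zero hr.ne_zero (NeZero.ne M)
    have hrMκ : ((r * M : ℕ) : κ) ≠ 0 := by
      rw [Nat.cast_mul]; exact mul_ne_zero hrκ hMκ
    haveI := isFunctionField_fullC K M hMK
    haveI := isFunctionField_fullC κ M hMκ
    haveI := isFunctionField_fullC K (r * M) hrMK
    haveI := isFunctionField_fullC κ (r * M) hrMκ
    have hua0 : alpha κ r M u ≠ 0 := by simpa using hu0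
    have hua : ∀ P : Place κ (modularFunctionFieldFullC κ (r * M)),
        (n : ℤ) ∣ P.ord (alpha κ r M u) := by
      intro P
      rw [Place.ord_restrictAlong (alpha κ r M) (integralAlong (alpha κ r M)) P u]
      exact Dvd.dvd.mul_left (hu _) _
    obtain ⟨s, hs, w, hw, hs0, hw0, h1, h2⟩ := exists_torsion_lift_N π (r * M) hg hπ hrk hcp h0 hO
      hr0 hn (alpha κ r M u).2 (fun h => hua0 (Subtype.ext h)) hua
    have ey : ((alpha κ r M u * ⟨w, hw⟩ ^ n : modularFunctionFieldFullC κ (r * M)) : ℒ κ) =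
        ((alpha κ r M u : modularFunctionFieldFullC κ (r * M)) : ℒ κ) * w ^ n := by
      rw [MulMemClass.coe_mul, SubmonoidClass.coe_pow]
    rw [← ey] at h1
    have h3 := LR_norm π hπ hrk hr hrM hrκ hMκ (s := ⟨s, hs⟩) h1
    letI := algebraAlong (alpha K r M)
    haveI := isScalarTower_along (alpha K r M)
    letI := algebraAlong (alpha κ r M)
    haveI := isScalarTower_along (alpha κ r M)
    haveI := isIntegral_along (alpha K r M) (integralAlong (alpha K r M))
    haveI : FiniteDimensional (modularFunctionFieldFullC K M)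
      (modularFunctionFieldFullC K (r * M)) := finiteDimensional_of_isFunctionField (k := K)
    have hd2 : Module.finrank (modularFunctionFieldFullC κ M)
      (modularFunctionFieldFullC κ (r * M)) = r + 1 := finrank_alpha hr hrM hrMκ
    haveI : FiniteDimensional (modularFunctionFieldFullC κ M)
      (modularFunctionFieldFullC κ (r * M)) := Module.finite_of_finrank_pos (by omega)
    have hs0' : (⟨s, hs⟩ : modularFunctionFieldFullC K (r * M)) ≠ 0 :=
      fun h => hs0 (congrArg Subtype.val h)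
    refine ⟨r + 1, Algebra.norm (modularFunctionFieldFullC K M) (⟨s, hs⟩ :
      modularFunctionFieldFullC K (r * M)), Algebra.norm (modularFunctionFieldFullC κ M)
      (⟨w, hw⟩ : modularFunctionFieldFullC κ (r * M)), hco n hn, ?_, ?_, ?_, ?_⟩
    · exact Algebra.norm_ne_zero_iff.mpr hs0'
    · exact Algebra.norm_ne_zero_iff.mpr fun h => hw0 (congrArg Subtype.val h)
    · have e : Algebra.norm (modularFunctionFieldFullC κ M) (alpha κ r M u * ⟨w, hw⟩ ^ n :
          modularFunctionFieldFullC κ (r * M)) = u ^ (r + 1) *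
          Algebra.norm (modularFunctionFieldFullC κ M)
            (⟨w, hw⟩ : modularFunctionFieldFullC κ (r * M)) ^ n := by
        rw [map_mul, map_pow]
        congr 1
        have h5 := Algebra.norm_algebraMap (R := modularFunctionFieldFullC κ M)
          (S := modularFunctionFieldFullC κ (r * M)) u
        rw [hd2] at h5
        exact h5
      rw [← e]
      exact h3
    · intro P
      rw [ord_norm P hs0']
      exact Finset.dvd_sum fun v _ => h2 hs v

/-- `n`-th powers in `F_M` -/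
theorem pow_of_coprime {F : Type*} [Field F] {m n : ℕ} (hmn : Nat.Coprime m n) {x g : F}
    (hx0 : x ≠ 0) (h : x ^ m = g ^ n) : ∃ y, y ≠ 0 ∧ x = y ^ n := by
  rcases Nat.eq_zero_or_pos n with rfl | hn
  · have hm : m = 1 := by simpa using hmn
    subst hm
    exact ⟨1, one_ne_zero, by simpa using h⟩
  have hg0 : g ≠ 0 := by
    rintro rfl
    rw [zero_pow hn.ne'] at h
    exact pow_ne_zero m hx0 h
  have hb := Nat.gcd_eq_gcd_ab m n
  rw [hmn.gcd_eq_one] at hb
  refine ⟨g ^ (Nat.gcdA m n) * x ^ (Nat.gcdB m n), mul_ne_zero (zpow_ne_zero _ hg0)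
    (zpow_ne_zero _ hx0), ?_⟩
  have e1 : x = x ^ ((m : ℤ) * Nat.gcdA m n + n * Nat.gcdB m n) := by
    rw [← hb]; simp
  conv_lhs => rw [e1]
  rw [zpow_add₀ hx0, zpow_mul, zpow_natCast, h, mul_pow, ← zpow_natCast, ← zpow_natCast,
    ← zpow_mul, ← zpow_natCast, ← zpow_mul, ← zpow_mul]
  congr 2 <;> ring

variable {S : Set ℕ}
  (hK : ∀ i : JS S, haveI : NeZero i.1 := ⟨i.2.1.ne_zero⟩; HasPrim K i.1)
  (hκ : ∀ i : JS S, haveI : NeZero i.1 := ⟨i.2.1.ne_zero⟩; HasPrim κ i.1)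
  (hA : ∀ i : JS S, haveI : NeZero i.1 := ⟨i.2.1.ne_zero⟩; HasPrim A i.1)

include π hK hA in
/-- Hecke polynomials preserve the function field in characteristic `q`. -/
theorem op_mem_κ (hπ : Function.Surjective π) (hS : ∀ i : JS S, (i.1 : κ) ≠ 0)
    (hSM : ∀ i : JS S, ¬ i.1 ∣ M) (hMκ : (M : κ) ≠ 0) (P : FreeAlgebra ℤ (JS S))
    {u : (ℒ κ)ˣ} (hu : (u : ℒ κ) ∈ modularFunctionFieldFullC κ M) :
    (op hκ P u : ℒ κ) ∈ modularFunctionFieldFullC κ M := by
  let R : Subgroup (ℒ κ)ˣ :=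
    { carrier := {u | (u : ℒ κ) ∈ modularFunctionFieldFullC κ M}
      mul_mem' := fun {a b} ha hb => by
        show ((a * b : (ℒ κ)ˣ) : ℒ κ) ∈ modularFunctionFieldFullC κ M
        rw [Units.val_mul]
        exact mul_mem ha hb
      one_mem' := one_mem (modularFunctionFieldFullC κ M)
      inv_mem' := fun {a} ha => by
        show ((a⁻¹ : (ℒ κ)ˣ) : ℒ κ) ∈ modularFunctionFieldFullC κ M
        rw [Units.val_inv_eq_inv_val]
        exact inv_mem ha }
  refine op_mem hκ R (fun i v hv => ?_) P hu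
  haveI : NeZero i.1 := ⟨i.2.1.ne_zero⟩
  haveI := hK i
  haveI := hκ i
  haveI := hA i
  show ((toU (opG κ S hκ i (ofU v)) : (ℒ κ)ˣ) : ℒ κ) ∈ modularFunctionFieldFullC κ M
  rw [opG_apply]
  exact hM_mem_κ π hπ i.2.1 (hSM i) (hS i) hMκ hv

include hK hA in
/-- **LIFT-H**: Hecke polynomials killing the lattice of level `M` kill the torsion classes
of the function field of level `M` in characteristic `q`. -/
theorem op_eq_pow (ι : K →+* ℂ) (hπ : Function.Surjective π) (hrk : GoodRed.RankOne π)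
    (hcp : Cplt (baseRes π hπ)) {π₀ : K} (h0 : π₀ ≠ 0) (hO : π₀ ∈ (baseRes π hπ).O)
    (hr0 : (baseRes π hπ).r π₀ = 0) (hMκ : (M : κ) ≠ 0) {n : ℕ} (hn : (n : κ) ≠ 0)
    (hS : ∀ i : JS S, (i.1 : κ) ≠ 0) (hSM : ∀ i : JS S, ¬ i.1 ∣ M)
    (P : FreeAlgebra ℤ (JS S)) (hP : lat M P = 0)
    {u : (ℒ κ)ˣ} (hum : (u : ℒ κ) ∈ modularFunctionFieldFullC κ M)
    (hu : ∀ Q : Place κ (modularFunctionFieldFullC κ M), (n : ℤ) ∣ Q.ord ⟨_, hum⟩) :
    ∃ g : modularFunctionFieldFullC κ M, g ≠ 0 ∧ (op hκ P u : ℒ κ) = (g : ℒ κ) ^ n := by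
  have hn0 : n ≠ 0 := by rintro rfl; simp at hn
  have hMK : (M : K) ≠ 0 := by exact_mod_cast NeZero.ne M
  haveI := isFunctionField_fullC K M hMK
  haveI := isFunctionField_fullC κ M hMκ
  obtain ⟨m, s, w, hmn, hs0, hw0, hsw, hs⟩ := exists_lift_class π ι hπ hrk hcp h0 hO hr0 hMκ hn
    (u := ⟨_, hum⟩) (fun h => u.ne_zero (congrArg Subtype.val h)) hu
  have hs0' : (s : ℒ K) ≠ 0 := fun h => hs0 (Subtype.ext h)
  have hw0' : (w : ℒ κ) ≠ 0 := fun h => hw0 (Subtype.ext h)
  set s' : (ℒ K)ˣ := Units.mk0 (s : ℒ K) hs0' with hs'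
  set w' : (ℒ κ)ˣ := Units.mk0 (w : ℒ κ) hw0' with hw'
  have ev : ((u ^ m * w' ^ n : (ℒ κ)ˣ) : ℒ κ) = (((⟨_, hum⟩ : modularFunctionFieldFullC κ M) ^ m *
      w ^ n : modularFunctionFieldFullC κ M) : ℒ κ) := by
    rw [Units.val_mul, Units.val_pow_eq_pow_val, Units.val_pow_eq_pow_val, MulMemClass.coe_mul,
      SubmonoidClass.coe_pow, SubmonoidClass.coe_pow]
    rfl
  rw [← ev] at hsw
  obtain ⟨φ, hφ⟩ := exists_ClX ι hn0 hs0 hs
  have h1 := cl_op hK hSM ι hn0 P (φ := φ) (u := s') ⟨s.2, hφ⟩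
  rw [hP] at h1
  obtain ⟨h2, h3⟩ := h1
  have h4 : (kX0 M ι (1 : Unit →* RingAut K)).cl n (n • (0 : Lat M))
      (⟨_, h2⟩ : modularFunctionFieldFullC K M) := by
    rw [smul_zero]
    exact h3
  obtain ⟨g, hg⟩ := (kX0 M ι (1 : Unit →* RingAut K)).root hn0 h4
  have h5 := LR_op (π := π) hK hκ hA hS P (u := s') (v := u ^ m * w' ^ n) hsw
  have h6 : (op hK P s' : ℒ K) = ((g ^ n : modularFunctionFieldFullC K M) : ℒ K) := by
    rw [hg]
  rw [h6] at h5
  have hmem := op_mem_κ π hK hκ hA hπ hS hSM hMκ P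
    (u := u ^ m * w' ^ n) (by rw [ev]; exact SetLike.coe_mem _)
  have hmu := op_mem_κ π hK hκ hA hπ hS hSM hMκ P hum
  have hmw := op_mem_κ π hK hκ hA hπ hS hSM hMκ P (u := w') w.2
  obtain ⟨h7, h8⟩ := cGood_r_eq π M (hπ := hπ) (hNK := hMK) (hNκ := hMκ)
    (y := ⟨_, hmem⟩) h5
  have h9 : g ∈ (cGood π M hπ hMK hMκ).O := by
    rcases (cGood π M hπ hMK hMκ).O.mem_or_inv_mem g with h | h
    · exact h
    · rcases eq_or_ne g 0 with h0 | h0
      · rw [h0]; exact zero_mem _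
      · obtain ⟨n', rfl⟩ := Nat.exists_eq_succ_of_ne_zero hn0
        have e : g = g ^ (n' + 1) * (g⁻¹) ^ n' := by
          rw [pow_succ, inv_pow]
          field_simp
        rw [e]
        exact mul_mem h7 (pow_mem h n')
  rw [Res.r_pow h9] at h8
  set gb := (cGood π M hπ hMK hMκ).r g with hgb
  have e1 : (op hκ P (u ^ m * w' ^ n) : ℒ κ) = (op hκ P u : ℒ κ) ^ m * (op hκ P w' : ℒ κ) ^ n := by
    rw [op_mul, op_pow, op_pow, Units.val_mul, Units.val_pow_eq_pow_val, Units.val_pow_eq_pow_val]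
  have hx0 : (⟨_, hmu⟩ : modularFunctionFieldFullC κ M) ≠ 0 :=
    fun h => (op hκ P u).ne_zero (congrArg Subtype.val h)
  have hy0 : (⟨_, hmw⟩ : modularFunctionFieldFullC κ M) ≠ 0 :=
    fun h => (op hκ P w').ne_zero (congrArg Subtype.val h)
  have e2 : (⟨_, hmu⟩ : modularFunctionFieldFullC κ M) ^ m =
      (gb / (⟨_, hmw⟩ : modularFunctionFieldFullC κ M)) ^ n := by
    rw [div_pow, h8, eq_div_iff (pow_ne_zero _ hy0)]
    apply Subtype.ext
    rw [MulMemClass.coe_mul, SubmonoidClass.coe_pow, SubmonoidClass.coe_pow]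
    exact e1.symm
  obtain ⟨y, hy, hxy⟩ := pow_of_coprime hmn hx0 e2
  refine ⟨y, hy, ?_⟩
  have := congrArg Subtype.val hxy
  rw [SubmonoidClass.coe_pow] at this
  exact this

end Level

section Final

variable {q : ℕ} [hq : Fact q.Prime] {κ : Type} [Field κ] [CharP κ q] [IsAlgClosed κ]
  [Algebra (ZMod q) κ] [Algebra.IsAlgebraic (ZMod q) κ] {M : ℕ} [NeZero M] {S : Set ℕ}

theorem hasPrim_field {K : Type*} [Field K] [IsAlgClosed K] [CharZero K] (i : JS S) :
    haveI : NeZero i.1 := ⟨i.2.1.ne_zero⟩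
    HasPrim K i.1 := by
  haveI : NeZero i.1 := ⟨i.2.1.ne_zero⟩
  haveI : Fact i.1.Prime := ⟨i.2.1⟩
  exact hasPrim_K

theorem hasPrim_ring {K : Type*} [Field K] [IsAlgClosed K] [CharZero K] (A : ValuationSubring K)
    (i : JS S) : haveI : NeZero i.1 := ⟨i.2.1.ne_zero⟩
    HasPrim A i.1 := by
  haveI : NeZero i.1 := ⟨i.2.1.ne_zero⟩
  haveI : Fact i.1.Prime := ⟨i.2.1⟩
  exact hasPrim_val' A

theorem cast_ne_zero_JS (hqS : q ∈ S) (i : JS S) : (i.1 : κ) ≠ 0 := by
  rw [Ne, CharP.cast_eq_zero_iff κ q]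
  intro h
  rcases (Nat.dvd_prime i.2.1).mp h with h1 | h1
  · exact hq.out.one_lt.ne' h1
  · exact i.2.2 (h1 ▸ hqS)

theorem hasPrim_κ (hqS : q ∈ S) (i : JS S) : haveI : NeZero i.1 := ⟨i.2.1.ne_zero⟩
    HasPrim κ i.1 := by
  haveI : NeZero i.1 := ⟨i.2.1.ne_zero⟩
  exact hasPrim_alg i.2.1.ne_zero (cast_ne_zero_JS hqS i)

theorem q_reduces (e : ResidueField (OC q) ≃+* κ) :
    ((q : ℂ_[q]) ∈ (baseRes (πC q e) (πC_surjective q e)).O) ∧
      (baseRes (πC q e) (πC_surjective q e)).r (q : ℂ_[q]) = 0 := by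
  have h : (q : ℂ_[q]) ∈ OC q := natCast_mem _ _
  refine ⟨h, ?_⟩
  rw [baseRes_r _ _ h]
  have e1 : (⟨(q : ℂ_[q]), h⟩ : OC q) = ((q : ℕ) : OC q) := rfl
  rw [e1, map_natCast]
  exact CharP.cast_eq_zero κ q

/-- **LIFT-H**, over any algebraic closure of `𝔽_q`. -/
theorem op_eq_pow_κ (hqM : ¬ q ∣ M) (hqS : q ∈ S) (hSM : ∀ i : JS S, ¬ i.1 ∣ M) {n : ℕ}
    (hn : ¬ q ∣ n) (P : FreeAlgebra ℤ (JS S)) (hP : lat M P = 0)
    {u : (ℒ κ)ˣ} (hum : (u : ℒ κ) ∈ modularFunctionFieldFullC κ M)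
    (hu : ∀ Q : Place κ (modularFunctionFieldFullC κ M), (n : ℤ) ∣ Q.ord ⟨_, hum⟩) :
    ∃ g : modularFunctionFieldFullC κ M, g ≠ 0 ∧
      (op (hasPrim_κ hqS) P u : ℒ κ) = (g : ℒ κ) ^ n := by
  obtain ⟨e⟩ := exists_resEquiv q (κ := κ)
  obtain ⟨ι⟩ := exists_embedding q
  obtain ⟨h1, h2⟩ := q_reduces e
  refine op_eq_pow (πC q e) (hasPrim_field) (hasPrim_κ hqS) (hasPrim_ring (OC q)) ι
    (πC_surjective q e) (rankOne_πC q e) (cplt_πC q e) (π₀ := (q : ℂ_[q])) ?_ h1 h2 ?_ ?_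
    (cast_ne_zero_JS hqS) hSM P hP hum hu
  · exact_mod_cast hq.out.ne_zero
  · rw [Ne, CharP.cast_eq_zero_iff κ q]; exact hqM
  · rw [Ne, CharP.cast_eq_zero_iff κ q]; exact hn

end Final

end Fermat.Agent.MazurP
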