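import Fermat.Agent.MazurP.HeckeRed
import Fermat.Agent.GoodRed.Trunc

/-!
# The multiplicative Hecke operator on `Δ`
-/

set_option autoImplicit false
set_option linter.unusedSectionVars false

noncomputable section

namespace Fermat.Agent.MazurP

open ModularCurve Fermat.Agent.HeckeQ Fermat.Agent.ModFun Polynomial

local notation "ℒ" => LaurentSeries

variable {R : Type*} [Field R] {r : ℕ} [NeZero r]

theorem twist_qExpand' (c : Rˣ) (N : ℕ) [NeZero N] (F : ℒ R) :
    twist c (qExpand R N F) = qExpand R N (twist (c ^ N) F) := by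
  ext n
  rw [twist_coeff]
  by_cases h : (N : ℤ) ∣ n
  · obtain ⟨m, rfl⟩ := h
    rw [qExpand_coeff_mul, qExpand_coeff_mul, twist_coeff, zpow_mul, zpow_natCast]
  · rw [qExpand_coeff_of_not_dvd N F h, qExpand_coeff_of_not_dvd N _ h, mul_zero]

theorem card_rootsOfUnity [hR : HasPrim R r] : Fintype.card (rootsOfUnity r R) = r := by
  obtain ⟨ζ, hζ⟩ := hR.ex
  have h : IsPrimitiveRoot (ζ : R) r := hζ.map_of_injective (f := Units.coeHom R)
    Units.val_injective
  rw [← Nat.card_eq_fintype_card]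
  exact h.card_rootsOfUnity

theorem prodTwist_qExpand [hR : HasPrim R r] {N : ℕ} [NeZero N] (hN : Nat.Coprime r N) (F : ℒ R) :
    prodTwist r (qExpand R N F) = qExpand R N (prodTwist r F) := by
  rw [prodTwist, prodTwist, map_prod]
  have hc : (Nat.card (rootsOfUnity r R)).Coprime N := by
    rw [Nat.card_eq_fintype_card, card_rootsOfUnity]
    exact hN
  refine Fintype.prod_equiv (powCoprime hc) _ _ fun x => ?_
  rw [twist_qExpand']
  rfl

theorem prodTwist_qExpand_self [HasPrim R r] (F : ℒ R) :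
    prodTwist r (qExpand R r F) = (qExpand R r F) ^ r := by
  have h : ∀ x : rootsOfUnity r R, twist (x : Rˣ) (qExpand R r F) = qExpand R r F :=
    fun x => twist_qExpand (x : Rˣ) r ((mem_rootsOfUnity r _).mp x.2) F
  rw [prodTwist, Finset.prod_congr rfl (fun x _ => h x), Finset.prod_const, Finset.card_univ,
    card_rootsOfUnity]

theorem qExpand_comm (M N : ℕ) [NeZero M] [NeZero N] (F : ℒ R) :
    qExpand R M (qExpand R N F) = qExpand R N (qExpand R M F) := by
  rw [qExpand_qExpand, qExpand_qExpand]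
  exact qExpand_congr (mul_comm _ _) _

theorem hW_qExpand [HasPrim R r] {N : ℕ} [NeZero N] (hN : Nat.Coprime r N) (F : ℒ R) :
    hW r (qExpand R N F) = qExpand R N (hW r F) :=
  (hW_unique r (by rw [qExpand_comm, qExpand_hW, prodTwist_qExpand hN])).symm

theorem hM_qExpand [HasPrim R r] {N : ℕ} [NeZero N] (hN : Nat.Coprime r N) (F : ℒ R) :
    hM r (qExpand R N F) = qExpand R N (hM r F) := by
  rw [hM, hM, hW_qExpand hN, qExpand_comm, map_mul]

/-- the variable -/
def TT (R : Type*) [Field R] : ℒ R := HahnSeries.single (1 : ℤ) 1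

theorem TT_ne_zero : TT R ≠ 0 := by
  rw [TT, Ne, HahnSeries.single_eq_zero_iff]
  exact one_ne_zero

theorem qExpand_TT (N : ℕ) [NeZero N] : qExpand R N (TT R) = TT R ^ N := by
  rw [TT, qExpand_single, HahnSeries.single_pow, mul_one, one_pow, nsmul_eq_mul, mul_one]

theorem twist_TT (c : Rˣ) : twist c (TT R) = HahnSeries.C (c : R) * TT R := by
  ext n
  rw [twist_coeff, TT, HahnSeries.C_mul_eq_smul, HahnSeries.coeff_smul, HahnSeries.coeff_single]
  split_ifs with h
  · rw [h, zpow_one, smul_eq_mul]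
  · rw [mul_zero, smul_zero]

/-- `∏ (1 - ζ T) = 1 - T ^ r` -/
theorem prodTwist_one_sub [hR : HasPrim R r] :
    prodTwist r (1 - TT R) = qExpand R r (1 - TT R) := by
  obtain ⟨ζ, hζ⟩ := hR.ex
  have h : IsPrimitiveRoot (ζ : R) r := hζ.map_of_injective (f := Units.coeHom R)
    Units.val_injective
  rw [prodTwist_eq_range r hζ, map_sub, map_one, qExpand_TT]
  have h1 := X_pow_sub_C_eq_prod (R := R) h (Nat.pos_of_ne_zero (NeZero.ne r)) (one_pow r)
  have h2 := congrArg (Polynomial.eval₂ (HahnSeries.C : R →+* ℒ R) (TT R)⁻¹) h1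
  rw [Polynomial.eval₂_sub, Polynomial.eval₂_pow, Polynomial.eval₂_X, Polynomial.eval₂_C,
    map_one, Polynomial.eval₂_finsetProd] at h2
  have h3 : ∀ i ∈ Finset.range r, Polynomial.eval₂ (HahnSeries.C : R →+* ℒ R) (TT R)⁻¹
      (Polynomial.X - Polynomial.C ((ζ : R) ^ i * 1)) = (TT R)⁻¹ * twist (ζ ^ i) (1 - TT R) := by
    intro i _
    rw [Polynomial.eval₂_sub, Polynomial.eval₂_X, Polynomial.eval₂_C, map_sub, map_one, twist_TT,
      mul_one, mul_sub, mul_one, Units.val_pow_eq_pow_val, mul_left_comm,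
      inv_mul_cancel₀ TT_ne_zero, mul_one]
  rw [Finset.prod_congr rfl h3, Finset.prod_mul_distrib, Finset.prod_const, Finset.card_range,
    inv_pow] at h2
  have hT : TT R ^ r ≠ 0 := pow_ne_zero _ TT_ne_zero
  have h4 := congrArg (fun z => TT R ^ r * z) h2
  simp only [mul_sub, mul_one, mul_inv_cancel₀ hT, ← mul_assoc, one_mul] at h4
  exact h4.symm

/-- `hM` on the variable -/
theorem exists_hM_TT [hR : HasPrim R r] :
    ∃ c : R, c ≠ 0 ∧ hM r (TT R) = HahnSeries.C c * TT R ^ (r + 1) := by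
  obtain ⟨ζ, hζ⟩ := hR.ex
  refine ⟨∏ i ∈ Finset.range r, ((ζ ^ i : Rˣ) : R), Finset.prod_ne_zero_iff.mpr
    fun i _ => Units.ne_zero _, ?_⟩
  have h1 : hW r (TT R) = HahnSeries.C (∏ i ∈ Finset.range r, ((ζ ^ i : Rˣ) : R)) * TT R := by
    refine (hW_unique r ?_).symm
    rw [prodTwist_eq_range r hζ, map_mul, qExpand_C, qExpand_TT, map_prod,
      Finset.prod_congr rfl (fun i _ => twist_TT (R := R) (ζ ^ i)), Finset.prod_mul_distrib,
      Finset.prod_const, Finset.card_range]
  rw [hM, h1, qExpand_TT]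
  ring

/-! ### the product formula -/

/-- `f ≡ 1` modulo `T ^ (m + 1)` -/
def Near (m : ℕ) (f : ℒ R) : Prop := ((m + 1 : ℤ) : WithTop ℤ) ≤ (f - 1).orderTop

theorem near_iff {m : ℕ} {f : ℒ R} :
    Near m f ↔ ∀ i : ℤ, i ≤ m → (f - 1).coeff i = 0 := by
  rw [Near, HahnSeries.le_orderTop_iff_forall]
  refine forall_congr' fun i => ?_
  rw [WithTop.coe_lt_coe, Int.lt_add_one_iff]

theorem Near.orderTop {m : ℕ} {f : ℒ R} (h : Near m f) : f.orderTop = 0 := by
  have h1 : (0 : WithTop ℤ) < (f - 1).orderTop := by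
    refine lt_of_lt_of_le ?_ h
    exact_mod_cast (by positivity : (0 : ℤ) < m + 1)
  have h2 : (1 : ℒ R).orderTop = 0 := HahnSeries.orderTop_one
  have e : f = 1 + (f - 1) := by ring
  rw [e, HahnSeries.orderTop_add_eq_left (by rw [h2]; exact h1), h2]

theorem Near.ne_zero {m : ℕ} {f : ℒ R} (h : Near m f) : f ≠ 0 := by
  rintro rfl
  have := h.orderTop
  rw [HahnSeries.orderTop_zero] at this
  exact WithTop.top_ne_zero this

theorem Near.mul {m : ℕ} {f g : ℒ R} (hf : Near m f) (hg : Near m g) : Near m (f * g) := by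
  have e : f * g - 1 = (f - 1) * g + (g - 1) := by ring
  rw [Near, e]
  refine le_trans (le_min ?_ hg) HahnSeries.min_orderTop_le_orderTop_add
  rw [HahnSeries.orderTop_mul, hg.orderTop, add_zero]
  exact hf

theorem Near.inv {m : ℕ} {f : ℒ R} (hf : Near m f) : Near m f⁻¹ := by
  have h0 := hf.ne_zero
  have h1 : (f⁻¹).orderTop = 0 := by
    have h2 := HahnSeries.orderTop_mul f f⁻¹
    rw [mul_inv_cancel₀ h0, hf.orderTop, zero_add, HahnSeries.orderTop_one] at h2
    exact h2.symm
  have e : f⁻¹ - 1 = -((f - 1) * f⁻¹) := by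
    rw [sub_mul, mul_inv_cancel₀ h0, one_mul]; ring
  rw [Near, e, HahnSeries.orderTop_neg, HahnSeries.orderTop_mul, h1, add_zero]
  exact hf

theorem near_one (m : ℕ) : Near m (1 : ℒ R) := by
  rw [Near, sub_self, HahnSeries.orderTop_zero]
  exact le_top

theorem Near.pow {m : ℕ} {f : ℒ R} (hf : Near m f) (n : ℕ) : Near m (f ^ n) := by
  induction n with
  | zero => rw [pow_zero]; exact near_one m
  | succ n ih => rw [pow_succ]; exact ih.mul hf

theorem Near.prod {m : ℕ} {ι : Type*} (s : Finset ι) {f : ι → ℒ R} (hf : ∀ i ∈ s, Near m (f i)) :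
    Near m (∏ i ∈ s, f i) := by
  classical
  induction s using Finset.induction_on with
  | empty => rw [Finset.prod_empty]; exact near_one m
  | insert a s ha ih =>
    rw [Finset.prod_insert ha]
    exact (hf a (Finset.mem_insert_self a s)).mul
      (ih fun i hi => hf i (Finset.mem_insert_of_mem hi))

theorem Near.mono {m m' : ℕ} (h : m ≤ m') {f : ℒ R} (hf : Near m' f) : Near m f := by
  rw [near_iff] at hf ⊢
  exact fun i hi => hf i (hi.trans (by exact_mod_cast h))

theorem Near.twist {m : ℕ} {f : ℒ R} (hf : Near m f) (c : Rˣ) : Near m (twist c f) := by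
  rw [near_iff] at hf ⊢
  intro i hi
  have e : ModFun.twist c f - 1 = ModFun.twist c (f - 1) := by rw [map_sub, map_one]
  rw [e, twist_coeff, hf i hi, mul_zero]

theorem Near.qExpand {m : ℕ} {f : ℒ R} (hf : Near m f) (N : ℕ) [NeZero N] :
    Near m (qExpand R N f) := by
  rw [near_iff] at hf ⊢
  intro i hi
  have e : ModularCurve.qExpand R N f - 1 = ModularCurve.qExpand R N (f - 1) := by
    rw [map_sub, map_one]
  rw [e]
  by_cases h : (N : ℤ) ∣ i
  · obtain ⟨j, rfl⟩ := h
    rw [qExpand_coeff_mul]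
    apply hf
    have hN : (1 : ℤ) ≤ N := by exact_mod_cast Nat.pos_of_ne_zero (NeZero.ne N)
    rcases le_or_gt j 0 with hj | hj
    · exact hj.trans (by positivity)
    · nlinarith
  · exact qExpand_coeff_of_not_dvd N _ h

theorem eq_one_of_near {f : ℒ R} (h : ∀ m : ℕ, Near m f) : f = 1 := by
  rw [← sub_eq_zero]
  ext i
  have h1 := near_iff.mp (h i.toNat) i (Int.self_le_toNat i)
  rw [h1, HahnSeries.coeff_zero]

/-- Euler's product -/
def EE (R : Type*) [Field R] : ℒ R :=
  HahnSeries.ofPowerSeries ℤ R (etaProd.map (Int.castRingHom R))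

/-- truncated product -/
def Em (R : Type*) [Field R] (m : ℕ) : ℒ R :=
  ∏ k ∈ Finset.range m, (1 - TT R ^ (k + 1))

theorem Em_eq (m : ℕ) : Em R m = HahnSeries.ofPowerSeries ℤ R
    ((∏ k ∈ Finset.range m, (1 - PowerSeries.X ^ (k + 1) : PowerSeries ℤ)).map
      (Int.castRingHom R)) := by
  rw [Em, map_prod, map_prod]
  refine Finset.prod_congr rfl fun k _ => ?_
  rw [map_sub, map_one, map_pow, PowerSeries.map_X, map_sub, map_one, map_pow,
    HahnSeries.ofPowerSeries_X]
  rfl

theorem TT_orderTop : (TT R).orderTop = 1 := HahnSeries.orderTop_single one_ne_zero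

theorem near_fac (k : ℕ) : Near k (1 - TT R ^ (k + 1)) := by
  have e : 1 - TT R ^ (k + 1) - 1 = -(TT R ^ (k + 1)) := by ring
  rw [Near, e, HahnSeries.orderTop_neg, TT, HahnSeries.single_pow, one_pow,
    HahnSeries.orderTop_single one_ne_zero]
  simp

theorem near_Em (m : ℕ) : Near 0 (Em R m) :=
  Near.prod _ fun k _ => (near_fac k).mono (Nat.zero_le k)

/-- approximation of Euler's product -/
theorem near_EE (m : ℕ) : Near m (EE R * (Em R m)⁻¹) := by
  have h0 := near_Em (R := R) m
  have e : EE R * (Em R m)⁻¹ - 1 = (EE R - Em R m) * (Em R m)⁻¹ := by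
    rw [sub_mul, mul_inv_cancel₀ h0.ne_zero]
  rw [Near, e, HahnSeries.orderTop_mul, h0.inv.orderTop, add_zero,
    HahnSeries.le_orderTop_iff_forall]
  intro i hi
  rw [WithTop.coe_lt_coe] at hi
  rw [EE, Em_eq, ← map_sub, ← map_sub]
  rcases lt_or_ge i 0 with h | h
  · exact (PowerSeries.coeff_coe _ i).trans (if_pos h)
  · obtain ⟨j, rfl⟩ := Int.eq_ofNat_of_zero_le h
    rw [HahnSeries.ofPowerSeries_apply_coeff, PowerSeries.coeff_map, map_sub,
      GoodRed.coeff_etaProd m j (by omega), sub_self, map_zero]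

theorem fac_eq (k : ℕ) : (1 - TT R ^ (k + 1)) = qExpand R (k + 1) (1 - TT R) := by
  rw [map_sub, map_one, qExpand_TT]

theorem prodTwist_fac [HasPrim R r] (hr : r.Prime) {k : ℕ} (hk : ¬ r ∣ k + 1) :
    prodTwist r (1 - TT R ^ (k + 1)) = qExpand R r (1 - TT R ^ (k + 1)) := by
  rw [fac_eq, prodTwist_qExpand ((Nat.Prime.coprime_iff_not_dvd hr).2 hk), prodTwist_one_sub,
    qExpand_comm]

theorem prodTwist_fac' [HasPrim R r] {k j : ℕ} (hk : k = r * j) :
    prodTwist r (1 - TT R ^ k) = (qExpand R r (1 - TT R ^ j)) ^ r := by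
  have e : (1 - TT R ^ k) = qExpand R r (1 - TT R ^ j) := by
    rw [map_sub, map_one, map_pow, qExpand_TT, hk, pow_mul]
  rw [e, prodTwist_qExpand_self]

theorem prodTwist_prod [HasPrim R r] {ι : Type*} (s : Finset ι) (f : ι → ℒ R) :
    prodTwist r (∏ i ∈ s, f i) = ∏ i ∈ s, prodTwist r (f i) := by
  classical
  induction s using Finset.induction_on with
  | empty => rw [Finset.prod_empty, Finset.prod_empty, prodTwist_one]
  | insert a s ha ih => rw [Finset.prod_insert ha, Finset.prod_insert ha, prodTwist_mul, ih]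

/-- the finite identity -/
theorem finite_identity [HasPrim R r] (hr : r.Prime) (m : ℕ) :
    prodTwist r (Em R (r * m)) * qExpand R r (qExpand R r (Em R m)) =
      qExpand R r (Em R (r * m)) * (qExpand R r (Em R m)) ^ r := by
  induction m with
  | zero =>
    simp only [mul_zero, Em, Finset.prod_range_zero, map_one, prodTwist_one, one_pow]
  | succ m ih =>
    obtain ⟨s, hs⟩ : ∃ s, r = s + 1 := ⟨r - 1, by have := hr.one_lt; omega⟩
    have e1 : Em R (r * (m + 1)) = Em R (r * m) *
        ((∏ i ∈ Finset.range s, (1 - TT R ^ (r * m + i + 1))) * (1 - TT R ^ (r * (m + 1)))) := by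
      rw [Em, Em, mul_add, mul_one, Finset.prod_range_add]
      congr 1
      conv_lhs => rw [show Finset.range r = Finset.range (s + 1) from by rw [hs]]
      rw [Finset.prod_range_succ]
      congr 3
      omega
    have e2 : Em R (m + 1) = Em R m * (1 - TT R ^ (m + 1)) := by
      rw [Em, Em, Finset.prod_range_succ]
    have e3 : prodTwist r (∏ i ∈ Finset.range s, (1 - TT R ^ (r * m + i + 1))) =
        qExpand R r (∏ i ∈ Finset.range s, (1 - TT R ^ (r * m + i + 1))) := by
      rw [prodTwist_prod, map_prod]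
      refine Finset.prod_congr rfl fun i hi => prodTwist_fac hr ?_
      rw [Finset.mem_range] at hi
      intro h
      have h1 : r ∣ i + 1 := by
        have h2 : r * m + i + 1 = r * m + (i + 1) := by ring
        rw [h2] at h
        exact (Nat.dvd_add_right (dvd_mul_right r m)).mp h
      have := Nat.le_of_dvd (Nat.succ_pos i) h1
      omega
    have e4 := prodTwist_fac' (R := R) (r := r) (k := r * (m + 1)) (j := m + 1) rfl
    have e5 : (1 - TT R ^ (r * (m + 1))) = qExpand R r (1 - TT R ^ (m + 1)) := by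
      rw [map_sub, map_one, map_pow, qExpand_TT, pow_mul]
    set A := ∏ i ∈ Finset.range s, (1 - TT R ^ (r * m + i + 1)) with hA
    set f := (1 - TT R ^ (m + 1)) with hf
    rw [e1, e2, prodTwist_mul, prodTwist_mul, e3, e4, e5]
    simp only [map_mul, mul_pow]
    linear_combination (qExpand R r A * qExpand R r f ^ r * qExpand R r (qExpand R r f)) * ih

/-- **Euler's product and the multiplicative Hecke operator** -/
theorem hM_EE [HasPrim R r] (hr : r.Prime) : hM r (EE R) = EE R ^ (r + 1) := by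
  have key : prodTwist r (EE R) * qExpand R r (qExpand R r (EE R)) *
      ((qExpand R r (EE R)) ^ (r + 1))⁻¹ = 1 := by
    apply eq_one_of_near
    intro m
    have h1 := near_EE (R := R) m
    have h2 : Near m (EE R * (Em R (r * m))⁻¹) :=
      (near_EE (R := R) (r * m)).mono (Nat.le_mul_of_pos_left m hr.pos)
    have n1 := (near_Em (R := R) m).ne_zero
    have n2 := (near_Em (R := R) (r * m)).ne_zero
    set e := EE R * (Em R m)⁻¹ with he
    set e' := EE R * (Em R (r * m))⁻¹ with he'
    have E1 : EE R = e * Em R m := by rw [he, inv_mul_cancel_right₀ n1]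
    have E2 : EE R = e' * Em R (r * m) := by rw [he', inv_mul_cancel_right₀ n2]
    have q0 : ∀ {x : ℒ R}, x ≠ 0 → qExpand R r x ≠ 0 := fun hx =>
      (map_ne_zero_iff _ (qExpand_injective r)).mpr hx
    have hP : Near m (prodTwist r e') := Near.prod _ fun x _ => h2.twist _
    have hN : Near m (prodTwist r e' * qExpand R r (qExpand R r e) *
        ((qExpand R r e') * (qExpand R r e) ^ r)⁻¹) :=
      (hP.mul ((h1.qExpand r).qExpand r)).mul (((h2.qExpand r).mul ((h1.qExpand r).pow r)).inv)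
    convert hN using 1
    have E3 : (qExpand R r (EE R)) ^ (r + 1) =
        (qExpand R r e' * qExpand R r (Em R (r * m))) *
          ((qExpand R r e) ^ r * (qExpand R r (Em R m)) ^ r) := by
      rw [pow_succ, mul_comm]
      congr 1
      · conv_lhs => rw [E2]
        rw [map_mul]
      · conv_lhs => rw [E1]
        rw [map_mul, mul_pow]
    have E4 : prodTwist r (EE R) = prodTwist r e' * prodTwist r (Em R (r * m)) := by
      conv_lhs => rw [E2]
      rw [prodTwist_mul]
    have E5 : qExpand R r (qExpand R r (EE R)) =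
        qExpand R r (qExpand R r e) * qExpand R r (qExpand R r (Em R m)) := by
      conv_lhs => rw [E1]
      rw [map_mul, map_mul]
    rw [E3, E4, E5]
    have hid := finite_identity (R := R) hr m
    have a1 := q0 n1
    have a2 := q0 n2
    have a3 := q0 h1.ne_zero
    have a4 := q0 h2.ne_zero
    rw [← div_eq_mul_inv, ← div_eq_mul_inv, div_eq_div_iff]
    · linear_combination (prodTwist r e' * qExpand R r (qExpand R r e) *
        (qExpand R r e' * qExpand R r e ^ r)) * hid
    · exact mul_ne_zero (mul_ne_zero a4 a2) (mul_ne_zero (pow_ne_zero _ a3) (pow_ne_zero _ a1))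
    · exact mul_ne_zero a4 (pow_ne_zero _ a3)
  have hE0 : qExpand R r (EE R) ≠ 0 := by
    have h1 := near_EE (R := R) 0
    have hE : EE R ≠ 0 := by
      intro h
      rw [h, zero_mul] at h1
      exact h1.ne_zero rfl
    exact (map_ne_zero_iff _ (qExpand_injective r)).mpr hE
  rw [mul_inv_eq_one₀ (pow_ne_zero _ hE0)] at key
  apply qExpand_inj r
  rw [hM, map_mul, qExpand_hW, map_pow, ← key, mul_comm]

theorem hM_C [HasPrim R r] (c : R) : hM r (HahnSeries.C c : ℒ R) = HahnSeries.C (c ^ (r + 1)) := by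
  have h1 : hW r (HahnSeries.C c : ℒ R) = HahnSeries.C (c ^ r) := by
    refine (hW_unique r ?_).symm
    have h : ∀ x : rootsOfUnity r R, twist (x : Rˣ) (HahnSeries.C c : ℒ R) = HahnSeries.C c :=
      fun x => twist_C (x : Rˣ) c
    rw [qExpand_C, prodTwist, Finset.prod_congr rfl (fun x _ => h x),
      Finset.prod_const, Finset.card_univ, card_rootsOfUnity, map_pow]
  rw [hM, h1, qExpand_C, ← map_mul, pow_succ, mul_comm]

theorem DeltaSer_eq_TT : DeltaSer R = TT R * EE R ^ 24 := by
  rw [DeltaSer, TT, EE, dedekindEtaUnit, map_pow, map_pow]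

/-- `T_r Δ = c Δ ^ (r + 1)` -/
theorem exists_hM_Delta [HasPrim R r] (hr : r.Prime) :
    ∃ c : R, c ≠ 0 ∧ hM r (DeltaSer R) = HahnSeries.C c * DeltaSer R ^ (r + 1) := by
  obtain ⟨c, hc, h⟩ := exists_hM_TT (R := R) (r := r)
  refine ⟨c, hc, ?_⟩
  rw [DeltaSer_eq_TT, hM_mul, hM_pow, hM_EE hr, h]
  ring

/-- `T_r g = g ^ (r + 1)` for `g = Δ(T) / Δ(T^q)` -/
theorem hM_delta [HasPrim R r] (hr : r.Prime) {q : ℕ} [NeZero q] (hq : Nat.Coprime r q) :
    hM r (DeltaSer R * qExpand R q (DeltaInvSer R)) =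
      (DeltaSer R * qExpand R q (DeltaInvSer R)) ^ (r + 1) := by
  obtain ⟨c, hc, h⟩ := exists_hM_Delta (R := R) hr
  have hC : (HahnSeries.C c : ℒ R) ≠ 0 := by
    exact (map_ne_zero (HahnSeries.C : R →+* ℒ R)).mpr hc
  have hD : DeltaSer R ≠ 0 := DeltaSer_ne_zero
  have h1 : DeltaSer R * DeltaInvSer R = 1 := DeltaSer_mul_inv R
  have hDi : DeltaInvSer R ≠ 0 := right_ne_zero_of_mul_eq_one h1
  have h2 : hM r (DeltaInvSer R) = (HahnSeries.C c)⁻¹ * DeltaInvSer R ^ (r + 1) := by
    have h3 : hM r (DeltaSer R) * hM r (DeltaInvSer R) = 1 := by rw [← hM_mul, h1, hM_one]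
    rw [h] at h3
    have h4 : DeltaSer R ^ (r + 1) * DeltaInvSer R ^ (r + 1) = 1 := by
      rw [← mul_pow, h1, one_pow]
    have h5 := pow_ne_zero (r + 1) hD
    apply mul_left_cancel₀ (mul_ne_zero hC h5)
    rw [h3]
    rw [show HahnSeries.C c * DeltaSer R ^ (r + 1) *
      ((HahnSeries.C c)⁻¹ * DeltaInvSer R ^ (r + 1)) = (HahnSeries.C c * (HahnSeries.C c)⁻¹) *
        (DeltaSer R ^ (r + 1) * DeltaInvSer R ^ (r + 1)) by ring, h4, mul_inv_cancel₀ hC, one_mul]
  rw [hM_mul, hM_qExpand hq, h, h2, map_mul, map_inv₀, qExpand_C, map_pow, mul_pow]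
  field_simp

end Fermat.Agent.MazurP
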