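import Fermat.Agent.TorLift.ModInst
import Fermat.Agent.SSMod.NormU
import Fermat.Agent.HeckeQ.Inst
import Fermat.Agent.AnJacH.ESG
import Fermat.Agent.GoodRed.HeckeNorm
import Fermat.Agent.SSMod.Eich

/-!
# Multiplicative Hecke operators in characteristic `q`
-/

set_option autoImplicit false
set_option linter.unusedSectionVars false
set_option linter.style.haveILetI false
set_option synthInstance.maxHeartbeats 400000

noncomputable section

namespace Fermat.Agent.MazurP

open AlgebraicCurve Fermat.Agent.Curves Fermat.Agent.GoodRed Polynomial ModularCurve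
open Fermat.Agent.Models Fermat.Agent.SSMod IntermediateField Fermat.Agent.HeckeQ
open Fermat.Agent.ModFun Fermat.Agent.TorLift

local notation "ℒ" => LaurentSeries

section Prim

/-- tame roots of unity reduce to primitive roots of unity -/
theorem map_prim {R κ : Type*} [CommRing R] [IsDomain R] [CommRing κ] [IsDomain κ] (π : R →+* κ)
    {r : ℕ} (hr : r.Prime) (hrκ : (r : κ) ≠ 0) {ζ : Rˣ} (hζ : IsPrimitiveRoot ζ r) :
    IsPrimitiveRoot (Units.map (π : R →* κ) ζ) r := by
  haveI : Fact r.Prime := ⟨hr⟩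
  have h1 : (Units.map (π : R →* κ) ζ) ^ r = 1 := by rw [← map_pow, hζ.pow_eq_one, map_one]
  have h2 : Units.map (π : R →* κ) ζ ≠ 1 := by
    intro h
    have h3 : IsPrimitiveRoot (ζ : R) r :=
      hζ.map_of_injective (f := Units.coeHom R) Units.val_injective
    have h4 := h3.geom_sum_eq_zero hr.one_lt
    have h5 := congrArg π h4
    rw [map_sum, map_zero] at h5
    have h6 : π (ζ : R) = 1 := congrArg Units.val h
    simp only [map_pow, h6, one_pow, Finset.sum_const, Finset.card_range, nsmul_eq_mul,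
      mul_one] at h5
    exact hrκ h5
  have h3 := orderOf_eq_prime h1 h2
  rw [← h3]
  exact IsPrimitiveRoot.orderOf _

variable {R κ : Type*} [CommRing R] [IsDomain R] [CommRing κ] [IsDomain κ] (π : R →+* κ)
  {r : ℕ} [NeZero r] [hR : HasPrim R r] [HasPrim κ r]

include hR in
theorem map_prodTwist (hr : r.Prime) (hrκ : (r : κ) ≠ 0) (u : ℒ R) :
    coeffMap π (prodTwist r u) = prodTwist r (coeffMap π u) := by
  obtain ⟨ζ, hζ⟩ := hR.ex
  rw [prodTwist_eq_range r hζ, prodTwist_eq_range r (map_prim π hr hrκ hζ), map_prod]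
  refine Finset.prod_congr rfl fun j _ => ?_
  rw [coeffMap_twist, map_pow]

theorem map_hW (hr : r.Prime) (hrκ : (r : κ) ≠ 0) (u : ℒ R) :
    coeffMap π (hW r u) = hW r (coeffMap π u) :=
  hW_unique r (by rw [← coeffMap_qExpand, qExpand_hW, map_prodTwist π hr hrκ])

theorem map_hM (hr : r.Prime) (hrκ : (r : κ) ≠ 0) (u : ℒ R) :
    coeffMap π (hM r u) = hM r (coeffMap π u) := by
  rw [hM, hM, map_mul, map_hW π hr hrκ, coeffMap_qExpand]

end Prim

theorem hasPrim_alg {κ : Type*} [Field κ] [IsAlgClosed κ] {r : ℕ} (hr : r ≠ 0)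
    (hrκ : (r : κ) ≠ 0) : HasPrim κ r := by
  haveI : NeZero r := ⟨hr⟩
  haveI : NeZero (r : κ) := ⟨hrκ⟩
  obtain ⟨ζ, hζ⟩ := HasEnoughRootsOfUnity.exists_primitiveRoot κ r
  have hζ0 : ζ ≠ 0 := hζ.ne_zero hr
  refine ⟨Units.mk0 ζ hζ0, ?_⟩
  have h3 : IsPrimitiveRoot ((Units.coeHom κ) (Units.mk0 ζ hζ0)) r := hζ
  exact h3.of_map_of_injective (fun x y h => Units.ext h)

section LR

variable {K κ : Type*} [Field K] [Field κ] {A : ValuationSubring K} {π : A →+* κ}
  {r : ℕ} [NeZero r]

theorem LR_hM [HasPrim A r] [HasPrim K r] [HasPrim κ r] (hr : r.Prime) (hrκ : (r : κ) ≠ 0)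
    {x : ℒ K} {y : ℒ κ} (h : LR π x y) : LR π (hM r x) (hM r y) := by
  obtain ⟨f, g, hg, h1, h2⟩ := h
  refine ⟨hM r f, hM r g, ?_, ?_, ?_⟩
  · rw [map_hM π hr hrκ]
    exact hM_ne_zero r hg
  · rw [coeffMap_hM r A.subtype Subtype.val_injective, coeffMap_hM r A.subtype
      Subtype.val_injective, ← hM_mul, h1]
  · rw [map_hM π hr hrκ, map_hM π hr hrκ, ← hM_mul, h2]

end LR

/-! ### the norm formula in residue characteristic `q` -/

section Deg

variable {k : Type*} [Field k] [IsAlgClosed k] {r M : ℕ} [NeZero r] [NeZero M]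

theorem finrank_incl' {F L : IntermediateField k (LaurentSeries k)} (hle : F ≤ L)
    (α : F →ₐ[k] L) (hα : ∀ x, (α x : LaurentSeries k) = x) :
    (letI := algebraAlong α; Module.finrank F L) = relfinrank F L := by
  letI := algebraAlong α
  rw [relfinrank_eq_finrank_of_le hle]
  let e : L ≃ₗ[F] extendScalars hle :=
    { toFun := fun x => ⟨x.1, x.2⟩
      invFun := fun x => ⟨x.1, x.2⟩
      left_inv := fun x => rfl
      right_inv := fun x => rfl
      map_add' := fun x y => rfl
      map_smul' := fun r x => by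
        apply Subtype.ext
        change ((α r * x : L) : LaurentSeries k) = (r : LaurentSeries k) * (x : LaurentSeries k)
        rw [← hα r]
        rfl }
  exact e.finrank_eq

theorem finrank_alpha (hr : r.Prime) (hrM : ¬ r ∣ M) (hk : ((r * M : ℕ) : k) ≠ 0) :
    (letI := algebraAlong (alpha k r M); Module.finrank (modularFunctionFieldFullC k M) (modularFunctionFieldFullC k (r * M))) =
      r + 1 := by
  have hle : modularFunctionFieldFullC k M ≤ modularFunctionFieldFullC k (r * M) :=
    full_degeneracyC_le (K := k) (dvd_mul_left M r)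
  have h1 := finrank_incl' hle (alpha k r M) (fun x => coe_alpha x)
  rw [h1]
  exact relfinrank_full (k := k) (N := M) (p := r) hr hrM hk

end Deg

section Norm

variable {K κ : Type*} [Field K] [Field κ] {A : ValuationSubring K} (π : A →+* κ)
  [IsLocalHom π] [IsAlgClosed K] [IsAlgClosed κ] [CharZero K] {r M : ℕ} [NeZero r] [NeZero M]

theorem hM_mem_K [HasPrim K r] (hr : r.Prime) (hrM : ¬ r ∣ M) {x : ℒ K}
    (hx : x ∈ modularFunctionFieldFullC K M) : hM r x ∈ modularFunctionFieldFullC K M := by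
  haveI : Fact r.Prime := ⟨hr⟩
  have h := hecke_norm_aux (k := K) r M hrM (F := modularFunctionFieldFullC K M)
    (L := modularFunctionFieldFullC K (r * M)) rfl (by rw [mul_comm]) (alpha K r M) (beta K r M)
    (fun x => coe_alpha x) (fun x => coe_beta x) ⟨x, hx⟩
  rw [← h]
  exact SetLike.coe_mem _

include π in
theorem hM_mem_κ [HasPrim A r] [HasPrim K r] [HasPrim κ r] (hπ : Function.Surjective π)
    (hr : r.Prime) (hrM : ¬ r ∣ M) (hrκ : (r : κ) ≠ 0) (hMκ : (M : κ) ≠ 0) {y : ℒ κ}
    (hy : y ∈ modularFunctionFieldFullC κ M) : hM r y ∈ modularFunctionFieldFullC κ M := by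
  have hMK : (M : K) ≠ 0 := by exact_mod_cast NeZero.ne M
  obtain ⟨x, hx, hxy⟩ := lift_N π M hπ hMK hMκ hy
  exact red_mem_N π M hπ hMK hMκ (hM_mem_K hr hrM hx) (LR_hM hr hrκ hxy)

include π in
set_option maxHeartbeats 1600000 in
/-- **The norm formula** in residue characteristic `q`. -/
theorem norm_κ [HasPrim A r] [HasPrim K r] [HasPrim κ r] (hπ : Function.Surjective π)
    (hrk : GoodRed.RankOne π)
    (hr : r.Prime) (hrM : ¬ r ∣ M) (hrκ : (r : κ) ≠ 0) (hMκ : (M : κ) ≠ 0)
    (f : modularFunctionFieldFullC κ M) :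
    ((letI := algebraAlong (alpha κ r M); Algebra.norm (modularFunctionFieldFullC κ M) (beta κ r M f) :
      modularFunctionFieldFullC κ M) : ℒ κ) = hM r (f : ℒ κ) := by
  haveI : Fact r.Prime := ⟨hr⟩
  have hMK : (M : K) ≠ 0 := by exact_mod_cast NeZero.ne M
  have hrMK : ((r * M : ℕ) : K) ≠ 0 := by
    exact_mod_cast mul_ne_zero hr.ne_zero (NeZero.ne M)
  have hrMκ : ((r * M : ℕ) : κ) ≠ 0 := by
    rw [Nat.cast_mul]; exact mul_ne_zero hrκ hMκ
  haveI := isFunctionField_fullC K M hMK
  haveI := isFunctionField_fullC κ M hMκ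
  haveI := isFunctionField_fullC K (r * M) hrMK
  haveI := isFunctionField_fullC κ (r * M) hrMκ
  obtain ⟨x, hx, hxy⟩ := lift_N π M hπ hMK hMκ f.2
  letI := algebraAlong (alpha K r M)
  haveI := isScalarTower_along (alpha K r M)
  letI := algebraAlong (alpha κ r M)
  haveI := isScalarTower_along (alpha κ r M)
  set C₀ := cGood π M hπ hMK hMκ with hC₀
  set C₁ := cGood π (r * M) hπ hrMK hrMκ with hC₁
  have ha : ∀ z ∈ C₀.O, LR π ((alpha K r M z : modularFunctionFieldFullC K (r * M)) : ℒ K)
      ((alpha κ r M (C₀.r z) : modularFunctionFieldFullC κ (r * M)) : ℒ κ) := by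
    intro z hz
    rw [coe_alpha, coe_alpha]
    exact cGood_spec π M hz
  have hO : Over C₀ (one C₁) := by
    constructor
    · intro _ z hz
      exact (cGood_r_eq π (r * M) (ha z hz)).1
    · intro _ z hz
      exact (cGood_r_eq π (r * M) (ha z hz)).2
  have hd1 : Module.finrank (modularFunctionFieldFullC K M) (modularFunctionFieldFullC K (r * M)) =
      r + 1 := finrank_alpha hr hrM hrMK
  have hd2 : Module.finrank (modularFunctionFieldFullC κ M) (modularFunctionFieldFullC κ (r * M)) =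
      r + 1 := finrank_alpha hr hrM hrMκ
  haveI : FiniteDimensional (modularFunctionFieldFullC K M) (modularFunctionFieldFullC K (r * M)) :=
    Module.finite_of_finrank_pos (by omega)
  haveI : FiniteDimensional (modularFunctionFieldFullC κ M) (modularFunctionFieldFullC κ (r * M)) :=
    Module.finite_of_finrank_pos (by omega)
  haveI : Infinite κ := IsAlgClosed.instInfinite
  have hb : LR π ((beta K r M ⟨x, hx⟩ : modularFunctionFieldFullC K (r * M)) : ℒ K)
      ((beta κ r M f : modularFunctionFieldFullC κ (r * M)) : ℒ κ) := by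
    rw [coe_beta, coe_beta]
    exact LR_qExpand hxy
  have hb' := cGood_r_eq π (r * M) (hπ := hπ) (hNK := hrMK) (hNκ := hrMκ) hb
  have key := (hO.norm (baseRes_rankOne π hπ hrk) (incomp_one C₁)
    (by rw [Fintype.sum_unique, hd1, hd2]) (beta K r M ⟨x, hx⟩) (fun _ => hb'.1)).2
  rw [Fintype.prod_unique] at key
  have h1 := hecke_norm_aux (k := K) r M hrM (F := modularFunctionFieldFullC K M)
    (L := modularFunctionFieldFullC K (r * M)) rfl (by rw [mul_comm]) (alpha K r M) (beta K r M)
    (fun x => coe_alpha x) (fun x => coe_beta x) ⟨x, hx⟩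
  have h2 : LR π ((Algebra.norm (modularFunctionFieldFullC K M) (beta K r M ⟨x, hx⟩) :
      modularFunctionFieldFullC K M) : ℒ K) (hM r (f : ℒ κ)) := by
    rw [h1]
    exact LR_hM hr hrκ hxy
  have hmem : hM r (f : ℒ κ) ∈ modularFunctionFieldFullC κ M :=
    red_mem_N π M hπ hMK hMκ (SetLike.coe_mem _) h2
  have h3 := (cGood_r_eq π M (hπ := hπ) (hNK := hMK) (hNκ := hMκ)
    (y := (⟨_, hmem⟩ : modularFunctionFieldFullC κ M)) h2).2
  rw [← hC₀] at h3
  rw [h3] at key
  have h4 : (one C₁ ()).r (beta K r M ⟨x, hx⟩) = beta κ r M f := hb'.2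
  have h5 : Algebra.norm (modularFunctionFieldFullC κ M) (beta κ r M f) = ⟨_, hmem⟩ := by
    rw [← h4]; exact key.symm
  rw [h5]

end Norm

end Fermat.Agent.MazurP
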