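import Fermat.Agent.MazurP.HeckeRed

/-!
# Atkin–Lehner automorphisms commute with Hecke operators
-/

set_option autoImplicit false
set_option linter.unusedSectionVars false
set_option linter.unusedVariables false
set_option linter.style.haveILetI false
set_option synthInstance.maxHeartbeats 400000

noncomputable section

namespace Fermat.Agent.MazurP

open AlgebraicCurve Fermat.Agent.Curves Fermat.Agent.GoodRed ModularCurve
open Fermat.Agent.Models Fermat.Agent.SSMod IntermediateField Fermat.Agent.HeckeQ
open Fermat.Agent.ModFun Fermat.Agent.TorLift Fermat.Agent.AnJac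

local notation "ℒ" => LaurentSeries

variable {K : Type*} [Field K] [IsAlgClosed K] [CharZero K] {q M r : ℕ} [NeZero q] [NeZero M]
  [NeZero r]

theorem level_eq : r * (q * M) = q * (r * M) := by ring

variable (K q M r) in
/-- the inclusion `F_{qM} ⊆ F_{qrM}` -/
def incA : modularFunctionFieldFullC K (q * M) →ₐ[K] modularFunctionFieldFullC K (q * (r * M)) where
  toFun x := ⟨(x : ℒ K), level_eq (q := q) (M := M) (r := r) ▸ mem_up K r x.2⟩
  map_one' := rfl
  map_mul' x y := rfl
  map_zero' := rfl
  map_add' x y := rfl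
  commutes' c := rfl

theorem coe_incA (x : modularFunctionFieldFullC K (q * M)) :
    (incA K q M r x : ℒ K) = x :=
  Subtype.coe_mk (x : ℒ K) (level_eq (q := q) (M := M) (r := r) ▸ mem_up K r x.2)

variable (K q M r) in
/-- `f(T) ↦ f(T^r)` -/
def incB : modularFunctionFieldFullC K (q * M) →ₐ[K] modularFunctionFieldFullC K (q * (r * M)) where
  toFun x := ⟨qExpand K r (x : ℒ K), level_eq (q := q) (M := M) (r := r) ▸ qExpand_mem K r x.2⟩
  map_one' := Subtype.ext (map_one (qExpand K r))
  map_mul' x y := Subtype.ext (map_mul (qExpand K r) (x : ℒ K) (y : ℒ K))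
  map_zero' := Subtype.ext (map_zero (qExpand K r))
  map_add' x y := Subtype.ext (map_add (qExpand K r) (x : ℒ K) (y : ℒ K))
  commutes' c := Subtype.ext (by
    show qExpand K r (algebraMap K (ℒ K) c) = algebraMap K (ℒ K) c
    rw [← ModFun.C_eq_algebraMap, qExpand_C])

theorem coe_incB (x : modularFunctionFieldFullC K (q * M)) :
    (incB K q M r x : ℒ K) = qExpand K r (x : ℒ K) :=
  Subtype.coe_mk (qExpand K r (x : ℒ K))
    (level_eq (q := q) (M := M) (r := r) ▸ qExpand_mem K r x.2)

variable (ι : K →+* ℂ) (hqM : Nat.Coprime q M) (hqrM : Nat.Coprime q (r * M))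

theorem al_incA (x : modularFunctionFieldFullC K (q * M)) :
    al ι hqrM (incA K q M r x) = incA K q M r (al ι hqM x) := by
  have h : (al ι hqrM).toRingHom.comp (incA K q M r).toRingHom =
      (incA K q M r).toRingHom.comp (al ι hqM).toRingHom := by
    apply ringHom_ext_gj
    · intro c
      show al ι hqrM (incA K q M r _) = incA K q M r (al ι hqM _)
      rw [AlgHom.commutes, al_const, al_const, AlgHom.commutes]
    · intro δ h0 hδ
      show al ι hqrM (incA K q M r _) = incA K q M r (al ι hqM _)
      have hδ' : δ ∣ q * (r * M) := hδ.trans (mul_dvd_mul_left q (dvd_mul_left M r))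
      have e1 : incA K q M r (gj K δ h0 hδ) = gj K δ h0 hδ' := Subtype.ext (coe_incA _)
      rw [e1, al_gj, al_gj]
      apply Subtype.ext
      rw [coe_incA]
      show genx K _ (swapDiv_ne_zero hqrM hδ') = genx K _ (swapDiv_ne_zero hqM hδ)
      apply genx_congr
      obtain ⟨d, e, hd, he, rfl⟩ := exists_div_decomp hqM hδ
      rw [swapDiv_mul hqM hd he, swapDiv_mul hqrM hd (he.mul_left r)]
  exact DFunLike.congr_fun h x

theorem al_incB (x : modularFunctionFieldFullC K (q * M)) :
    al ι hqrM (incB K q M r x) = incB K q M r (al ι hqM x) := by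
  have h : (al ι hqrM).toRingHom.comp (incB K q M r).toRingHom =
      (incB K q M r).toRingHom.comp (al ι hqM).toRingHom := by
    apply ringHom_ext_gj
    · intro c
      show al ι hqrM (incB K q M r _) = incB K q M r (al ι hqM _)
      rw [AlgHom.commutes, al_const, al_const, AlgHom.commutes]
    · intro δ h0 hδ
      show al ι hqrM (incB K q M r _) = incB K q M r (al ι hqM _)
      have hδ' : r * δ ∣ q * (r * M) := by
        rw [← level_eq]; exact mul_dvd_mul_left r hδ
      have e1 : incB K q M r (gj K δ h0 hδ) = gj K (r * δ) (mul_ne_zero (NeZero.ne r) h0) hδ' := by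
        apply Subtype.ext
        rw [coe_incB]
        exact qExpand_genx K r δ h0
      rw [e1, al_gj, al_gj]
      apply Subtype.ext
      rw [coe_incB]
      show genx K _ (swapDiv_ne_zero hqrM hδ') = qExpand K r (genx K _ (swapDiv_ne_zero hqM hδ))
      rw [qExpand_genx]
      apply genx_congr
      obtain ⟨d, e, hd, he, rfl⟩ := exists_div_decomp hqM hδ
      rw [swapDiv_mul hqM hd he, show r * (d * e) = d * (r * e) by ring,
        swapDiv_mul hqrM hd (mul_dvd_mul_left r he)]
      ring
  exact DFunLike.congr_fun h x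

/-- **Atkin–Lehner commutes with Hecke operators.** -/
theorem al_hM [HasPrim K r] (hr : r.Prime) (hrN : ¬ r ∣ q * M)
    {u v : modularFunctionFieldFullC K (q * M)} (hv : (v : ℒ K) = hM r (u : ℒ K)) :
    ((al ι hqM v : modularFunctionFieldFullC K (q * M)) : ℒ K) =
      hM r ((al ι hqM u : modularFunctionFieldFullC K (q * M)) : ℒ K) := by
  haveI : Fact r.Prime := ⟨hr⟩
  haveI : NeZero (q * M) := ⟨Nat.mul_ne_zero (NeZero.ne q) (NeZero.ne M)⟩
  have hqr : Nat.Coprime q r := (Nat.Prime.coprime_iff_not_dvd hr).2
    (fun h => hrN (h.mul_right M)) |>.symm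
  have hqrM : Nat.Coprime q (r * M) := Nat.Coprime.mul_right hqr hqM
  have hn : ∀ w : modularFunctionFieldFullC K (q * M),
      ((letI := algebraAlong (incA K q M r);
        Algebra.norm (modularFunctionFieldFullC K (q * M)) (incB K q M r w) :
        modularFunctionFieldFullC K (q * M)) : ℒ K) = hM r (w : ℒ K) :=
    fun w => hecke_norm_aux (k := K) r (q * M) hrN (F := modularFunctionFieldFullC K (q * M))
      (L := modularFunctionFieldFullC K (q * (r * M))) rfl
      (by rw [← level_eq, mul_comm]) (incA K q M r) (incB K q M r) (fun x => coe_incA x) (fun x => coe_incB x) w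
  letI := algebraAlong (incA K q M r)
  have key := Algebra.norm_eq_of_equiv_equiv (al ι hqM) (al ι hqrM)
    (A₁ := modularFunctionFieldFullC K (q * M)) (A₂ := modularFunctionFieldFullC K (q * M))
    (B₁ := modularFunctionFieldFullC K (q * (r * M)))
    (B₂ := modularFunctionFieldFullC K (q * (r * M)))
    (RingHom.ext fun x => (al_incA ι hqM hqrM x).symm) (incB K q M r u)
  rw [al_incB ι hqM hqrM] at key
  have e1 : v = Algebra.norm (modularFunctionFieldFullC K (q * M)) (incB K q M r u) :=
    Subtype.ext (hv.trans (hn u).symm)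
  rw [e1, key, RingEquiv.apply_symm_apply]
  exact hn _

end Fermat.Agent.MazurP
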