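import Mathlib

/-!
# The theorem of Boston, Lenstra and Ribet, and the end of the proof of Mazur's principle
-/

set_option autoImplicit false
set_option linter.unusedSectionVars false

noncomputable section

namespace Fermat.Agent.MazurP

variable {k : Type*} [Field k] {G : Type*} [Group G]

section Star

/-- the anti-automorphism `g ↦ χ(g) g⁻¹` of the group algebra -/
def starM (χ : G →* k) : G →* (MonoidAlgebra k G)ᵐᵒᵖ where
  toFun g := MulOpposite.op (χ g • MonoidAlgebra.of k G g⁻¹)
  map_one' := by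
    rw [map_one, one_smul, inv_one, map_one]; rfl
  map_mul' g h := by
    rw [← MulOpposite.op_mul]
    congr 1
    rw [map_mul, mul_inv_rev, map_mul, smul_mul_assoc, mul_smul_comm, smul_smul, mul_comm (χ g)]

/-- the anti-automorphism `g ↦ χ(g) g⁻¹` of the group algebra -/
def star' (χ : G →* k) (x : MonoidAlgebra k G) : MonoidAlgebra k G :=
  MulOpposite.unop (MonoidAlgebra.lift k _ G (starM χ) x)

theorem star'_mul (χ : G →* k) (x y : MonoidAlgebra k G) :
    star' χ (x * y) = star' χ y * star' χ x := by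
  rw [star', map_mul, MulOpposite.unop_mul]; rfl

theorem star'_add (χ : G →* k) (x y : MonoidAlgebra k G) :
    star' χ (x + y) = star' χ x + star' χ y := by
  rw [star', map_add, MulOpposite.unop_add]; rfl

theorem star'_smul (χ : G →* k) (c : k) (x : MonoidAlgebra k G) :
    star' χ (c • x) = c • star' χ x := by
  rw [star', map_smul, MulOpposite.unop_smul]; rfl

theorem star'_of (χ : G →* k) (g : G) :
    star' χ (MonoidAlgebra.of k G g) = χ g • MonoidAlgebra.of k G g⁻¹ := by
  rw [star', MonoidAlgebra.lift_of]; rfl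

end Star

/-- **Boston–Lenstra–Ribet**: an algebra in which the quadratic relations of `ρ` hold is a
quotient of the matrix algebra. -/
theorem blr {E : Type*} [Ring E] [Algebra k E] (h2 : (2 : k) ≠ 0)
    (φ : MonoidAlgebra k G →ₐ[k] E) (ψ : MonoidAlgebra k G →ₐ[k] Matrix (Fin 2) (Fin 2) k)
    (hψ : Function.Surjective ψ) (χ : G →* k)
    (hrel : ∀ g : G, φ (MonoidAlgebra.of k G g) + χ g • φ (MonoidAlgebra.of k G g⁻¹) =
      (ψ (MonoidAlgebra.of k G g)).trace • (1 : E)) {x : MonoidAlgebra k G} (hx : ψ x = 0) :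
    φ x = 0 := by
  have R : ∀ x, φ x + φ (star' χ x) = (ψ x).trace • (1 : E) := by
    intro x
    induction x using MonoidAlgebra.induction_on with
    | of g => rw [star'_of, map_smul]; exact hrel g
    | add x y hx hy =>
      rw [star'_add, map_add, map_add, map_add, Matrix.trace_add, add_smul, ← hx, ← hy]
      abel
    | smul c x hx =>
      rw [star'_smul, map_smul, map_smul, map_smul, Matrix.trace_smul, ← smul_add, hx, smul_smul,
        smul_eq_mul]
  have R0 : ∀ x, ψ x = 0 → φ (star' χ x) = -φ x := by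
    intro x hx
    have h := R x
    rw [hx, Matrix.trace_zero, zero_smul] at h
    exact (neg_eq_of_add_eq_zero_right h).symm
  have A1 : ∀ x y, ψ x = 0 → φ x * φ y = φ (star' χ y) * φ x := by
    intro x y hx
    have h := R0 (x * y) (by rw [map_mul, hx, zero_mul])
    rw [star'_mul, map_mul, R0 x hx, map_mul, mul_neg, neg_inj] at h
    exact h.symm
  have A2 : ∀ x y z, ψ x = 0 → φ x * (φ y * φ z) = φ x * (φ z * φ y) := by
    intro x y z hx
    rw [← map_mul, A1 x (y * z) hx, star'_mul, map_mul, mul_assoc, ← A1 x y hx, ← mul_assoc,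
      ← A1 x z hx, mul_assoc]
  obtain ⟨y, hy⟩ := hψ !![0, 1; 0, 0]
  obtain ⟨z, hz⟩ := hψ !![0, 0; 1, 0]
  obtain ⟨t, ht⟩ := hψ !![1, 0; 0, -1]
  set c := (y * z - z * y) * t with hc
  have hψc : ψ c = 1 := by
    rw [hc, map_mul, map_sub, map_mul, map_mul, hy, hz, ht]
    ext i j
    fin_cases i <;> fin_cases j <;> simp [Matrix.mul_apply, Fin.sum_univ_two]
  have A3 : ∀ x, ψ x = 0 → φ x * φ c = 0 := by
    intro x hx
    rw [hc, map_mul, map_sub, map_mul, map_mul, ← mul_assoc, mul_sub, A2 x y z hx, sub_self,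
      zero_mul]
  set j := 1 - c with hj
  have hψj : ψ j = 0 := by rw [hj, map_sub, map_one, hψc, sub_self]
  have A4 : ∀ x, ψ x = 0 → φ x * φ j = φ x := by
    intro x hx
    rw [hj, map_sub, map_one, mul_sub, mul_one, A3 x hx, sub_zero]
  have A5 : φ j = 0 := by
    have h1 := A4 j hψj
    have h3 := R0 j hψj
    have h4 := R0 (j * j) (by rw [map_mul, hψj, zero_mul])
    rw [star'_mul, map_mul, h3, neg_mul_neg, map_mul, h1] at h4
    have h5 : (2 : k) • φ j = 0 := by
      rw [two_smul]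
      nth_rewrite 1 [h4]
      exact neg_add_cancel _
    exact (smul_eq_zero.mp h5).resolve_left h2
  rw [← A4 x hx, A5, mul_zero]

section Rep

variable {V : Type*} [AddCommGroup V] [Module k V] (M : G →* (V →ₗ[k] V))
  (ρ : G →* Matrix (Fin 2) (Fin 2) k)

theorem lift_surjective (hspan : Submodule.span k (Set.range ρ) = ⊤) :
    Function.Surjective (MonoidAlgebra.lift k (Matrix (Fin 2) (Fin 2) k) G ρ) := by
  intro x
  have hx : x ∈ Submodule.span k (Set.range ρ) := by rw [hspan]; trivial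
  induction hx using Submodule.span_induction with
  | mem x hx =>
    obtain ⟨g, rfl⟩ := hx
    exact ⟨MonoidAlgebra.of k G g, MonoidAlgebra.lift_of _ _⟩
  | zero => exact ⟨0, map_zero _⟩
  | add x y _ _ hx hy =>
    obtain ⟨a, rfl⟩ := hx
    obtain ⟨b, rfl⟩ := hy
    exact ⟨a + b, map_add _ _ _⟩
  | smul c x _ hx =>
    obtain ⟨a, rfl⟩ := hx
    exact ⟨c • a, map_smul _ _ _⟩

variable {M ρ}

/-- the group algebra acts through `ρ` -/
theorem blr_rep (h2 : (2 : k) ≠ 0) (hspan : Submodule.span k (Set.range ρ) = ⊤) (χ : G →* k)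
    (hrel : ∀ g x, M g x + χ g • M g⁻¹ x = (ρ g).trace • x) {x : MonoidAlgebra k G}
    (hx : MonoidAlgebra.lift k (Matrix (Fin 2) (Fin 2) k) G ρ x = 0) :
    MonoidAlgebra.lift k (V →ₗ[k] V) G M x = 0 := by
  refine blr h2 (MonoidAlgebra.lift k (V →ₗ[k] V) G M) _ (lift_surjective ρ hspan) χ
    (fun g => ?_) hx
  rw [MonoidAlgebra.lift_of, MonoidAlgebra.lift_of, MonoidAlgebra.lift_of]
  ext x
  simp only [LinearMap.add_apply, LinearMap.smul_apply, Module.End.one_apply]
  exact hrel g x

theorem act_eq_self (h2 : (2 : k) ≠ 0) (hspan : Submodule.span k (Set.range ρ) = ⊤) (χ : G →* k)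
    (hrel : ∀ g x, M g x + χ g • M g⁻¹ x = (ρ g).trace • x) {τ : G} (hτ : ρ τ = 1) (x : V) :
    M τ x = x := by
  have h := blr_rep (M := M) h2 hspan χ hrel (x := MonoidAlgebra.of k G τ - 1) (by
    rw [map_sub, map_one, MonoidAlgebra.lift_of, hτ, sub_self])
  rw [map_sub, map_one, MonoidAlgebra.lift_of, sub_eq_zero] at h
  rw [h]; rfl

/-- **The end of the proof of Mazur's principle** -/
theorem mazur_abstract [Nontrivial V] (h2 : (2 : k) ≠ 0)
    (hspan : Submodule.span k (Set.range ρ) = ⊤) (χ : G →* k) (hdet : ∀ g, (ρ g).det = χ g)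
    (hrel : ∀ g x, M g x + χ g • M g⁻¹ x = (ρ g).trace • x) (w : V →ₗ[k] V)
    (hww : ∀ x, w (w x) = x) (hwM : ∀ g x, w (M g x) = M g (w x)) (Φ : G)
    (hΦ : ∀ x, M Φ (w x) = -(χ Φ • x)) : χ Φ = 1 ∧ (ρ Φ = 1 ∨ ρ Φ = -1) := by
  set φ := MonoidAlgebra.lift k (V →ₗ[k] V) G M with hφ
  set ψ := MonoidAlgebra.lift k (Matrix (Fin 2) (Fin 2) k) G ρ with hψ
  have hsurj : Function.Surjective ψ := lift_surjective ρ hspan
  -- an eigenvector of `w`
  obtain ⟨ε, y, hε, hy0, hy⟩ : ∃ (ε : k) (y : V), ε * ε = 1 ∧ y ≠ 0 ∧ w y = ε • y := by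
    obtain ⟨x, hx⟩ := exists_ne (0 : V)
    by_cases h : w x + x = 0
    · exact ⟨-1, x, by ring, hx, by rw [neg_smul, one_smul]; exact eq_neg_of_add_eq_zero_left h⟩
    · exact ⟨1, w x + x, by ring, h, by rw [map_add, hww, one_smul, add_comm]⟩
  have hwφ : ∀ (a : MonoidAlgebra k G) (x : V), w (φ a x) = φ a (w x) := by
    intro a
    induction a using MonoidAlgebra.induction_on with
    | of g =>
      intro x
      rw [hφ, MonoidAlgebra.lift_of]
      exact hwM g x
    | add a b ha hb =>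
      intro x
      rw [map_add, LinearMap.add_apply, LinearMap.add_apply, map_add, ha, hb]
    | smul c a ha =>
      intro x
      rw [map_smul, LinearMap.smul_apply, LinearMap.smul_apply, map_smul, ha]
  set lam : k := -(ε * χ Φ) with hlam
  have hlamx : ∀ x, w x = ε • x → M Φ x = lam • x := by
    intro x hx
    have h1 : x = ε • w x := by rw [hx, smul_smul, hε, one_smul]
    conv_lhs => rw [h1]
    rw [map_smul, hΦ, hlam, neg_smul, smul_neg, smul_smul]
  have hY : ρ Φ = lam • (1 : Matrix (Fin 2) (Fin 2) k) := by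
    by_contra hne
    set Y := ρ Φ - lam • (1 : Matrix (Fin 2) (Fin 2) k) with hYdef
    have hY0 : Y ≠ 0 := fun h => hne (sub_eq_zero.mp h)
    obtain ⟨i, j, hij⟩ : ∃ i j, Y i j ≠ 0 := by
      by_contra hcon
      push Not at hcon
      exact hY0 (Matrix.ext hcon)
    choose a ha using fun l : Fin 2 => hsurj (Matrix.single l i (1 : k))
    choose b hb using fun l : Fin 2 => hsurj (Matrix.single j l (Y i j)⁻¹)
    set y₀ : MonoidAlgebra k G := MonoidAlgebra.of k G Φ - lam • 1 with hy₀
    have hψy : ψ y₀ = Y := by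
      rw [hy₀, map_sub, map_smul, map_one, hψ, MonoidAlgebra.lift_of]
    have hz : ψ (∑ l, a l * y₀ * b l) = 1 := by
      rw [map_sum]
      simp only [map_mul, ha, hb, hψy]
      ext r s
      rw [Matrix.sum_apply, Fin.sum_univ_two]
      simp only [Matrix.single_mul_mul_single]
      fin_cases r <;> fin_cases s <;> simp [Matrix.single_apply, mul_inv_cancel₀ hij]
    have h1 := blr_rep (M := M) h2 hspan χ hrel (x := ∑ l, a l * y₀ * b l - 1) (by
      rw [← hψ, map_sub, hz, map_one, sub_self])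
    rw [← hφ, map_sub, map_one, sub_eq_zero] at h1
    have h3 := congrArg (fun f : V →ₗ[k] V => f y) h1
    simp only [Module.End.one_apply, map_sum, map_mul, LinearMap.sum_apply,
      Module.End.mul_apply] at h3
    have h4 : ∀ l, φ y₀ (φ (b l) y) = 0 := by
      intro l
      have h5 : w (φ (b l) y) = ε • φ (b l) y := by rw [hwφ, hy, map_smul]
      rw [hy₀, map_sub, map_smul, map_one, hφ, MonoidAlgebra.lift_of, LinearMap.sub_apply,
        LinearMap.smul_apply, Module.End.one_apply, ← hφ, hlamx _ h5, sub_self]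
    simp only [h4, map_zero, Finset.sum_const_zero] at h3
    exact hy0 h3.symm
  have hχ0 : χ Φ ≠ 0 := by
    intro h
    have h1 : χ Φ * χ Φ⁻¹ = 1 := by rw [← map_mul, mul_inv_cancel, map_one]
    rw [h, zero_mul] at h1
    exact zero_ne_one h1
  have hd := hdet Φ
  rw [hY, Matrix.det_smul, Matrix.det_one, mul_one, Fintype.card_fin, hlam, neg_sq, mul_pow,
    sq ε, hε, one_mul, sq] at hd
  have hχ1 : χ Φ = 1 := mul_left_cancel₀ hχ0 (by rw [hd, mul_one])
  refine ⟨hχ1, ?_⟩
  rw [hY, hlam, hχ1, mul_one]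
  have h6 : (ε - 1) * (ε + 1) = 0 := by ring_nf; rw [sq, hε]; ring
  rcases mul_eq_zero.mp h6 with h | h
  · right
    rw [sub_eq_zero.mp h, neg_smul, one_smul]
  · left
    rw [eq_neg_of_add_eq_zero_left h, neg_neg, one_smul]

end Rep

end Fermat.Agent.MazurP
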