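import Fermat.Agent.MazurP.HeckeRed
import Fermat.Agent.AnJac.Link

/-!
# Hecke polynomials acting on multiplicative groups
-/

set_option autoImplicit false
set_option linter.unusedSectionVars false
set_option linter.style.haveILetI false
set_option synthInstance.maxHeartbeats 400000

noncomputable section

namespace Fermat.Agent.MazurP

open AlgebraicCurve Fermat.Agent.Curves Fermat.Agent.GoodRed ModularCurve
open Fermat.Agent.Models Fermat.Agent.SSMod IntermediateField Fermat.Agent.HeckeQ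
open Fermat.Agent.ModFun Fermat.Agent.TorLift Fermat.Agent.AnJac

local notation "ℒ" => LaurentSeries

/-- primes outside `S` -/
abbrev JS (S : Set ℕ) := {ℓ : ℕ // ℓ.Prime ∧ ℓ ∉ S}

/-- stability of a relation under noncommutative polynomials -/
theorem stab {J X Y : Type*} [AddCommGroup X] [AddCommGroup Y] (f : J → AddMonoid.End X)
    (g : J → AddMonoid.End Y) (R : AddSubgroup (X × Y))
    (h : ∀ i x y, (x, y) ∈ R → (f i x, g i y) ∈ R) (P : FreeAlgebra ℤ J) :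
    ∀ x y, (x, y) ∈ R → (FreeAlgebra.lift ℤ f P x, FreeAlgebra.lift ℤ g P y) ∈ R := by
  induction P using FreeAlgebra.induction with
  | grade0 c =>
    intro x y hxy
    rw [AlgHom.commutes, AlgHom.commutes, eq_intCast, eq_intCast, AddMonoid.End.intCast_apply,
      AddMonoid.End.intCast_apply]
    exact R.zsmul_mem hxy c
  | grade1 i =>
    intro x y hxy
    rw [FreeAlgebra.lift_ι_apply, FreeAlgebra.lift_ι_apply]
    exact h i x y hxy
  | mul P Q hP hQ =>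
    intro x y hxy
    rw [map_mul, map_mul]
    exact hP _ _ (hQ _ _ hxy)
  | add P Q hP hQ =>
    intro x y hxy
    rw [map_add, map_add]
    exact R.add_mem (hP _ _ hxy) (hQ _ _ hxy)

section Op

variable (k : Type*) [Field k] (S : Set ℕ) (hk : ∀ i : JS S, haveI : NeZero i.1 := ⟨i.2.1.ne_zero⟩; HasPrim k i.1)

/-- the additive group of units of Laurent series -/
def AU (k : Type*) [Field k] := Additive (ℒ k)ˣ

instance (k : Type*) [Field k] : AddCommGroup (AU k) :=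
  inferInstanceAs (AddCommGroup (Additive (ℒ k)ˣ))

/-- coercion -/
def toU {k : Type*} [Field k] (x : AU k) : (ℒ k)ˣ := Additive.toMul x

/-- coercion -/
def ofU {k : Type*} [Field k] (x : (ℒ k)ˣ) : AU k := Additive.ofMul x

/-- `hM` on units -/
def hMu (r : ℕ) [NeZero r] [HasPrim k r] : (ℒ k)ˣ →* (ℒ k)ˣ :=
  Units.map { toFun := hM r, map_one' := hM_one r, map_mul' := hM_mul r }

/-- the generators -/
def opG (i : JS S) : AddMonoid.End (AU k) :=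
  haveI : NeZero i.1 := ⟨i.2.1.ne_zero⟩
  haveI := hk i
  (MonoidHom.toAdditive (hMu k i.1) : Additive (ℒ k)ˣ →+ Additive (ℒ k)ˣ)

/-- the action of Hecke polynomials on units of Laurent series -/
def opX : FreeAlgebra ℤ (JS S) →ₐ[ℤ] AddMonoid.End (AU k) :=
  FreeAlgebra.lift ℤ (opG k S hk)

variable {k S}

/-- the action, multiplicatively -/
def op (P : FreeAlgebra ℤ (JS S)) (u : (ℒ k)ˣ) : (ℒ k)ˣ :=
  toU (opX k S hk P (ofU u))

theorem opG_apply (i : JS S) (u : (ℒ k)ˣ) :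
    haveI : NeZero i.1 := ⟨i.2.1.ne_zero⟩
    haveI := hk i
    ((toU (opG k S hk i (ofU u)) : (ℒ k)ˣ) : ℒ k) = hM i.1 (u : ℒ k) := rfl

theorem op_mul (P : FreeAlgebra ℤ (JS S)) (u v : (ℒ k)ˣ) :
    op hk P (u * v) = op hk P u * op hk P v :=
  congrArg toU (map_add (opX k S hk P) (ofU u) (ofU v))

theorem op_pow (P : FreeAlgebra ℤ (JS S)) (u : (ℒ k)ˣ) (n : ℕ) :
    op hk P (u ^ n) = op hk P u ^ n :=
  congrArg toU (map_nsmul (opX k S hk P) n (ofU u))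

theorem op_inv (P : FreeAlgebra ℤ (JS S)) (u : (ℒ k)ˣ) :
    op hk P u⁻¹ = (op hk P u)⁻¹ :=
  congrArg toU (map_neg (opX k S hk P) (ofU u))

theorem op_ι (i : JS S) (u : (ℒ k)ˣ) :
    haveI : NeZero i.1 := ⟨i.2.1.ne_zero⟩
    haveI := hk i
    (op hk (FreeAlgebra.ι ℤ i) u : ℒ k) = hM i.1 (u : ℒ k) := by
  rw [op, opX, FreeAlgebra.lift_ι_apply]
  exact opG_apply hk i u

/-- subgroups of `kˣ((T))` as relations -/
theorem op_mem (R : Subgroup (ℒ k)ˣ)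
    (h : ∀ (i : JS S) (u : (ℒ k)ˣ), u ∈ R → toU (opG k S hk i (ofU u)) ∈ R)
    (P : FreeAlgebra ℤ (JS S)) {u : (ℒ k)ˣ} (hu : u ∈ R) : op hk P u ∈ R := by
  let R' : AddSubgroup (AU k × AU k) :=
    { carrier := {z | toU z.1 ∈ R}
      add_mem' := fun ha hb => R.mul_mem ha hb
      zero_mem' := R.one_mem
      neg_mem' := fun ha => R.inv_mem ha }
  exact stab (opG k S hk) (opG k S hk) R' (fun i x y hx => h i _ hx) P (ofU u) 0 hu

/-- a relation between units of two Laurent series fields -/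
theorem op_rel {k' : Type*} [Field k']
    (hk' : ∀ i : JS S, haveI : NeZero i.1 := ⟨i.2.1.ne_zero⟩; HasPrim k' i.1)
    (R : (ℒ k)ˣ → (ℒ k')ˣ → Prop) (h1 : R 1 1)
    (hmul : ∀ a b c d, R a b → R c d → R (a * c) (b * d)) (hinv : ∀ a b, R a b → R a⁻¹ b⁻¹)
    (h : ∀ (i : JS S) (u : (ℒ k)ˣ) (v : (ℒ k')ˣ), R u v →
      R (toU (opG k S hk i (ofU u))) (toU (opG k' S hk' i (ofU v))))
    (P : FreeAlgebra ℤ (JS S)) {u : (ℒ k)ˣ} {v : (ℒ k')ˣ} (hu : R u v) :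
    R (op hk P u) (op hk' P v) := by
  let R' : AddSubgroup (AU k × AU k') :=
    { carrier := {z | R (toU z.1) (toU z.2)}
      add_mem' := fun ha hb => hmul _ _ _ _ ha hb
      zero_mem' := h1
      neg_mem' := fun ha => hinv _ _ ha }
  exact stab (opG k S hk) (opG k' S hk') R' (fun i x y hx => h i _ _ hx) P (ofU u)
    (ofU v) hu

end Op

/-! ### compatibility with reduction -/

section Red

variable {K κ : Type*} [Field K] [Field κ] {A : ValuationSubring K} {π : A →+* κ} {S : Set ℕ}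
  (hK : ∀ i : JS S, haveI : NeZero i.1 := ⟨i.2.1.ne_zero⟩; HasPrim K i.1)
  (hκ : ∀ i : JS S, haveI : NeZero i.1 := ⟨i.2.1.ne_zero⟩; HasPrim κ i.1)
  (hA : ∀ i : JS S, haveI : NeZero i.1 := ⟨i.2.1.ne_zero⟩; HasPrim A i.1)

include hA in
theorem LR_op (hS : ∀ i : JS S, (i.1 : κ) ≠ 0) [IsLocalHom π] (P : FreeAlgebra ℤ (JS S))
    {u : (ℒ K)ˣ} {v : (ℒ κ)ˣ} (h : LR π (u : ℒ K) (v : ℒ κ)) :
    LR π (op hK P u : ℒ K) (op hκ P v : ℒ κ) := by
  refine op_rel hK hκ (fun u v => LR π (u : ℒ K) (v : ℒ κ)) (LR.one π)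
    (fun a b c d h h' => by rw [Units.val_mul, Units.val_mul]; exact h.mul h')
    (fun a b h => ?_) (fun i u v h => ?_) P h
  · rw [Units.val_inv_eq_inv_val, Units.val_inv_eq_inv_val]
    exact h.inv b.ne_zero
  · haveI : NeZero i.1 := ⟨i.2.1.ne_zero⟩
    haveI := hK i
    haveI := hκ i
    haveI := hA i
    rw [opG_apply, opG_apply]
    exact LR_hM i.2.1 (hS i) h

end Red

/-! ### compatibility with the lattice -/

section Lat

variable {k : Type*} [Field k] [IsAlgClosed k] [CharZero k] {S : Set ℕ} {N : ℕ} [NeZero N]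
  (hk : ∀ i : JS S, haveI : NeZero i.1 := ⟨i.2.1.ne_zero⟩; HasPrim k i.1)
  (hSN : ∀ i : JS S, ¬ i.1 ∣ N)

/-- the lattice action -/
def latG (N : ℕ) [NeZero N] {S : Set ℕ} (i : JS S) : AddMonoid.End (Lat N) := LTot N i.1

/-- the lattice action of Hecke polynomials -/
def lat (N : ℕ) [NeZero N] {S : Set ℕ} : FreeAlgebra ℤ (JS S) →ₐ[ℤ] AddMonoid.End (Lat N) :=
  FreeAlgebra.lift ℤ (latG N)

theorem heckeMul_eq_hM' {ℓ : ℕ} [NeZero ℓ] [HasPrim k ℓ] {ζ : kˣ} (hζ : IsPrimitiveRoot ζ ℓ)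
    (u : LaurentSeries k) : heckeMul ζ ℓ u = hM ℓ u := by
  rw [heckeMul, hM]
  congr 1
  apply heckeW_eq hζ
  rw [qExpand_hW, prodTwist_eq_range ℓ hζ, AnJac.tprod_apply]
  exact (prod_zmod ℓ fun j => twist (ζ ^ j) u).symm

theorem compat_hM (ι : k →+* ℂ) {ℓ : ℕ} [Fact ℓ.Prime] [NeZero ℓ] [hp : HasPrim k ℓ]
    (hℓ : ¬ ℓ ∣ N) {n : ℕ} {φ : Lat N}
    {u v : modularFunctionFieldFullC k N} (h : ClX N ι n φ u)
    (hv : (v : ℒ k) = hM ℓ (u : ℒ k)) : ClX N ι n (LTot N ℓ φ) v := by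
  obtain ⟨ζ, hζ⟩ := hp.ex
  have h1 := compat_LT (N := N) ι (1 : Unit →* RingAut k) hℓ hζ (n := n) φ u h
  have h2 : FT ι hℓ hζ u = v := Subtype.ext (by
    rw [hv, ← heckeMul_eq_hM' hζ]
    rfl)
  rw [h2, ← LTot_of_not_dvd N ℓ hℓ] at h1
  exact h1

/-- classes of units -/
def ClU (N : ℕ) [NeZero N] (ι : k →+* ℂ) (n : ℕ) (φ : Lat N) (u : (ℒ k)ˣ) : Prop :=
  ∃ hu : (u : ℒ k) ∈ modularFunctionFieldFullC k N, ClX N ι n φ ⟨u, hu⟩

variable (ι : k →+* ℂ) {n : ℕ}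

theorem ClU.one (hn : n ≠ 0) : ClU N ι n 0 1 :=
  ⟨one_mem _, (kX0 N ι (1 : Unit →* RingAut k)).zero_one hn⟩

theorem ClU.mul {φ ψ : Lat N} {u v : (ℒ k)ˣ} (h : ClU N ι n φ u) (h' : ClU N ι n ψ v) :
    ClU N ι n (φ + ψ) (u * v) := by
  obtain ⟨ha, ha'⟩ := h
  obtain ⟨hb, hb'⟩ := h'
  have e : ((u * v : (ℒ k)ˣ) : ℒ k) = (u : ℒ k) * (v : ℒ k) := Units.val_mul u v
  have hm : ((u * v : (ℒ k)ˣ) : ℒ k) ∈ modularFunctionFieldFullC k N := by
    rw [e]; exact mul_mem ha hb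
  refine ⟨hm, ?_⟩
  have h1 := (kX0 N ι (1 : Unit →* RingAut k)).mul ha' hb'
  have h2 : (⟨_, hm⟩ : modularFunctionFieldFullC k N) = ⟨(u : ℒ k), ha⟩ * ⟨(v : ℒ k), hb⟩ :=
    Subtype.ext e
  rw [h2]
  exact h1

theorem ClU.inv (hn : n ≠ 0) {φ : Lat N} {u : (ℒ k)ˣ} (h : ClU N ι n φ u) :
    ClU N ι n (-φ) u⁻¹ := by
  obtain ⟨ha, ha'⟩ := h
  have e : ((u⁻¹ : (ℒ k)ˣ) : ℒ k) = (u : ℒ k)⁻¹ := Units.val_inv_eq_inv_val _
  have hm : ((u⁻¹ : (ℒ k)ˣ) : ℒ k) ∈ modularFunctionFieldFullC k N := by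
    rw [e]; exact inv_mem ha
  refine ⟨hm, ?_⟩
  have h1 := (kX0 N ι (1 : Unit →* RingAut k)).inv hn ha'
  have h2 : (⟨_, hm⟩ : modularFunctionFieldFullC k N) = (⟨(u : ℒ k), ha⟩)⁻¹ := Subtype.ext e
  rw [h2]
  exact h1

include hSN in
/-- Hecke polynomials and classes -/
theorem cl_op (hn : n ≠ 0) (P : FreeAlgebra ℤ (JS S)) {φ : Lat N}
    {u : (ℒ k)ˣ} (h : ClU N ι n φ u) : ClU N ι n (lat N P φ) (op hk P u) := by
  let R' : AddSubgroup (AU k × Lat N) :=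
    { carrier := {z | ClU N ι n z.2 (toU z.1)}
      add_mem' := fun ha hb => ClU.mul ι ha hb
      zero_mem' := ClU.one ι hn
      neg_mem' := fun ha => ClU.inv ι hn ha }
  refine stab (opG k S hk) (latG N) R' (fun i x y hx => ?_) P (ofU u) φ h
  obtain ⟨hx, hx'⟩ := hx
  haveI : NeZero i.1 := ⟨i.2.1.ne_zero⟩
  haveI : Fact i.1.Prime := ⟨i.2.1⟩
  haveI := hk i
  have hmem : hM i.1 ((toU x : (ℒ k)ˣ) : ℒ k) ∈ modularFunctionFieldFullC k N :=
    hM_mem_K i.2.1 (hSN i) hx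
  exact ⟨hmem, compat_hM ι (hSN i) hx' rfl⟩

end Lat

end Fermat.Agent.MazurP
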