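import Fermat.Agent.MazurP.HeckeRed
import Fermat.Agent.SSMod.ModEq
import Fermat.Agent.Curves.Along

/-!
# Orders of `hM r f` in characteristic `q`
-/

set_option autoImplicit false
set_option linter.unusedSectionVars false
set_option linter.style.haveILetI false
set_option synthInstance.maxHeartbeats 400000

noncomputable section

namespace Fermat.Agent.MazurP

open AlgebraicCurve Fermat.Agent.Curves Fermat.Agent.GoodRed ModularCurve
open Fermat.Agent.Models Fermat.Agent.SSMod IntermediateField Fermat.Agent.HeckeQ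
open Fermat.Agent.ModFun Fermat.Agent.TorLift
open Fermat.Agent.GenusX0 (je)

local notation "ℒ" => LaurentSeries

section Phi

variable {K : Type*} [Field K] {q M : ℕ} [NeZero M] [hq : Fact q.Prime] [NeZero q]

theorem coe_ev_ab' (y : modularFunctionFieldFullC K (q * M)) (P : Polynomial (Polynomial K)) :
    ((ev K (jA K q M) y P : modularFunctionFieldFullC K (q * M)) : ℒ K) =
      P.eval₂ (jev K) (y : ℒ K) := by
  rw [SSMod.ev_apply, AddSubmonoidClass.coe_finsetSum, Polynomial.eval₂_eq_sum_range]
  refine Finset.sum_congr rfl fun i _ => ?_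
  rw [MulMemClass.coe_mul, SubmonoidClass.coe_pow, jev_eq_aeval]
  congr 1
  exact (Polynomial.aeval_algHom_apply (modularFunctionFieldFullC K (q * M)).val
    (jA K q M) (P.coeff i)).symm

theorem coe_ev_ba' (y : modularFunctionFieldFullC K (q * M)) (P : Polynomial (Polynomial K)) :
    ((ev K (jB K q M) y P : modularFunctionFieldFullC K (q * M)) : ℒ K) =
      (P.map ((qExpand K q).comp (jev K))).eval (y : ℒ K) := by
  rw [SSMod.ev_apply, AddSubmonoidClass.coe_finsetSum, Polynomial.eval_map,
    Polynomial.eval₂_eq_sum_range]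
  refine Finset.sum_congr rfl fun i _ => ?_
  rw [MulMemClass.coe_mul, SubmonoidClass.coe_pow, RingHom.comp_apply, jev_eq_aeval]
  congr 1
  have h2 : Polynomial.aeval (jB K q M) (P.coeff i) =
      beta K q M (Polynomial.aeval (je K M) (P.coeff i)) :=
    Polynomial.aeval_algHom_apply (beta K q M) (je K M) (P.coeff i)
  have h3 : ((Polynomial.aeval (je K M) (P.coeff i) : modularFunctionFieldFullC K M) : ℒ K) =
      Polynomial.aeval (jqModC K) (P.coeff i) :=
    (Polynomial.aeval_algHom_apply (modularFunctionFieldFullC K M).val (je K M)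
      (P.coeff i)).symm
  rw [h2, coe_beta, h3]

theorem xfam_some_zero' (z : Kˣ) : xfam q K z (some 0) = jqModC K := by
  show twist (z ^ (0 : ZMod q).val) (jqModC K) = _
  rw [ZMod.val_zero, pow_zero]
  ext m
  rw [twist_coeff, one_zpow, Units.val_one, one_mul]

/-- the modular polynomial -/
theorem exists_Phi_κ (K : Type*) [Field K] (q M : ℕ) [NeZero M] [hq : Fact q.Prime] [NeZero q]
    [IsAlgClosed K] (hq0 : (q : K) ≠ 0) : ∃ P : Polynomial (Polynomial K), P.Monic ∧
    ev K (jA K q M) (jB K q M) P = 0 ∧ ev K (jB K q M) (jA K q M) P = 0 := by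
  obtain ⟨z, hz⟩ := exists_prim_unit K q hq0
  obtain ⟨P, hP⟩ := exists_Phi q z hz
  refine ⟨P, (monic_of_map q hP).1, ?_, ?_⟩
  · apply Subtype.ext
    rw [coe_ev_ab']
    apply qExpand_injective q
    show qExpand K q _ = qExpand K q 0
    rw [map_zero, qExpand_eval₂, hP,
      show ((jB K q M : modularFunctionFieldFullC K (q * M)) : ℒ K) = qExpand K q (jqModC K) from rfl,
      qExpand_qExpand]
    exact prodPoly_eval (xfam q K z) none
  · apply Subtype.ext
    rw [coe_ev_ba', hP,
      show ((jA K q M : modularFunctionFieldFullC K (q * M)) : ℒ K) = jqModC K from rfl,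
      ← xfam_some_zero' (q := q) z]
    exact prodPoly_eval (xfam q K z) (some 0)

theorem jA_mem_iff_κ [IsAlgClosed K] (hq0 : (q : K) ≠ 0)
    [IsFunctionField K (modularFunctionFieldFullC K (q * M))]
    (P : Place K (modularFunctionFieldFullC K (q * M))) :
    jA K q M ∈ P.toValuationSubring ↔ jB K q M ∈ P.toValuationSubring := by
  obtain ⟨Φ, h1, h2, h3⟩ := exists_Phi_κ K q M hq0
  exact ⟨mem_of_ev h1 h2, mem_of_ev h1 h3⟩

end Phi

variable {K κ : Type*} [Field K] [Field κ] {A : ValuationSubring K} (π : A →+* κ)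
  [IsLocalHom π] [IsAlgClosed K] [IsAlgClosed κ] [CharZero K] {r M : ℕ} [NeZero r] [NeZero M]

include π in
/-- noncuspidal orders divisible by `n` stay divisible by `n` under `hM r` -/
theorem dvd_ord_hM [HasPrim A r] [HasPrim K r] [HasPrim κ r] (hπ : Function.Surjective π)
    (hrk : GoodRed.RankOne π)
    (hr : r.Prime) (hrM : ¬ r ∣ M) (hrκ : (r : κ) ≠ 0) (hMκ : (M : κ) ≠ 0) {n : ℤ}
    {f g : modularFunctionFieldFullC κ M} (hf0 : f ≠ 0) (hg : (g : ℒ κ) = hM r (f : ℒ κ))
    (hf : ∀ P : Place κ (modularFunctionFieldFullC κ M), je κ M ∈ P.toValuationSubring →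
      n ∣ P.ord f) (P : Place κ (modularFunctionFieldFullC κ M))
    (hP : je κ M ∈ P.toValuationSubring) : n ∣ P.ord g := by
  haveI : Fact r.Prime := ⟨hr⟩
  have hrMκ : ((r * M : ℕ) : κ) ≠ 0 := by
    rw [Nat.cast_mul]; exact mul_ne_zero hrκ hMκ
  haveI := isFunctionField_fullC κ M hMκ
  haveI := isFunctionField_fullC κ (r * M) hrMκ
  have e : g = (letI := algebraAlong (alpha κ r M);
      Algebra.norm (modularFunctionFieldFullC κ M) (beta κ r M f)) :=
    Subtype.ext (hg.trans (norm_κ π hπ hrk hr hrM hrκ hMκ f).symm)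
  rw [e]
  have hbint : ∀ w : Place κ (modularFunctionFieldFullC κ (r * M)),
      jA κ r M ∈ w.toValuationSubring → n ∣ w.ord (beta κ r M f) := by
    intro w hw
    rw [jA_mem_iff_κ hrκ] at hw
    rw [Place.ord_restrictAlong (beta κ r M) (integralAlong (beta κ r M)) w f]
    refine Dvd.dvd.mul_left (hf _ ?_) _
    exact hw
  letI := algebraAlong (alpha κ r M)
  haveI := isScalarTower_along (alpha κ r M)
  haveI := isIntegral_along (alpha κ r M) (integralAlong (alpha κ r M))
  haveI : FiniteDimensional (modularFunctionFieldFullC κ M) (modularFunctionFieldFullC κ (r * M)) :=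
    finiteDimensional_of_isFunctionField (k := κ)
  rw [ord_norm P (by simpa using hf0)]
  refine Finset.dvd_sum fun w hw => hbint w ?_
  rw [Place.mem_fiber] at hw
  rw [← hw] at hP
  exact hP

end Fermat.Agent.MazurP
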