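import Fermat.Agent.MazurP.BLR
import Fermat.Agent.S43Glue.Dict

/-!
# Quadratic relations from Frobenius elements; primes which are not Eisenstein
-/

set_option autoImplicit false
set_option linter.unusedSectionVars false
set_option linter.style.haveILetI false

noncomputable section

namespace Fermat.Agent.MazurP

open Fermat.Agent.GalRep Fermat.Agent.S43Glue

local notation "Qbar" => AlgebraicClosure ℚ
local notation "GQ" => Qbar ≃ₐ[ℚ] Qbar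

variable {p : ℕ} [hp : Fact p.Prime]

/-- the quadratic relation, with the trace of `ρ` -/
theorem rel_of_frob {V : Type*} [AddCommGroup V] [Module (ZMod p) V]
    (T : GQ →* (V →ₗ[ZMod p] V)) (hT : FinLevel T) {ρ : GQ →* Matrix (Fin 2) (Fin 2) (ZMod p)}
    (hρ : FinLevel ρ) (hdet : ∀ g, (ρ g).det = chiK p (ZMod p) g)
    {S : Set ℕ} (hS : S.Finite) (hpS : p ∈ S)
    (hfr : ∀ ℓ : ℕ, ℓ.Prime → ℓ ∉ S → ∀ A : ValuationSubring Qbar, A.LiesOverPrime ℓ →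
      ∀ τ : GQ, A.IsFrobeniusAt τ ℓ → ∀ x, T τ x + (ℓ : ZMod p) • T τ⁻¹ x = (ρ τ).trace • x)
    (g : GQ) (x : V) : T g x + chiK p (ZMod p) g • T g⁻¹ x = (ρ g).trace • x := by
  obtain ⟨L₁, hL₁, h₁⟩ := hT
  obtain ⟨L₂, hL₂, h₂⟩ := chiK_finite p (ZMod p)
  obtain ⟨L₃, hL₃, h₃⟩ := hρ
  obtain ⟨ℓ, hℓ, hℓS, A, hA, τ, hτ, m, -, hm, -⟩ :=
    FrobDens.exists_frobenius (L₁ ⊔ (L₂ ⊔ L₃)) S hS g
  have hℓp : ℓ ≠ p := fun h => hℓS (h ▸ hpS)
  have e1 : T (τ ^ m) = T g :=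
    FinLevel.congr h₁ fun x hx => hm x (le_sup_left (a := L₁) hx)
  have e1' : T (τ ^ m)⁻¹ = T g⁻¹ := by
    have f1 : T g⁻¹ * T g = 1 := by rw [← map_mul, inv_mul_cancel, map_one]
    have f2 : T (τ ^ m) * T (τ ^ m)⁻¹ = 1 := by rw [← map_mul, mul_inv_cancel, map_one]
    calc T (τ ^ m)⁻¹ = (T g⁻¹ * T g) * T (τ ^ m)⁻¹ := by rw [f1, one_mul]
      _ = T g⁻¹ := by rw [mul_assoc, ← e1, f2, mul_one]
  have e2 : chiK p (ZMod p) (τ ^ m) = chiK p (ZMod p) g :=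
    FinLevel.congr h₂ fun x hx => hm x (le_sup_right (a := L₁) (le_sup_left (a := L₂) hx))
  have e3 : ρ (τ ^ m) = ρ g :=
    FinLevel.congr h₃ fun x hx => hm x (le_sup_right (a := L₁) (le_sup_right (a := L₂) hx))
  have hinv : T τ * T τ⁻¹ = 1 := by rw [← map_mul, mul_inv_cancel, map_one]
  have hinv' : T τ⁻¹ * T τ = 1 := by rw [← map_mul, inv_mul_cancel, map_one]
  have h3 : T τ + (ℓ : ZMod p) • T τ⁻¹ = (ρ τ).trace • (1 : V →ₗ[ZMod p] V) := by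
    ext x
    exact hfr ℓ hℓ hℓS A hA τ hτ x
  have hxy : T τ * ((ℓ : ZMod p) • T τ⁻¹) = (ℓ : ZMod p) • (1 : V →ₗ[ZMod p] V) := by
    rw [mul_smul_comm, hinv]
  have hyx : ((ℓ : ZMod p) • T τ⁻¹) * T τ = (ℓ : ZMod p) • (1 : V →ₗ[ZMod p] V) := by
    rw [smul_mul_assoc, hinv']
  have h5 := dk_eq hxy hyx h3 m
  have h6 := map_dk (algebraMap (ZMod p) (V →ₗ[ZMod p] V)) (ρ τ).trace (ℓ : ZMod p) m
  rw [Algebra.algebraMap_eq_smul_one, Algebra.algebraMap_eq_smul_one,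
    Algebra.algebraMap_eq_smul_one, h5, smul_pow, ← map_pow T τ, ← map_pow T τ⁻¹, inv_pow, e1,
    e1', ← chiK_frob p (ZMod p) hℓ hA hℓp hτ, ← map_pow, e2, ← hdet τ, ← trace_pow_two,
    ← map_pow, e3] at h6
  have h7 := congrArg (fun f : V →ₗ[ZMod p] V => f x) h6
  exact h7.symm

/-- an absolutely irreducible representation is not Eisenstein -/
theorem exists_not_eis {k : Type*} [Field k] {G : Type*} [Group G] (h2 : (2 : k) ≠ 0)
    {ρ : G →* Matrix (Fin 2) (Fin 2) k} (hspan : Submodule.span k (Set.range ρ) = ⊤)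
    (χ : G →* k) : ∃ g, (ρ g).trace ≠ 1 + χ g := by
  by_contra hcon
  push Not at hcon
  set ψ := MonoidAlgebra.lift k (Matrix (Fin 2) (Fin 2) k) G ρ with hψ
  set f₁ := MonoidAlgebra.lift k k G (1 : G →* k) with hf₁
  set f₂ := MonoidAlgebra.lift k k G χ with hf₂
  have R : ∀ x, (ψ x).trace = f₁ x + f₂ x := by
    intro x
    induction x using MonoidAlgebra.induction_on with
    | of g =>
      rw [hψ, hf₁, hf₂, MonoidAlgebra.lift_of, MonoidAlgebra.lift_of, MonoidAlgebra.lift_of, hcon]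
      rfl
    | add x y hx hy =>
      rw [map_add, map_add, map_add, Matrix.trace_add, hx, hy]
      ring
    | smul c x hx =>
      rw [map_smul, map_smul, map_smul, Matrix.trace_smul, hx, smul_eq_mul, smul_eq_mul,
        smul_eq_mul]
      ring
  have hsurj : Function.Surjective ψ := lift_surjective ρ hspan
  obtain ⟨y, hy⟩ := hsurj !![0, 1; 0, 0]
  obtain ⟨z, hz⟩ := hsurj !![0, 0; 1, 0]
  obtain ⟨t, ht⟩ := hsurj !![1, 0; 0, -1]
  have h1 := R ((y * z - z * y) * t)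
  rw [map_mul ψ, map_sub ψ, map_mul ψ, map_mul ψ, hy, hz, ht] at h1
  have h3 : ∀ f : MonoidAlgebra k G →ₐ[k] k, f ((y * z - z * y) * t) = 0 := by
    intro f
    rw [map_mul, map_sub, map_mul, map_mul, mul_comm (f y), sub_self, zero_mul]
  rw [h3, h3, add_zero] at h1
  simp [Matrix.trace_fin_two, Matrix.mul_apply, Fin.sum_univ_two] at h1
  apply h2
  linear_combination h1

/-- a prime which is not Eisenstein -/
theorem exists_prime_not_eis {ρ : GQ →* Matrix (Fin 2) (Fin 2) (ZMod p)} (hp2 : p ≠ 2)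
    (hρ : FinLevel ρ) (hdet : ∀ g, (ρ g).det = chiK p (ZMod p) g)
    (hspan : Submodule.span (ZMod p) (Set.range ρ) = ⊤)
    {S : Set ℕ} (hS : S.Finite) (hpS : p ∈ S) :
    ∃ ℓ : ℕ, ℓ.Prime ∧ ℓ ∉ S ∧ ∃ A : ValuationSubring Qbar, A.LiesOverPrime ℓ ∧
      ∃ τ : GQ, A.IsFrobeniusAt τ ℓ ∧ (ρ τ).trace ≠ 1 + (ℓ : ZMod p) := by
  have h2 : (2 : ZMod p) ≠ 0 := by
    intro h
    have h1 : ((2 : ℕ) : ZMod p) = 0 := by exact_mod_cast h
    rw [ZMod.natCast_eq_zero_iff] at h1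
    exact hp2 ((Nat.prime_dvd_prime_iff_eq hp.out Nat.prime_two).mp h1)
  by_contra hcon
  push Not at hcon
  obtain ⟨g, hg⟩ := exists_not_eis h2 hspan (chiK p (ZMod p))
  apply hg
  obtain ⟨L₂, hL₂, h₂⟩ := chiK_finite p (ZMod p)
  obtain ⟨L₃, hL₃, h₃⟩ := hρ
  obtain ⟨ℓ, hℓ, hℓS, A, hA, τ, hτ, m, -, hm, -⟩ :=
    FrobDens.exists_frobenius (L₂ ⊔ L₃) S hS g
  have hℓp : ℓ ≠ p := fun h => hℓS (h ▸ hpS)
  have e2 : chiK p (ZMod p) (τ ^ m) = chiK p (ZMod p) g :=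
    FinLevel.congr h₂ fun x hx => hm x (le_sup_left (a := L₂) hx)
  have e3 : ρ (τ ^ m) = ρ g :=
    FinLevel.congr h₃ fun x hx => hm x (le_sup_right (a := L₂) hx)
  have h4 := hcon ℓ hℓ hℓS A hA τ hτ
  have h5 := dk_eq (A := ZMod p) (x := 1) (y := (ℓ : ZMod p)) (a := (ℓ : ZMod p)) (one_mul _)
    (mul_one _) rfl m
  rw [← e3, map_pow, trace_pow_two, h4, hdet, chiK_frob p (ZMod p) hℓ hA hℓp hτ, h5, one_pow,
    ← chiK_frob p (ZMod p) hℓ hA hℓp hτ, ← map_pow, e2]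

end Fermat.Agent.MazurP
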