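import Fermat.Agent.Models.Toric

/-!
# A Frobenius which exchanges the two components, on toric classes
-/

set_option autoImplicit false
set_option linter.unusedSectionVars false
set_option linter.style.haveILetI false

noncomputable section

namespace Fermat.Agent.MazurP

open AlgebraicCurve Fermat.Agent.Curves Fermat.Agent.Models Polynomial

variable {k κ : Type*} [Field k] [Field κ] {B : Res k κ} {F 𝓕 : Type*} [Field F] [Algebra k F]
  [Field 𝓕] [Algebra κ 𝓕] {C : Bool → Comp B F 𝓕}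
  [IsAlgClosed k] [IsAlgClosed κ] [IsFunctionField k F] [IsFunctionField κ 𝓕]

/-- A semilinear automorphism which exchanges the two components, acting on the residual constants
by `x ↦ x ^ Q`. -/
structure SwapFrob (C : Bool → Comp B F 𝓕) (Q : ℕ) (σ : F ≃+* F) (σ₀ : k ≃+* k) (τ : 𝓕 ≃+* 𝓕)
    (τ₀ : κ ≃+* κ) (s : Place k F ≃ Place k F) (s' : Place κ 𝓕 ≃ Place κ 𝓕) : Prop where
  map_const : ∀ a : k, σ (algebraMap k F a) = algebraMap k F (σ₀ a)
  map_const' : ∀ a : κ, τ (algebraMap κ 𝓕 a) = algebraMap κ 𝓕 (τ₀ a)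
  pow : ∀ a : κ, τ₀ a = a ^ Q
  mem_base : ∀ c : k, σ₀ c ∈ B.O ↔ c ∈ B.O
  res : ∀ c ∈ B.O, B.r (σ₀ c) = τ₀ (B.r c)
  mem : ∀ (i : Bool) (x : F), σ x ∈ (C i).O ↔ x ∈ (C (!i)).O
  r_eq : ∀ (i : Bool), ∀ x ∈ (C (!i)).O, (C i).r (σ x) = τ ((C (!i)).r x)
  ord : ∀ (P : Place k F) (x : F), (s P).ord (σ x) = P.ord x
  ord' : ∀ (𝔭 : Place κ 𝓕) (x : 𝓕), (s' 𝔭).ord (τ x) = 𝔭.ord x

namespace SwapFrob

variable {t : F} {Q : ℕ} {σ : F ≃+* F} {σ₀ : k ≃+* k} {τ : 𝓕 ≃+* 𝓕} {τ₀ : κ ≃+* κ}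
  {s : Place k F ≃ Place k F} {s' : Place κ 𝓕 ≃ Place κ 𝓕}

theorem r_ne_zero (h : SwapFrob C Q σ σ₀ τ τ₀ s s') {i : Bool} {x : F}
    (hx : (C (!i)).r x ≠ 0) : (C i).r (σ x) ≠ 0 := by
  rw [h.r_eq i x (Res.mem_of_r_ne_zero hx)]
  simpa using hx

theorem mem_chart_iff (h : SwapFrob C Q σ σ₀ τ τ₀ s s') (hσt : σ t = t) (x : F) :
    σ x ∈ chart C t ↔ x ∈ chart C t := by
  have hP : ∀ P : Place k F, t ∈ P.toValuationSubring ↔ t ∈ (s P).toValuationSubring := by
    intro P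
    conv_rhs => rw [← hσt]
    exact (mem_semi (h.ord P) t).symm
  constructor
  · intro hx
    refine ⟨fun P hP' => ?_, fun i => ?_⟩
    · rw [← mem_semi (h.ord P)]
      exact hx.1 _ ((hP P).mp hP')
    · have := (h.mem (!i) x).mp (hx.2 (!i))
      rwa [Bool.not_not] at this
  · intro hx
    refine ⟨fun P hP' => ?_, fun i => (h.mem i x).mpr (hx.2 _)⟩
    rw [← s.apply_symm_apply P, mem_semi (h.ord _)]
    refine hx.1 _ ?_
    rw [hP, s.apply_symm_apply]
    exact hP'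

/-- points whose branches are exchanged are stable -/
theorem gen_iff (hm : NodeModel C t) (h : SwapFrob C Q σ σ₀ τ τ₀ s s') (hσt : σ t = t)
    {M : Ideal (chart C t)} {𝔭₁ 𝔭₂ : Place κ 𝓕} (h𝔭₁ : 𝔭₁ ∈ spec t M true)
    (h𝔭₂ : 𝔭₂ ∈ spec t M false) (hfix : s' 𝔭₂ = 𝔭₁)
    {P : Place k F} : P ∈ gen t M ↔ s P ∈ gen t M := by
  have hM : ∀ (x : F) (hx : x ∈ chart C t), (⟨σ x, (h.mem_chart_iff hσt x).mpr hx⟩ : chart C t) ∈ M ↔
      (⟨x, hx⟩ : chart C t) ∈ M := by
    intro x hx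
    rw [h𝔭₁.2, h𝔭₂.2]
    show value 𝔭₁ ((C true).r (σ x)) = 0 ↔ value 𝔭₂ ((C false).r x) = 0
    have h1 := value_semi h.map_const' (h.ord' 𝔭₂)
      (r_mem hm.rank hm.incomp hm.good hx false h𝔭₂.1)
    rw [hfix] at h1
    rw [h.r_eq true x (hx.2 false), Bool.not_true, h1.2, map_eq_zero]
  have ht : t ∈ P.toValuationSubring ↔ t ∈ (s P).toValuationSubring := by
    conv_rhs => rw [← hσt]
    exact (mem_semi (h.ord P) t).symm
  have hval : ∀ x ∈ P.toValuationSubring, value (s P) (σ x) = σ₀ (value P x) := fun x hx =>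
    (value_semi h.map_const (h.ord P) hx).2
  constructor
  · intro hP
    refine ⟨ht.mp hP.1, ?_, fun x => ?_⟩
    · have := hval t hP.1
      rw [hσt] at this
      rw [this, h.mem_base]
      exact hP.2.1
    · have hx' : σ.symm (x : F) ∈ chart C t := by
        rw [← h.mem_chart_iff hσt, σ.apply_symm_apply]; exact x.2
      have e : x = (⟨σ (σ.symm (x : F)), (h.mem_chart_iff hσt _).mpr hx'⟩ : chart C t) :=
        Subtype.ext (σ.apply_symm_apply _).symm
      have h1 := hM _ hx'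
      rw [← e] at h1
      have h2 := hval _ (hx'.1 P hP.1)
      rw [σ.apply_symm_apply] at h2
      rw [h1, hP.2.2, h2, h.res _ (value_mem hm.rank hm.incomp hm.good hx' hP.1 hP.2.1),
        map_eq_zero]
  · intro hP
    have htP := ht.mpr hP.1
    have h0 := hval t htP
    rw [hσt] at h0
    have hO : value P t ∈ B.O := by rw [← h.mem_base, ← h0]; exact hP.2.1
    refine ⟨htP, hO, fun x => ?_⟩
    have h1 := hM (x : F) x.2
    rw [← h1, hP.2.2]
    show B.r (value (s P) (σ (x : F))) = 0 ↔ _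
    rw [hval _ (x.2.1 P htP), h.res _ (value_mem hm.rank hm.incomp hm.good x.2 htP hO),
      map_eq_zero]

set_option maxHeartbeats 1000000 in
theorem isPow_aux [CharZero k] (hm : NodeModel C t) (h : SwapFrob C Q σ σ₀ τ τ₀ s s')
    (hσt : σ t = t)
    (hfix : ∀ (M : Ideal (chart C t)) (𝔭₁ 𝔭₂ : Place κ 𝓕), 𝔭₁ ∈ spec t M true →
      𝔭₂ ∈ spec t M false → s' 𝔭₂ = 𝔭₁ ∧ s' 𝔭₁ = 𝔭₂) {n : ℕ} (hn : (n : κ) ≠ 0)
    {u : F} (hu : ∀ i, (C i).r u ≠ 0) (w : Bool → 𝓕) (hw : ∀ i, w i ^ n = (C i).r u)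
    (hdiv : ∀ P : Place k F, (n : ℤ) ∣ P.ord u) :
    ∃ f : F, σ u * u ^ Q = f ^ n := by
  classical
  have hn0 : n ≠ 0 := by rintro rfl; simp at hn
  have hnZ : (n : ℤ) ≠ 0 := by exact_mod_cast hn0
  have hu0 : u ≠ 0 := Res.ne_zero_of_r (hu true)
  obtain ⟨D, hD⟩ : ∃ D : Divisor k F, ∀ P, P.ord u = n * D P := by
    choose d hd using hdiv
    refine ⟨Finsupp.ofSupportFinite d ((finite_support (k := k) u).subset fun P hP => ?_), hd⟩
    rw [Function.mem_support] at hP ⊢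
    rw [hd]
    exact mul_ne_zero hnZ hP
  have hsymm : ∀ (x : F) (P : Place k F), P.ord (σ x) = (s.symm P).ord x := by
    intro x P
    have := h.ord (s.symm P) x
    rwa [s.apply_symm_apply] at this
  have hordq : ∀ (x : F), x ≠ 0 → ∀ P : Place k F, P.ord (σ x * x ^ Q) =
      (s.symm P).ord x + Q * P.ord x := by
    intro x hx P
    have hσx : σ x ≠ 0 := by simpa using hx
    rw [P.ord_mul hσx (pow_ne_zero _ hx), ord_pow, hsymm]
  let D' : Divisor k F := Finsupp.mapDomain s D + Q • D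
  have hD' : ∀ P, D' P = D (s.symm P) + Q * D P := by
    intro P
    show (Finsupp.mapDomain s D + Q • D) P = _
    have h1 : Finsupp.mapDomain s D P = D (s.symm P) := by
      conv_lhs => rw [← s.apply_symm_apply P]
      rw [Finsupp.mapDomain_apply s.injective]
    rw [Finsupp.add_apply, h1, Finsupp.smul_apply, nsmul_eq_mul]
  have hσr : ∀ {i : Bool} {x : F}, (∀ i, (C i).r x ≠ 0) → (C i).r (σ x * x ^ Q) =
      τ ((C (!i)).r x) * (C i).r x ^ Q := by
    intro i x hx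
    rw [Res.r_mul (Res.mem_of_r_ne_zero (h.r_ne_zero (hx _)))
      (pow_mem (Res.mem_of_r_ne_zero (hx i)) Q),
      h.r_eq i x (Res.mem_of_r_ne_zero (hx _)), Res.r_pow (Res.mem_of_r_ne_zero (hx i))]
  have hσr0 : ∀ {x : F}, (∀ i, (C i).r x ≠ 0) → ∀ i, (C i).r (σ x * x ^ Q) ≠ 0 := by
    intro x hx i
    rw [hσr hx]
    exact mul_ne_zero (by simpa using hx _) (pow_ne_zero _ (hx i))
  have hw0 : ∀ i, w i ≠ 0 := fun i hi => hu i (by rw [← hw, hi, zero_pow hn0])
  set w' : Bool → 𝓕 := fun i => τ (w (!i)) * w i ^ Q with hw'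
  have hw'' : ∀ i, w' i ^ n = (C i).r (σ u * u ^ Q) := by
    intro i
    rw [hσr hu, ← hw, ← hw, hw']
    simp only [mul_pow, map_pow, ← pow_mul, mul_comm Q n]
  have hDu : ∀ P : Place k F, P.ord (σ u * u ^ Q) = n * D' P := by
    intro P
    rw [hordq u hu0, hD', hD, hD]
    ring
  have hloc : ∀ M : Ideal (chart C t), IsPoint t M → LocData C t D' w' M := by
    intro M hM
    by_cases h1 : (spec t M true).Nonempty <;> by_cases h2 : (spec t M false).Nonempty
    · obtain ⟨𝔭₁, h𝔭₁⟩ := h1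
      obtain ⟨𝔭₂, h𝔭₂⟩ := h2
      obtain ⟨f1, f2⟩ := hfix M 𝔭₁ 𝔭₂ h𝔭₁ h𝔭₂
      obtain ⟨Y, ϖ, hY⟩ := hm.node M 𝔭₁ 𝔭₂ h𝔭₁ h𝔭₂
      obtain ⟨g, hg0, hgP, hg1, hg2, ho1, ho2⟩ := exists_adapted hm.rank hm.incomp hm.good hm.surj
        (hm.lp M hM) hY hn0 hu hw hD
      have hgr : ∀ i, (C i).r g ≠ 0 := by
        intro i; cases i
        · exact hg2
        · exact hg1
      have hs1 : ∀ P ∈ gen t M, s.symm P ∈ gen t M := by
        intro P hP
        rw [h.gen_iff hm hσt h𝔭₁ h𝔭₂ f1, s.apply_symm_apply]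
        exact hP
      -- values
      set z : Bool → 𝓕 := fun i => (C i).r g / w i with hz
      set pl : Bool → Place κ 𝓕 := fun i => match i with
        | true => 𝔭₁
        | false => 𝔭₂ with hpl
      have hpls : ∀ i, s' (pl (!i)) = pl i := by
        intro i
        cases i
        · exact f2
        · exact f1
      have hzo : ∀ i, (pl i).ord (z i) = 0 := by
        intro i
        cases i
        · exact ho2
        · exact ho1
      have hz0 : ∀ i, z i ≠ 0 := fun i => div_ne_zero (hgr i) (hw0 i)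
      have hzm : ∀ i, z i ∈ (pl i).toValuationSubring := fun i =>
        (mem_iff_ord (pl i) (hz0 i)).mpr (hzo i).ge
      have hval : ∀ i, (C i).r (σ g * g ^ Q) / w' i ∈ (pl i).toValuationSubring ∧
            value (pl i) ((C i).r (σ g * g ^ Q) / w' i) =
              (value (pl true) (z true) * value (pl false) (z false)) ^ Q := by
        intro i
        have e : (C i).r (σ g * g ^ Q) / w' i = τ (z (!i)) * z i ^ Q := by
          rw [hσr hgr, hw', hz]
          simp only [map_div₀, div_pow]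
          have := hgr i
          have := hw0 i
          have h5 : τ (w (!i)) ≠ 0 := by simpa using hw0 (!i)
          field_simp
        have h3 := value_semi h.map_const' (h.ord' (pl (!i))) (hzm (!i))
        rw [hpls] at h3
        rw [e]
        refine ⟨mul_mem h3.1 (pow_mem (hzm i) Q), ?_⟩
        rw [value_mul (pl i) h3.1 (pow_mem (hzm i) Q), h3.2, value_pow' (pl i) (hzm i), h.pow,
          ← mul_pow]
        cases i
        · rfl
        · rw [mul_comm]; rfl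
      refine ⟨σ g * g ^ Q, ?_, fun i _ => hσr0 hgr i, fun P hP => ?_,
        (value (pl true) (z true) * value (pl false) (z false)) ^ Q, fun i 𝔭 h𝔭 => ?_⟩
      · exact Res.ne_zero_of_r (hσr0 hgr true)
      · rw [hordq g hg0, hD', hgP P hP, hgP _ (hs1 P hP)]
      · cases i
        · have e := spec_subsingleton hm.good hm.surj M false h𝔭 h𝔭₂
          subst e
          exact hval false
        · have e := spec_subsingleton hm.good hm.surj M true h𝔭 h𝔭₁
          subst e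
          exact hval true
    · obtain ⟨𝔭₁, h𝔭₁⟩ := h1
      refine locData_of_smooth hm.rank hm.incomp hm.good hm.surj (hm.lp M hM) h𝔭₁ (fun j hj => ?_)
        hn0 (hσr0 hu true) (hw'' true) hDu
      cases j
      · exact h2
      · exact absurd rfl hj
    · obtain ⟨𝔭₂, h𝔭₂⟩ := h2
      refine locData_of_smooth hm.rank hm.incomp hm.good hm.surj (hm.lp M hM) h𝔭₂ (fun j hj => ?_)
        hn0 (hσr0 hu false) (hw'' false) hDu
      cases j
      · exact absurd rfl hj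
      · exact h1
    · obtain ⟨i, 𝔭, h𝔭⟩ := exists_spec hm.rank hm.incomp hm.good hm.surj hM.isMaximal
        fun a ha ha0 => hM.small_mem ha ha0
      cases i
      · exact absurd ⟨𝔭, h𝔭⟩ h2
      · exact absurd ⟨𝔭, h𝔭⟩ h1
  have hloc' : ∀ M : Ideal (chart C t⁻¹), IsPoint t⁻¹ M → LocData C t⁻¹ D' w' M := by
    intro M hM
    by_cases hM' : (⟨t⁻¹, self_mem_chart hm.good.inv.mem⟩ : chart C t⁻¹) ∈ M
    swap
    · exact LocData.inv hm.rank hm.incomp hm.good hm.surj' hloc hM hM'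
    have hx := hm.cusp M
    by_cases h1 : (spec t⁻¹ M true).Nonempty
    · obtain ⟨𝔭₁, h𝔭₁⟩ := h1
      refine locData_of_smooth hm.rank hm.incomp hm.good.inv hm.surj' (hm.lp' M hM) h𝔭₁
        (fun j hj => ?_) hn0 (hσr0 hu true) (hw'' true) hDu
      cases j
      · rintro ⟨𝔭₂, h𝔭₂⟩
        exact hx 𝔭₁ 𝔭₂ hM' h𝔭₁ h𝔭₂
      · exact absurd rfl hj
    · obtain ⟨i, 𝔭, h𝔭⟩ := exists_spec hm.rank hm.incomp hm.good.inv hm.surj' hM.isMaximal
        fun a ha ha0 => hM.small_mem ha ha0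
      cases i
      · refine locData_of_smooth hm.rank hm.incomp hm.good.inv hm.surj' (hm.lp' M hM) h𝔭
          (fun j hj => ?_) hn0 (hσr0 hu false) (hw'' false) hDu
        cases j
        · exact absurd rfl hj
        · exact h1
      · exact absurd ⟨𝔭, h𝔭⟩ h1
  exact isPow_of_residues hm.rank hm.incomp hm.good hm.surj hm.surj' hn
    (fun i => hσr0 hu i) w' hw'' hDu hloc hloc'

/-- **Frobenius on toric classes.** -/
theorem isPow [CharZero k] (hm : NodeModel C t) (h : SwapFrob C Q σ σ₀ τ τ₀ s s')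
    (hσt : σ t = t)
    (hfix : ∀ (M : Ideal (chart C t)) (𝔭₁ 𝔭₂ : Place κ 𝓕), 𝔭₁ ∈ spec t M true →
      𝔭₂ ∈ spec t M false → s' 𝔭₂ = 𝔭₁ ∧ s' 𝔭₁ = 𝔭₂) {n : ℕ} (hn : (n : κ) ≠ 0)
    {u : F} (hdiv : ∀ P : Place k F, (n : ℤ) ∣ P.ord u) (h1 : ∀ i, ResPow C n i u 1) :
    ∃ f : F, σ u * u ^ Q = f ^ n := by
  have hn0 : n ≠ 0 := by rintro rfl; simp at hn
  obtain ⟨c₁, hc₁, w₁, hw₁, e₁⟩ := h1 true
  obtain ⟨c₂, hc₂, w₂, hw₂, e₂⟩ := h1 false
  rw [one_mul] at e₁ e₂
  have hc₁F : algebraMap k F c₁ ≠ 0 := by simpa using hc₁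
  have hr1 : (C true).r (algebraMap k F c₁ * u) ≠ 0 := by rw [e₁]; exact pow_ne_zero _ hw₁
  have hr2 : (C false).r (algebraMap k F c₂ * u) ≠ 0 := by rw [e₂]; exact pow_ne_zero _ hw₂
  have hu0 : u ≠ 0 := by
    rintro rfl
    rw [mul_zero, Res.r_zero] at hr1
    exact hr1 rfl
  obtain ⟨d, hd⟩ := IsAlgClosed.exists_pow_nat_eq (c₁ / c₂) (Nat.pos_of_ne_zero hn0)
  have hd0 : d ≠ 0 := by
    rintro rfl
    rw [zero_pow hn0] at hd
    exact div_ne_zero hc₁ hc₂ hd.symm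
  obtain ⟨x, hx1, hx2⟩ := exists_two_scale hm.rank hm.incomp hd0
  have hx0 : x ≠ 0 := Res.ne_zero_of_r hx1
  set v := algebraMap k F c₁ * u * x ^ n with hv
  have ev2 : v = (algebraMap k F c₂ * u) * (algebraMap k F d * x) ^ n := by
    rw [hv, mul_pow, ← map_pow, hd, map_div₀]
    have : algebraMap k F c₂ ≠ 0 := by simpa using hc₂
    field_simp
  have hv1 : (C true).r v = (w₁ * (C true).r x) ^ n := by
    rw [hv, Res.r_mul (Res.mem_of_r_ne_zero hr1) (pow_mem (Res.mem_of_r_ne_zero hx1) n), e₁,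
      Res.r_pow (Res.mem_of_r_ne_zero hx1), mul_pow]
  have hv2 : (C false).r v = (w₂ * (C false).r (algebraMap k F d * x)) ^ n := by
    rw [ev2, Res.r_mul (Res.mem_of_r_ne_zero hr2) (pow_mem (Res.mem_of_r_ne_zero hx2) n), e₂,
      Res.r_pow (Res.mem_of_r_ne_zero hx2), mul_pow]
  obtain ⟨f, hf⟩ := h.isPow_aux hm hσt hfix hn (u := v)
    (by
      intro i
      cases i
      · rw [hv2]; exact pow_ne_zero _ (mul_ne_zero hw₂ hx2)
      · rw [hv1]; exact pow_ne_zero _ (mul_ne_zero hw₁ hx1))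
    (fun i => match i with
      | true => w₁ * (C true).r x
      | false => w₂ * (C false).r (algebraMap k F d * x))
    (by
      intro i
      cases i
      · exact hv2.symm
      · exact hv1.symm)
    (by
      intro P
      rw [hv, P.ord_mul (mul_ne_zero hc₁F hu0) (pow_ne_zero _ hx0), P.ord_mul hc₁F hu0,
        ord_algebraMap, zero_add, ord_pow]
      exact (hdiv P).add (dvd_mul_right _ _))
  -- remove the correction
  obtain ⟨d', hd'⟩ := IsAlgClosed.exists_pow_nat_eq (σ₀ c₁ * c₁ ^ Q) (Nat.pos_of_ne_zero hn0)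
  have hσ0 : σ₀ c₁ ≠ 0 := by simpa using hc₁
  have hd'0 : d' ≠ 0 := by
    rintro rfl
    rw [zero_pow hn0] at hd'
    exact mul_ne_zero hσ0 (pow_ne_zero _ hc₁) hd'.symm
  have hσx : σ x ≠ 0 := by simpa using hx0
  refine ⟨f / (algebraMap k F d' * (σ x * x ^ Q)), ?_⟩
  have hd'F : algebraMap k F d' ≠ 0 := by simpa using hd'0
  have hσF : algebraMap k F (σ₀ c₁) ≠ 0 := by simpa using hσ0
  have e4 : (algebraMap k F d' * (σ x * x ^ Q)) ^ n =
      algebraMap k F (σ₀ c₁) * algebraMap k F c₁ ^ Q * (σ x * x ^ Q) ^ n := by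
    rw [mul_pow, ← map_pow, hd', map_mul, map_pow]
  have e5 : σ v = algebraMap k F (σ₀ c₁) * σ u * σ x ^ n := by
    rw [hv, map_mul, map_mul, h.map_const, map_pow]
  have e6 : v ^ Q = algebraMap k F c₁ ^ Q * u ^ Q * (x ^ Q) ^ n := by
    rw [hv, mul_pow, mul_pow, ← pow_mul, ← pow_mul, mul_comm n Q]
  rw [div_pow, ← hf, e4, e5, e6, mul_pow]
  field_simp

end SwapFrob

end Fermat.Agent.MazurP
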