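import Fermat.Agent.MazurP.Swap
import Fermat.Agent.SSMod.RamN

/-!
# Frobenius composed with Atkin–Lehner on toric classes
-/

set_option autoImplicit false
set_option linter.unusedSectionVars false
set_option linter.style.haveILetI false
set_option linter.unusedVariables false
set_option synthInstance.maxHeartbeats 400000

noncomputable section

namespace Fermat.Agent.MazurP

open ModularCurve Fermat.Agent.GoodRed Fermat.Agent.Models Fermat.Agent.ModFun
open Fermat.Agent.Curves Fermat.Agent.AnJac AlgebraicCurve IsLocalRing Fermat.Agent.SSMod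
open Fermat.Agent.HeckeQ Fermat.Agent.GalRep Fermat.Agent.Mono
open Fermat.Agent.GenusX0 (je)
open scoped Pointwise

local notation "ℒ" => LaurentSeries

section Semi

variable {k F : Type*} [Field k] [Field F] [Algebra k F] [IsAlgClosed k] [IsFunctionField k F]

theorem exists_place_semi (σ : F ≃+* F) (σ₀ : k → k)
    (hc : ∀ a : k, σ (algebraMap k F a) = algebraMap k F (σ₀ a)) (v : Place k F) :
    ∃ w : Place k F, ∀ f, w.ord f = v.ord (σ f) := by
  obtain ⟨w, hw⟩ := exists_place_of_ord (k := k) (fun f => v.ord (σ f))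
    (by
      intro x y hx hy
      simp only [map_mul]
      rw [v.ord_mul ((map_ne_zero _).mpr hx) ((map_ne_zero _).mpr hy)])
    (by
      intro x y hx hy hxy
      simp only [map_add]
      refine ord_add v ?_ ((map_ne_zero _).mpr hx) ((map_ne_zero _).mpr hy)
      rw [← map_add]
      exact (map_ne_zero _).mpr hxy)
    (by
      intro a _
      rw [hc]
      exact (ord_algebraMap v _).ge)
    (by
      obtain ⟨t, ht0, ht⟩ := exists_ord_eq v 1
      exact ⟨σ.symm t, (map_ne_zero _).mpr ht0, by rw [σ.apply_symm_apply, ht]⟩)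
  refine ⟨w, fun f => ?_⟩
  rcases eq_or_ne f 0 with rfl | hf
  · simp
  · exact hw f hf

/-- the bijection of places induced by a semilinear automorphism -/
theorem exists_placeEquiv (σ : F ≃+* F) (σ₀ : k ≃+* k)
    (hc : ∀ a : k, σ (algebraMap k F a) = algebraMap k F (σ₀ a)) :
    ∃ s : Place k F ≃ Place k F, ∀ P x, (s P).ord (σ x) = P.ord x := by
  have hc' : ∀ a : k, σ.symm (algebraMap k F a) = algebraMap k F (σ₀.symm a) := by
    intro a
    rw [RingEquiv.symm_apply_eq, hc, RingEquiv.apply_symm_apply]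
  choose w hw using exists_place_semi σ.symm σ₀.symm hc'
  choose w' hw' using exists_place_semi σ σ₀ hc
  refine ⟨⟨w, w', fun P => place_eq_of_ord fun f => ?_, fun P => place_eq_of_ord fun f => ?_⟩,
    fun P x => ?_⟩
  · rw [hw', hw, σ.symm_apply_apply]
  · rw [hw, hw', σ.apply_symm_apply]
  · show (w P).ord (σ x) = _
    rw [hw, σ.symm_apply_apply]

end Semi

section Branch

variable {k κ : Type*} [Field k] [Field κ] {B : Res k κ} {F 𝓕 : Type*} [Field F] [Algebra k F]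
  [Field 𝓕] [Algebra κ 𝓕] {C : Bool → Comp B F 𝓕}
  [IsAlgClosed k] [IsAlgClosed κ] [IsFunctionField k F] [IsFunctionField κ 𝓕]
  {t : F} {q : ℕ} {a b : F} {j : 𝓕} {R : Subfield F} {φ : 𝓕 ≃+* 𝓕} {g u : F} {q₀ : k}

theorem swap_branch (h : Cross C t q a b j) (hl : CrossLift C t q j R φ g u q₀)
    {s' : Place κ 𝓕 ≃ Place κ 𝓕} {τ₀ : κ ≃+* κ}
    (hc : ∀ c : κ, φ (algebraMap κ 𝓕 c) = algebraMap κ 𝓕 (τ₀ c))
    (hs' : ∀ (𝔭 : Place κ 𝓕) (x : 𝓕), (s' 𝔭).ord (φ x) = 𝔭.ord x) (hj : φ j = j)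
    {M : Ideal (chart C t)} {𝔭₁ 𝔭₂ : Place κ 𝓕} (h1 : 𝔭₁ ∈ spec t M true)
    (h2 : 𝔭₂ ∈ spec t M false) : s' 𝔭₂ = 𝔭₁ ∧ s' 𝔭₁ = 𝔭₂ := by
  have hτ : Transcendental κ j := by
    intro hj
    have := h.good.trans true
    rw [h.r_t] at this
    exact this (hj.pow _)
  have hsemi : ∀ (𝔭 : Place κ 𝓕) (x : 𝓕), x ∈ 𝔭.toValuationSubring →
      φ x ∈ (s' 𝔭).toValuationSubring ∧ value (s' 𝔭) (φ x) = τ₀ (value 𝔭 x) := by
    intro 𝔭 x hx
    exact value_semi (σ := φ) (σ₀ := τ₀) (P := 𝔭) (P' := s' 𝔭) hc (hs' 𝔭) hx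
  have key : ∀ 𝔭 𝔮 : Place κ 𝓕, j ∈ 𝔭.toValuationSubring → j ∈ 𝔮.toValuationSubring →
      (∀ f ∈ affineRing κ j, value 𝔮 f = 0 ↔ value 𝔭 (φ.symm f) = 0) → s' 𝔭 = 𝔮 := by
    intro 𝔭 𝔮 hj𝔭 hj𝔮 hiff
    have hj' : j ∈ (s' 𝔭).toValuationSubring := by
      have := (hsemi 𝔭 j hj𝔭).1
      rwa [hj] at this
    refine eq_of_affineRing hτ hj' hj𝔮 fun x hx hx0 => ?_
    have hx' := hl.φ_mem x hx
    have e := hsemi 𝔭 (φ.symm x) (hx' 𝔭 hj𝔭)
    rw [RingEquiv.apply_symm_apply] at e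
    rw [← value_eq_zero_iff _ e.1, e.2, map_eq_zero, ← hiff x hx,
      value_eq_zero_iff _ (hx 𝔮 hj𝔮)]
    exact hx0
  exact ⟨key 𝔭₂ 𝔭₁ (h.j_mem h2) (h.j_mem h1) fun f hf => (hl.branch_iff h h1 h2 hf).1,
    key 𝔭₁ 𝔭₂ (h.j_mem h1) (h.j_mem h2) fun f hf => (hl.branch_iff h h1 h2 hf).2⟩

end Branch

section General

variable {K κ : Type*} [Field K] [Field κ] {A : ValuationSubring K} {π : A →+* κ}
  {q M : ℕ} [NeZero M] [IsLocalHom π] [hq : Fact q.Prime] [CharP κ q]
  [IsAlgClosed K] [IsAlgClosed κ] [CharZero K] [NeZero q]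

attribute [-instance] DivisionRing.toRatAlgebra

variable [IsFunctionField K (modularFunctionFieldFullC K (q * M))]
  [IsFunctionField κ (modularFunctionFieldFullC κ M)]

variable {hπ : Function.Surjective π} (ι : K →+* ℂ) (hqM : Nat.Coprime q M)
  (hE : modularFunctionFieldFullC κ M = resField q hπ (q * M))

theorem swapFrob {σ : K ≃+* K} (h : ActsAt π σ (frob κ q))
    {s : Place K (modularFunctionFieldFullC K (q * M)) ≃
      Place K (modularFunctionFieldFullC K (q * M))}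
    (hs : ∀ P x, (s P).ord (galF (q * M) σ (al ι hqM x)) = P.ord x) :
    SwapFrob (two hπ ι hqM _ hE) q ((al ι hqM).trans (galF (q * M) σ)) σ
      (galF M (frob κ q)) (frob κ q) s (placeE M (frob κ q)) where
  map_const a := by
    rw [RingEquiv.trans_apply, al_const, galF_const]
  map_const' a := galF_const _ a
  pow a := rfl
  mem_base c := h.mem c
  res c hc := by
    have h1 : σ c ∈ A := (h.mem c).mpr hc
    rw [baseRes_r π hπ hc, baseRes_r π hπ h1]
    exact h.res ⟨c, hc⟩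
  mem i x := by
    rw [RingEquiv.trans_apply, two_gal_mem ι hqM hE h, two_mem_al]
  r_eq i x hx := by
    rw [RingEquiv.trans_apply, (two_gal ι hqM hE h i ((two_mem_al ι hqM hE i x).mpr hx)).2,
      two_r_al]
  ord P x := by
    rw [RingEquiv.trans_apply]
    exact hs P x
  ord' P x := placeE_ord _ _ _

/-- **Frobenius on toric classes**: `Φ w_q u = u ^ (-q)` up to `n`-th powers. -/
theorem swap_pow [Algebra ℚ K] [Algebra.IsAlgebraic ℚ K] [Algebra.IsAlgebraic ℤ K]
    (hA : A.LiesOverPrime q) (hr : GoodRed.RankOne π) (h : JLift π M)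
    {σ : K ≃+* K} (hσ : ActsAt π σ (frob κ q)) {n : ℕ}
    (hn : (n : κ) ≠ 0) {u : modularFunctionFieldFullC K (q * M)}
    (hdiv : ∀ P : Place K (modularFunctionFieldFullC K (q * M)), (n : ℤ) ∣ P.ord u)
    (h1 : ∀ i, ResPow (two hπ ι hqM _ hE) n i u 1) :
    ∃ f, galF (q * M) σ (al ι hqM u) * u ^ q = f ^ n := by
  obtain ⟨L, hunr, hL⟩ := exists_K0 hq.out hA π hπ
  have hc := cross (hπ := hπ) ι hqM hE hA hr h
  have hl := crossLift (hπ := hπ) ι hqM hE hA hr h hunr hL
  obtain ⟨s, hs⟩ := exists_placeEquiv ((al ι hqM).trans (galF (q * M) σ)) σ (fun a => by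
    rw [RingEquiv.trans_apply, al_const, galF_const])
  have hF := swapFrob (hπ := hπ) ι hqM hE hσ (s := s) hs
  refine hF.isPow (hl.nodeModel hc) ?_ ?_ hn hdiv h1
  · have e : al ι hqM (h.coord hqM).t = (h.coord hqM).t := by
      rw [h.coord_t, map_mul, al_jA, al_jB]
      exact mul_comm (jB K q M) (jA K q M)
    rw [RingEquiv.trans_apply, e]
    exact galF_t hqM h σ
  · intro M' 𝔭₁ 𝔭₂ h1 h2
    exact swap_branch hc hl (fun c => galF_const _ c) (fun P x => placeE_ord _ _ _) (galF_je _)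
      h1 h2

end General

end Fermat.Agent.MazurP
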