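import Fermat.Agent.MazurP.SwapN
import Fermat.Agent.MazurP.SlopeN
import Fermat.Agent.MazurP.LiftH
import Fermat.Agent.MazurP.AL

/-!
# Frobenius on inertia-invariant non-Eisenstein classes which are not of level `M`
-/

set_option autoImplicit false
set_option linter.unusedSectionVars false
set_option linter.style.haveILetI false
set_option linter.unusedVariables false
set_option synthInstance.maxHeartbeats 400000

noncomputable section

namespace Fermat.Agent.MazurP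

open ModularCurve Fermat.Agent.GoodRed Fermat.Agent.Models Fermat.Agent.ModFun
open Fermat.Agent.Curves Fermat.Agent.AnJac AlgebraicCurve IsLocalRing Fermat.Agent.SSMod
open Fermat.Agent.HeckeQ Fermat.Agent.GalRep Fermat.Agent.Mono
open Fermat.Agent.GenusX0 (je)
open scoped Pointwise

local notation "ℒ" => LaurentSeries

section Core

variable {K κ : Type*} [Field K] [Field κ] {A : ValuationSubring K} {π : A →+* κ}
  {q M : ℕ} [NeZero M] [IsLocalHom π] [hq : Fact q.Prime] [CharP κ q]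
  [IsAlgClosed K] [IsAlgClosed κ] [CharZero K] [NeZero q]

attribute [-instance] DivisionRing.toRatAlgebra

variable [IsFunctionField K (modularFunctionFieldFullC K (q * M))]
  [IsFunctionField κ (modularFunctionFieldFullC κ M)]

/-- the combination of the vanishing of slopes and the theorem on toric classes -/
theorem core [Algebra ℚ K] [Algebra.IsAlgebraic ℚ K] [Algebra.IsAlgebraic ℤ K]
    (hπ : Function.Surjective π) (ι : K →+* ℂ) (hqM : Nat.Coprime q M)
    (hE : modularFunctionFieldFullC κ M = resField q hπ (q * M))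
    (hA : A.LiesOverPrime q) (hr : GoodRed.RankOne π) (h : JLift π M)
    {σ : K ≃+* K} (hσ : ActsAt π σ (frob κ q))
    {r : ℕ} [NeZero r] [HasPrim A r] [HasPrim K r] [HasPrim κ r] (hrp : r.Prime)
    (hrM : ¬ r ∣ q * M) {p : ℕ} (hp : p.Prime) (hp5 : 5 ≤ p) (hpκ : (p : κ) ≠ 0)
    {u f x : modularFunctionFieldFullC K (q * M)} (hu : u ≠ 0) (hf : f ≠ 0) {a : ℕ}
    (hx : (x : ℒ K) = hM r (u : ℒ K)) (hT : x = u ^ a * f ^ p)
    (ha : ¬ (p : ℤ) ∣ (r + 1 : ℤ) - a)
    (hdiv : ∀ P : Place K (modularFunctionFieldFullC K (q * M)), (p : ℤ) ∣ P.ord u)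
    (hval : ∀ b : K, b ≠ 0 → (∀ τ : K ≃+* K, ActsAt π τ (RingEquiv.refl κ) →
          (∃ f, galF (q * M) τ u / u = f ^ p) → (baseRes π hπ).r (τ b / b) = 1) →
        ∀ m : ℤ, (baseRes π hπ).r (b ^ p * (q : K) ^ m) ≠ 0 → (p : ℤ) ∣ m)
    (hres : ∀ i, (∀ 𝔭, (p : ℤ) ∣ so (two hπ ι hqM _ hE i) 𝔭 u) →
      ResPow (two hπ ι hqM _ hE) p i u 1) :
    ∃ f, galF (q * M) σ (al ι hqM u) * u ^ q = f ^ p :=
  swap_pow ι hqM hE hA hr h hσ hpκ hdiv fun i => hres i fun 𝔭 =>
    slope_zero hπ ι hqM hE hA hr h hrp hrM hp hp5 hpκ hu hf hx hT ha hdiv hval i 𝔭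

end Core

/-! ### residues from Hecke relations -/

section Res

variable {K κ : Type} [Field K] [Field κ] {A : ValuationSubring K} {π : A →+* κ}
  {q M : ℕ} [NeZero M] [IsLocalHom π] [hq : Fact q.Prime] [CharP κ q]
  [IsAlgClosed K] [IsAlgClosed κ] [CharZero K] [NeZero q]
  [Algebra (ZMod q) κ] [Algebra.IsAlgebraic (ZMod q) κ]

attribute [-instance] DivisionRing.toRatAlgebra

variable {S : Set ℕ} {hπ : Function.Surjective π} (ι : K →+* ℂ) (hqM : Nat.Coprime q M)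
  (hE : modularFunctionFieldFullC κ M = resField q hπ (q * M))

/-- Hecke polynomials on constants -/
theorem op_C (hK : ∀ i : JS S, haveI : NeZero i.1 := ⟨i.2.1.ne_zero⟩; HasPrim K i.1)
    (P : FreeAlgebra ℤ (JS S)) {c : (ℒ K)ˣ} {c₀ : K} (hc : (c : ℒ K) = HahnSeries.C c₀) :
    ∃ d : K, (op hK P c : ℒ K) = HahnSeries.C d := by
  let R : Subgroup (ℒ K)ˣ :=
    { carrier := {x | ∃ d : K, (x : ℒ K) = HahnSeries.C d}
      mul_mem' := by
        rintro x y ⟨d, hd⟩ ⟨e, he⟩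
        exact ⟨d * e, by rw [Units.val_mul, hd, he, map_mul]⟩
      one_mem' := ⟨1, by rw [Units.val_one, map_one]⟩
      inv_mem' := by
        rintro x ⟨d, hd⟩
        exact ⟨d⁻¹, by rw [Units.val_inv_eq_inv_val, hd, map_inv₀]⟩ }
  refine op_mem hK R (fun i u hu => ?_) P ⟨c₀, hc⟩
  obtain ⟨d, hd⟩ := hu
  haveI : NeZero i.1 := ⟨i.2.1.ne_zero⟩
  haveI := hK i
  exact ⟨d ^ (i.1 + 1), by rw [opG_apply, hd, hM_C]⟩

/-- **Residues from Hecke relations.** -/
theorem resPow_core (hqM' : ¬ q ∣ M) (hqS : q ∈ S) (hSM : ∀ i : JS S, ¬ i.1 ∣ M)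
    [IsFunctionField κ (modularFunctionFieldFullC κ M)]
    {p : ℕ} (hp : p.Prime) (hqp : ¬ q ∣ p) (P : FreeAlgebra ℤ (JS S)) (hP : lat M P = 0)
    {u f : (ℒ K)ˣ} (hum : (u : ℒ K) ∈ modularFunctionFieldFullC K (q * M))
    (hfm : (f : ℒ K) ∈ modularFunctionFieldFullC K (q * M))
    (hop : op hasPrim_field P u = u * f ^ p)
    (hso : ∀ 𝔭 : Place κ (modularFunctionFieldFullC κ M),
      (p : ℤ) ∣ so (two hπ ι hqM _ hE true) 𝔭 ⟨u, hum⟩) :
    ResPow (two hπ ι hqM _ hE) p true ⟨u, hum⟩ 1 := by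
  have hp0 : p ≠ 0 := hp.ne_zero
  set C := two hπ ι hqM _ hE with hC
  have hu0 : (⟨u, hum⟩ : modularFunctionFieldFullC K (q * M)) ≠ 0 :=
    fun h => u.ne_zero (congrArg Subtype.val h)
  obtain ⟨c, hc0, hcr⟩ := (C true).exists_scale _ hu0
  -- the scaled unit
  have hCc : (HahnSeries.C c : ℒ K) ≠ 0 := (map_ne_zero (HahnSeries.C : K →+* ℒ K)).mpr hc0
  set cu : (ℒ K)ˣ := Units.mk0 (HahnSeries.C c : ℒ K) hCc * u with hcu
  set x : modularFunctionFieldFullC K (q * M) := algebraMap K _ c * ⟨u, hum⟩ with hx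
  have hxcu : (x : ℒ K) = (cu : ℒ K) := by
    rw [hcu, Units.val_mul, Units.val_mk0, hx, MulMemClass.coe_mul, ModFun.C_eq_algebraMap]
    rfl
  set ub := (C true).r x with hub
  have hub0 : (ub : ℒ κ) ≠ 0 := fun h => hcr (Subtype.ext h)
  set v : (ℒ κ)ˣ := Units.mk0 (ub : ℒ κ) hub0 with hv
  have hvm : (v : ℒ κ) ∈ modularFunctionFieldFullC κ M := ub.2
  have hLR : LR π (cu : ℒ K) (v : ℒ κ) := by
    rw [← hxcu]
    exact two_true_spec ι hqM hE (Res.mem_of_r_ne_zero hcr)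
  obtain ⟨g, hg0, hg⟩ := op_eq_pow_κ hqM' hqS hSM hqp P hP (u := v) hvm (fun 𝔭 => by
    have h1 := so_eq (C true) 𝔭 hcr
    have h2 := hso 𝔭
    rw [h1] at h2
    exact h2)
  have hSκ := cast_ne_zero_JS (κ := κ) hqS
  have hLR2 := LR_op hasPrim_field (hasPrim_κ hqS) (hasPrim_ring A) hSκ P hLR
  -- the constant
  obtain ⟨d, hd⟩ := op_C hasPrim_field P (c := Units.mk0 (HahnSeries.C c : ℒ K) hCc) (c₀ := c) rfl
  have hd0 : d ≠ 0 := by
    rintro rfl
    rw [map_zero] at hd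
    exact Units.ne_zero _ hd
  obtain ⟨e, he⟩ := IsAlgClosed.exists_pow_nat_eq (d / c) (Nat.pos_of_ne_zero hp0)
  set y : modularFunctionFieldFullC K (q * M) := algebraMap K _ e * ⟨f, hfm⟩ with hy
  have hopcu : (op hasPrim_field P cu : ℒ K) = ((x * y ^ p :
      modularFunctionFieldFullC K (q * M)) : ℒ K) := by
    rw [hcu, op_mul, Units.val_mul, hd, hop, MulMemClass.coe_mul, SubmonoidClass.coe_pow, hxcu,
      hcu, hy, MulMemClass.coe_mul]
    simp only [Units.val_mul, Units.val_mk0, Units.val_pow_eq_pow_val]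
    have e1 : ((algebraMap K (modularFunctionFieldFullC K (q * M)) e :
        modularFunctionFieldFullC K (q * M)) : ℒ K) = HahnSeries.C e := by
      rw [ModFun.C_eq_algebraMap]; rfl
    rw [e1, mul_pow, ← map_pow, he, map_div₀]
    field_simp
  have hr1 : (C true).r (x * y ^ p) = g ^ p := by
    refine (two_true_r ι hqM hE (y := g ^ p) ?_).2
    rw [← hopcu, SubmonoidClass.coe_pow, ← hg]
    exact hLR2
  have hgp : g ^ p ≠ 0 := pow_ne_zero _ hg0
  have hxy : (C true).r (x * y ^ p / x) = g ^ p / ub := by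
    rw [Res.r_div (Res.mem_of_r_ne_zero (by rw [hr1]; exact hgp)) hcr, hr1]
  have hx0 : x ≠ 0 := Res.ne_zero_of_r hcr
  rw [mul_div_cancel_left₀ _ hx0] at hxy
  have hne : g ^ p / ub ≠ 0 := div_ne_zero hgp hcr
  have hyO : y ∈ (C true).O := by
    refine mem_of_pow_mem' _ hp0 (Res.mem_of_r_ne_zero (x := y ^ p) ?_)
    rw [hxy]; exact hne
  rw [Res.r_pow hyO] at hxy
  have hy0 : (C true).r y ≠ 0 := by
    intro h
    rw [h, zero_pow hp0] at hxy
    exact hne hxy.symm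
  refine ⟨c, hc0, g / (C true).r y, div_ne_zero hg0 hy0, ?_⟩
  rw [one_mul, div_pow, hxy, div_div_eq_mul_div, mul_div_cancel_left₀ _ hgp]

end Res

end Fermat.Agent.MazurP
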