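import Fermat.Agent.MazurP.Toric

/-!
# Change of level, Atkin–Lehner
-/

set_option autoImplicit false
set_option linter.unusedSectionVars false
set_option linter.style.haveILetI false
set_option linter.unusedVariables false
set_option synthInstance.maxHeartbeats 400000

noncomputable section

namespace Fermat.Agent.MazurP

open ModularCurve Fermat.Agent.GoodRed Fermat.Agent.Models Fermat.Agent.ModFun
open Fermat.Agent.Curves Fermat.Agent.AnJac AlgebraicCurve IsLocalRing Fermat.Agent.SSMod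
open Fermat.Agent.HeckeQ Fermat.Agent.GalRep Fermat.Agent.Mono
open Fermat.Agent.GenusX0 (je)
open scoped Pointwise

local notation "ℒ" => LaurentSeries

section AL

variable {K κ : Type*} [Field K] [Field κ] {A : ValuationSubring K} {π : A →+* κ}
  {q M : ℕ} [NeZero M] [IsLocalHom π] [hq : Fact q.Prime] [CharP κ q]
  [IsAlgClosed K] [IsAlgClosed κ] [CharZero K] [NeZero q]

attribute [-instance] DivisionRing.toRatAlgebra

variable {S : Set ℕ} {hπ : Function.Surjective π} (ι : K →+* ℂ) (hqM : Nat.Coprime q M)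
  (hE : modularFunctionFieldFullC κ M = resField q hπ (q * M))

theorem al_ne_zero {x : modularFunctionFieldFullC K (q * M)} (hx : x ≠ 0) : al ι hqM x ≠ 0 :=
  (map_ne_zero _).mpr hx

theorem al_algebraMap_mul (c : K) (u : modularFunctionFieldFullC K (q * M)) :
    al ι hqM (algebraMap K _ c * u) = algebraMap K _ c * al ι hqM u := by
  rw [map_mul, al_const]

theorem r_false (x : modularFunctionFieldFullC K (q * M)) :
    (two hπ ι hqM _ hE false).r x = (two hπ ι hqM _ hE true).r (al ι hqM x) :=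
  (two_r_al ι hqM hE true x).symm

theorem so_false [IsFunctionField κ (modularFunctionFieldFullC κ M)]
    (𝔭 : Place κ (modularFunctionFieldFullC κ M))
    {u : modularFunctionFieldFullC K (q * M)} (hu : u ≠ 0) :
    so (two hπ ι hqM _ hE false) 𝔭 u = so (two hπ ι hqM _ hE true) 𝔭 (al ι hqM u) := by
  obtain ⟨c, hc0, hcr⟩ := (two hπ ι hqM _ hE false).exists_scale u hu
  rw [so_eq _ 𝔭 hcr]
  have h1 := hcr
  rw [r_false, al_algebraMap_mul] at h1
  rw [so_eq _ 𝔭 h1, r_false, al_algebraMap_mul]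

theorem resPow_false {p : ℕ} {u : modularFunctionFieldFullC K (q * M)}
    (h : ResPow (two hπ ι hqM _ hE) p true (al ι hqM u) 1) :
    ResPow (two hπ ι hqM _ hE) p false u 1 := by
  obtain ⟨c, hc, h', hh', e⟩ := h
  refine ⟨c, hc, h', hh', ?_⟩
  rw [r_false, al_algebraMap_mul]
  exact e

/-- both components from the first one -/
theorem hres_of {p : ℕ} {u : modularFunctionFieldFullC K (q * M)} (hu : u ≠ 0)
    [IsFunctionField κ (modularFunctionFieldFullC κ M)]
    (H : (∀ 𝔭, (p : ℤ) ∣ so (two hπ ι hqM _ hE true) 𝔭 u) →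
      ResPow (two hπ ι hqM _ hE) p true u 1)
    (H' : (∀ 𝔭, (p : ℤ) ∣ so (two hπ ι hqM _ hE true) 𝔭 (al ι hqM u)) →
      ResPow (two hπ ι hqM _ hE) p true (al ι hqM u) 1) (i : Bool)
    (hi : ∀ 𝔭, (p : ℤ) ∣ so (two hπ ι hqM _ hE i) 𝔭 u) : ResPow (two hπ ι hqM _ hE) p i u 1 := by
  cases i
  · refine resPow_false ι hqM hE (H' fun 𝔭 => ?_)
    rw [← so_false ι hqM hE 𝔭 hu]
    exact hi 𝔭
  · exact H hi

/-- Atkin–Lehner on units -/
def alU {u : (ℒ K)ˣ} (hu : (u : ℒ K) ∈ modularFunctionFieldFullC K (q * M)) : (ℒ K)ˣ :=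
  Units.mk0 ((al ι hqM ⟨u, hu⟩ : modularFunctionFieldFullC K (q * M)) : ℒ K) (by
    intro h
    have h1 : al ι hqM ⟨u, hu⟩ = 0 := Subtype.ext h
    rw [map_eq_zero] at h1
    exact u.ne_zero (congrArg Subtype.val h1))

theorem alU_mem {u : (ℒ K)ˣ} (hu : (u : ℒ K) ∈ modularFunctionFieldFullC K (q * M)) :
    (alU ι hqM hu : ℒ K) ∈ modularFunctionFieldFullC K (q * M) :=
  (al ι hqM ⟨u, hu⟩).2

theorem al_mk {u : (ℒ K)ˣ} (hu : (u : ℒ K) ∈ modularFunctionFieldFullC K (q * M)) :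
    al ι hqM ⟨u, hu⟩ = ⟨alU ι hqM hu, alU_mem ι hqM hu⟩ := rfl

/-- Hecke polynomials commute with Atkin–Lehner -/
theorem op_al (hK : ∀ i : JS S, haveI : NeZero i.1 := ⟨i.2.1.ne_zero⟩; HasPrim K i.1)
    (hSN : ∀ i : JS S, ¬ i.1 ∣ q * M) (P : FreeAlgebra ℤ (JS S)) {u : (ℒ K)ˣ}
    (hu : (u : ℒ K) ∈ modularFunctionFieldFullC K (q * M)) :
    ∃ h : (op hK P u : ℒ K) ∈ modularFunctionFieldFullC K (q * M),
      op hK P (alU ι hqM hu) = alU ι hqM h := by
  let R : (ℒ K)ˣ → (ℒ K)ˣ → Prop := fun u v =>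
    ∃ hu : (u : ℒ K) ∈ modularFunctionFieldFullC K (q * M),
      (v : ℒ K) = ((al ι hqM ⟨u, hu⟩ : modularFunctionFieldFullC K (q * M)) : ℒ K)
  have h1 : R (op hK P u) (op hK P (alU ι hqM hu)) := by
    refine op_rel hK hK R ?_ ?_ ?_ ?_ P (u := u) (v := alU ι hqM hu) ⟨hu, rfl⟩
    · refine ⟨by rw [Units.val_one]; exact one_mem _, ?_⟩
      have e : (⟨((1 : (ℒ K)ˣ) : ℒ K), by rw [Units.val_one]; exact one_mem _⟩ :
        modularFunctionFieldFullC K (q * M)) = 1 := rfl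
      rw [e, map_one]
      rfl
    · rintro a b c d ⟨ha, hb⟩ ⟨hc, hd⟩
      refine ⟨by rw [Units.val_mul]; exact mul_mem ha hc, ?_⟩
      have e : (⟨((a * c : (ℒ K)ˣ) : ℒ K), by rw [Units.val_mul]; exact mul_mem ha hc⟩ :
        modularFunctionFieldFullC K (q * M)) = ⟨a, ha⟩ * ⟨c, hc⟩ :=
          Subtype.ext (Units.val_mul a c)
      rw [e, map_mul, MulMemClass.coe_mul, Units.val_mul, hb, hd]
    · rintro a b ⟨ha, hb⟩
      refine ⟨by rw [Units.val_inv_eq_inv_val]; exact inv_mem ha, ?_⟩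
      have e : (⟨((a⁻¹ : (ℒ K)ˣ) : ℒ K), by rw [Units.val_inv_eq_inv_val]; exact inv_mem ha⟩ :
        modularFunctionFieldFullC K (q * M)) = (⟨a, ha⟩)⁻¹ :=
          Subtype.ext (Units.val_inv_eq_inv_val a)
      rw [e, map_inv₀, Units.val_inv_eq_inv_val, hb]
      rfl
    · rintro i u v ⟨ha, hb⟩
      haveI : NeZero i.1 := ⟨i.2.1.ne_zero⟩
      haveI := hK i
      haveI : NeZero (q * M) := ⟨Nat.mul_ne_zero (NeZero.ne q) (NeZero.ne M)⟩
      have hmem : hM i.1 (u : ℒ K) ∈ modularFunctionFieldFullC K (q * M) :=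
        hM_mem_K i.2.1 (hSN i) ha
      refine ⟨hmem, ?_⟩
      rw [opG_apply, hb]
      exact (al_hM ι hqM i.2.1 (hSN i) (u := ⟨u, ha⟩) (v := ⟨hM i.1 (u : ℒ K), hmem⟩) rfl).symm
  obtain ⟨h2, h3⟩ := h1
  exact ⟨h2, Units.ext h3⟩

end AL

/-! ### change of level -/

section Level

variable {K κ : Type*} [Field K] [Field κ] {A : ValuationSubring K} {π : A →+* κ}
  {q M s : ℕ} [NeZero M] [NeZero s] [IsLocalHom π] [hq : Fact q.Prime] [CharP κ q]
  [IsAlgClosed K] [IsAlgClosed κ] [CharZero K] [NeZero q]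

attribute [-instance] DivisionRing.toRatAlgebra

variable {hπ : Function.Surjective π} (ι : K →+* ℂ) (hqM : Nat.Coprime q M)
  (hqsM : Nat.Coprime q (s * M))
  (hE : modularFunctionFieldFullC κ M = resField q hπ (q * M))
  (hE' : modularFunctionFieldFullC κ (s * M) = resField q hπ (q * (s * M)))
  [hF1 : IsFunctionField κ (modularFunctionFieldFullC κ M)]
  [hF2 : IsFunctionField κ (modularFunctionFieldFullC κ (s * M))]

/-- residues at the two levels -/
theorem r_incA {x : modularFunctionFieldFullC K (q * M)}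
    (hx : x ∈ (two hπ ι hqM _ hE true).O) :
    (two hπ ι hqsM _ hE' true).r (incA K q M s x) =
      alpha κ s M ((two hπ ι hqM _ hE true).r x) := by
  have h1 := two_true_spec ι hqM hE hx
  refine (two_true_r ι hqsM hE' (x := incA K q M s x)
    (y := alpha κ s M ((two hπ ι hqM _ hE true).r x)) ?_).2
  rw [coe_incA, coe_alpha]
  exact h1

/-- descent of orders -/
theorem dvd_ord_alpha (hs : s.Prime) (hsM : ¬ s ∣ M) (hsMκ : ((s * M : ℕ) : κ) ≠ 0) {n : ℤ}
    {x : modularFunctionFieldFullC κ M} (hx : x ≠ 0)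
    (h : ∀ 𝔓 : Place κ (modularFunctionFieldFullC κ (s * M)), n ∣ 𝔓.ord (alpha κ s M x))
    (𝔭 : Place κ (modularFunctionFieldFullC κ M)) : n ∣ (s + 1 : ℤ) * 𝔭.ord x := by
  have hfin := finrank_alpha (k := κ) hs hsM hsMκ
  letI := algebraAlong (alpha κ s M)
  haveI := isScalarTower_along (alpha κ s M)
  haveI := isIntegral_along (alpha κ s M) (integralAlong (alpha κ s M))
  haveI : FiniteDimensional (modularFunctionFieldFullC κ M) (modularFunctionFieldFullC κ (s * M)) :=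
    finiteDimensional_of_isFunctionField (k := κ)
  have h1 : Algebra.norm (modularFunctionFieldFullC κ M) (alpha κ s M x) = x ^ (s + 1) := by
    have e : alpha κ s M x = algebraMap (modularFunctionFieldFullC κ M)
      (modularFunctionFieldFullC κ (s * M)) x := rfl
    rw [e, Algebra.norm_algebraMap]
    congr 1
  have h2 := ord_norm 𝔭 (f := alpha κ s M x) (by simpa using hx)
  rw [h1, ord_pow] at h2
  push_cast at h2
  rw [h2]
  exact Finset.dvd_sum fun w _ => h w

theorem resPow_up (hs : s.Prime) (hsM : ¬ s ∣ M) {p : ℕ} (hp : p.Prime)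
    (hps : ¬ p ∣ s + 1)
    {u : modularFunctionFieldFullC K (q * M)} (hu : u ≠ 0)
    (H : (∀ 𝔭, (p : ℤ) ∣ so (two hπ ι hqM _ hE true) 𝔭 u) →
      ResPow (two hπ ι hqM _ hE) p true u 1)
    (h : ∀ 𝔓, (p : ℤ) ∣ so (two hπ ι hqsM _ hE' true) 𝔓 (incA K q M s u)) :
    ResPow (two hπ ι hqsM _ hE') p true (incA K q M s u) 1 := by
  have hsMκ : ((s * M : ℕ) : κ) ≠ 0 := cast_ne_zero_of_coprime (q := q) hqsM
  obtain ⟨c, hc, w, hw, e⟩ := H (by
    intro 𝔭
    obtain ⟨c, hc0, hcr⟩ := (two hπ ι hqM _ hE true).exists_scale u hu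
    have e1 := r_incA ι hqM hqsM hE hE' (Res.mem_of_r_ne_zero hcr)
    rw [map_mul, AlgHom.commutes] at e1
    have hcr' : (two hπ ι hqsM _ hE' true).r (algebraMap K _ c * incA K q M s u) ≠ 0 := by
      rw [e1]; simpa using hcr
    rw [so_eq _ 𝔭 hcr]
    have h1 := dvd_ord_alpha hs hsM hsMκ (n := (p : ℤ)) hcr (fun 𝔓 => by
      have h2 := h 𝔓
      rw [so_eq _ 𝔓 hcr', e1] at h2
      exact h2) 𝔭
    refine ((Nat.prime_iff_prime_int.mp hp).dvd_or_dvd h1).resolve_left ?_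
    intro h3
    exact hps (by exact_mod_cast h3))
  refine ⟨c, hc, alpha κ s M w, by simpa using hw, ?_⟩
  rw [one_mul] at e ⊢
  have hr0 : (two hπ ι hqM _ hE true).r (algebraMap K _ c * u) ≠ 0 := by
    rw [e]; exact pow_ne_zero _ hw
  have e1 := r_incA ι hqM hqsM hE hE' (Res.mem_of_r_ne_zero hr0)
  rw [map_mul, AlgHom.commutes] at e1
  rw [e1, e, map_pow]

end Level

end Fermat.Agent.MazurP
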