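import Fermat.Agent.MazurP.HeckeMod
import Fermat.Agent.MazurP.Rel
import Fermat.Agent.MazurP.AL
import Fermat.Agent.MazurP.SwapN
import Fermat.Agent.AnJacH.ClsOp
import Fermat.Agent.HeckeQ.Red

/-!
# The representation on `J₀(N)[p]` and its Hecke eigenspaces
-/

set_option autoImplicit false
set_option linter.unusedSectionVars false
set_option linter.style.haveILetI false
set_option linter.unusedVariables false
set_option synthInstance.maxHeartbeats 400000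

noncomputable section

namespace Fermat.Agent.MazurP

open ModularCurve Fermat.Agent.GoodRed Fermat.Agent.Models Fermat.Agent.ModFun
open Fermat.Agent.Curves AlgebraicCurve Fermat.Agent.SSMod
open Fermat.Agent.HeckeQ
open Fermat.Agent.AnJac Fermat.Agent.GalRep Fermat.Agent.S43Glue CuspForm Matrix

local notation "ℒ" => LaurentSeries
local notation "Qbar" => AlgebraicClosure ℚ
local notation "GQ" => Qbar ≃ₐ[ℚ] Qbar

/-- the rank of the lattice -/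
abbrev rk (N : ℕ) [NeZero N] : ℕ := Module.finrank ℤ (Lat N)

section Rep

variable (N p : ℕ) [NeZero N] [hp : Fact p.Prime]

theorem pne : p ≠ 0 := hp.out.ne_zero

/-- the representation on `Λ / p` -/
def TV : GQ →* ((Fin (rk N) → ZMod p) →ₗ[ZMod p] (Fin (rk N) → ZMod p)) :=
  (Matrix.toLinAlgEquiv' (R := ZMod p) (n := Fin (rk N))).toRingEquiv.toMonoidHom.comp
    ((KQ N).rep (bL N) (pne p))

theorem TV_apply (g : GQ) (x : Fin (rk N) → ZMod p) :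
    TV N p g x = (KQ N).M (bL N) (pne p) g *ᵥ x := Matrix.toLin'_apply _ _

theorem finLevel_TV : FinLevel (TV N p) := by
  obtain ⟨u, hu⟩ := (KQ N).exists_control (bL N) (pne p)
  obtain ⟨L, hL, h⟩ := exists_finite_fixed_fam u
  refine ⟨L, hL, fun σ hσ => ?_⟩
  have h1 := hu σ (h σ hσ)
  ext x i
  rw [LinearMap.comp_apply, TV_apply, h1, Matrix.one_mulVec]
  rfl

variable {N} {S : Set ℕ}

/-- the Hecke operators on `Λ / p` -/
def HV (P : FreeAlgebra ℤ (JS S)) : Matrix (Fin (rk N)) (Fin (rk N)) (ZMod p) :=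
  (Int.castRingHom (ZMod p)).mapMatrix (mt N P)

variable {p}

theorem mt_ι (i : JS S) : mt N (FreeAlgebra.ι ℤ i) = KSys.tm (bL N) (LTot N i.1) := by
  rw [mt, lat, FreeAlgebra.lift_ι_apply]; rfl

theorem HV_ι (i : JS S) : HV p (FreeAlgebra.ι ℤ i) =
    (Int.castRingHom (ZMod p)).mapMatrix (KSys.tm (bL N) (LTot N i.1)) := by
  rw [HV, mt_ι]

theorem HV_mul (P Q : FreeAlgebra ℤ (JS S)) : HV (N := N) p (P * Q) = HV p P * HV p Q := by
  rw [HV, HV, HV, mt, map_mul, map_mul, map_mul]; rfl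

theorem HV_add (P Q : FreeAlgebra ℤ (JS S)) : HV (N := N) p (P + Q) = HV p P + HV p Q := by
  rw [HV, HV, HV, mt, map_add, map_add, map_add]; rfl

theorem HV_algebraMap (c : ℤ) : HV (N := N) (S := S) p (algebraMap ℤ _ c) = (c : Matrix _ _ _) := by
  rw [HV, mt, AlgHom.commutes, eq_intCast, map_intCast, map_intCast]

/-- Hecke operators commute with the Galois action -/
theorem M_HV_ι (hSN : ∀ i : JS S, ¬ i.1 ∣ N) (g : GQ) (i : JS S) :
    (KQ N).M (bL N) (pne p) g * HV p (FreeAlgebra.ι ℤ i) =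
      HV p (FreeAlgebra.ι ℤ i) * (KQ N).M (bL N) (pne p) g := by
  haveI : NeZero i.1 := ⟨i.2.1.ne_zero⟩
  haveI : Fact i.1.Prime := ⟨i.2.1⟩
  obtain ⟨ζ, hζ⟩ := exists_zeta i.1
  rw [HV_ι, LTot_of_not_dvd N i.1 (hSN i)]
  exact (KQ N).M_comm (bL N) (pne p) (compat_LT ιQ fQ (hSN i) hζ) g
    (fun u => FT_act ιQ fQ (hSN i) hζ g u)

/-- the Eichler–Shimura relation -/
theorem HV_frob {ℓ : ℕ} (hℓ : ℓ.Prime) (hℓS : ℓ ∉ S) (hℓN : ¬ ℓ ∣ N * p)
    {A : ValuationSubring Qbar} (hA : A.LiesOverPrime ℓ) {τ : GQ} (hτ : A.IsFrobeniusAt τ ℓ) :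
    HV (N := N) (S := S) p (FreeAlgebra.ι ℤ ⟨ℓ, hℓ, hℓS⟩) =
      (KQ N).M (bL N) (pne p) τ + (ℓ : ZMod p) • (KQ N).M (bL N) (pne p) τ⁻¹ := by
  haveI : NeZero ℓ := ⟨hℓ.ne_zero⟩
  haveI : Fact ℓ.Prime := ⟨hℓ⟩
  have hN : ¬ ℓ ∣ N := fun h => hℓN (h.mul_right p)
  obtain ⟨ζ, hζ⟩ := exists_zeta ℓ
  rw [HV_ι, LTot_of_not_dvd N ℓ hN]
  refine (KQ N).M_frob (bL N) (pne p) (compat_LT ιQ fQ hN hζ) τ ℓ fun φ u hu => ?_
  obtain ⟨g, hg, h⟩ := (esHyp N p).frob ℓ hℓ hℓN ζ hζ A hA τ hτ 1 u ((KQ N).ne_zero hu)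
    (fun v => by rw [pow_one]; exact ClX.dvd_ord ιQ hu v)
  rw [pow_one] at h
  exact ⟨g, hg, Subtype.ext h⟩

/-- the Hecke eigenspace of `θ` -/
def WW (hSN : ∀ i : JS S, ¬ i.1 ∣ N) (θ : heckeAlgebra N 2 S →+* ZMod p) :
    Submodule (ZMod p) (Fin (rk N) → ZMod p) where
  carrier := {x | ∀ i : JS S, HV p (FreeAlgebra.ι ℤ i) *ᵥ x =
    θ (hkA N hSN (FreeAlgebra.ι ℤ i)) • x}
  add_mem' := by
    intro x y hx hy i
    rw [Matrix.mulVec_add, hx i, hy i, smul_add]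
  zero_mem' := by
    intro i
    rw [Matrix.mulVec_zero, smul_zero]
  smul_mem' := by
    intro c x hx i
    rw [Matrix.mulVec_smul, hx i, smul_comm]

variable {hSN : ∀ i : JS S, ¬ i.1 ∣ N} {θ : heckeAlgebra N 2 S →+* ZMod p}

theorem WW_all {x : Fin (rk N) → ZMod p} (hx : x ∈ WW hSN θ) (P : FreeAlgebra ℤ (JS S)) :
    HV p P *ᵥ x = θ (hkA N hSN P) • x := by
  induction P using FreeAlgebra.induction with
  | grade0 c =>
    rw [HV_algebraMap, AlgHom.commutes, eq_intCast, map_intCast]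
    ext i
    rw [Pi.smul_apply, smul_eq_mul]
    have h1 : ((c : Matrix (Fin (rk N)) (Fin (rk N)) (ZMod p))) = (c : ZMod p) • 1 := by
      rw [← Algebra.algebraMap_eq_smul_one, map_intCast]
    rw [h1, Matrix.smul_mulVec, Matrix.one_mulVec, Pi.smul_apply, smul_eq_mul]
  | grade1 i => exact hx i
  | mul P Q hP hQ =>
    rw [HV_mul, ← Matrix.mulVec_mulVec, hQ, Matrix.mulVec_smul, hP, smul_smul, map_mul, map_mul,
      mul_comm]
  | add P Q hP hQ =>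
    rw [HV_add, Matrix.add_mulVec, hP, hQ, ← add_smul, map_add, map_add]

theorem WW_stable (g : GQ) {x : Fin (rk N) → ZMod p} (hx : x ∈ WW hSN θ) :
    TV N p g x ∈ WW hSN θ := by
  intro i
  rw [TV_apply, Matrix.mulVec_mulVec, ← M_HV_ι hSN, ← Matrix.mulVec_mulVec, hx i,
    Matrix.mulVec_smul]

/-- the representation on the eigenspace -/
def TW (hSN : ∀ i : JS S, ¬ i.1 ∣ N) (θ : heckeAlgebra N 2 S →+* ZMod p) :
    GQ →* (WW hSN θ →ₗ[ZMod p] WW hSN θ) where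
  toFun g := (TV N p g).restrict fun x hx => WW_stable g hx
  map_one' := by
    ext x : 2
    show TV N p 1 x = x
    rw [map_one]; rfl
  map_mul' g h := by
    ext x : 2
    show TV N p (g * h) x = TV N p g (TV N p h x)
    rw [map_mul]; rfl

theorem coe_TW (g : GQ) (x : WW hSN θ) : (TW hSN θ g x : Fin (rk N) → ZMod p) =
    (KQ N).M (bL N) (pne p) g *ᵥ x := TV_apply N p g x

theorem finLevel_TW : FinLevel (TW hSN θ) := by
  obtain ⟨L, hL, h⟩ := finLevel_TV N p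
  refine ⟨L, hL, fun σ hσ => ?_⟩
  ext x : 2
  show TV N p σ x = x
  rw [h σ hσ]; rfl

theorem WW_ne_bot (hS : ∀ r : ℕ, r.Prime → r ∣ N → r ∈ S) : Nontrivial (WW hSN θ) := by
  obtain ⟨x, hx0, hx⟩ := exists_eigen N hSN hS θ
  exact ⟨⟨⟨x, fun i => hx _⟩, 0, fun h => hx0 (congrArg Subtype.val h)⟩⟩

/-- the quadratic relation on the eigenspace -/
theorem TW_rel {ρ : GQ →* Matrix (Fin 2) (Fin 2) (ZMod p)} (hρ : FinLevel ρ)
    (hdet : ∀ g, (ρ g).det = chiK p (ZMod p) g) (hS : S.Finite) (hpS : p ∈ S)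
    (hθ : ∀ (ℓ : ℕ) (hℓ : ℓ.Prime) (hℓM : ¬ ℓ ∣ N) (hℓS : ℓ ∉ S),
      ∀ A : ValuationSubring Qbar, A.LiesOverPrime ℓ → ∀ τ : GQ, A.IsFrobeniusAt τ ℓ →
      (ρ τ).trace = θ (heckeAlgebra.T hℓ hℓM hℓS))
    (g : GQ) (x : WW hSN θ) :
    TW hSN θ g x + chiK p (ZMod p) g • TW hSN θ g⁻¹ x = (ρ g).trace • x := by
  refine rel_of_frob (TW hSN θ) finLevel_TW hρ hdet hS hpS (fun ℓ hℓ hℓS A hA τ hτ x => ?_) g x
  have hℓN : ¬ ℓ ∣ N := hSN ⟨ℓ, hℓ, hℓS⟩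
  have hℓp : ℓ ≠ p := fun h => hℓS (h ▸ hpS)
  have hℓNp : ¬ ℓ ∣ N * p := by
    intro h
    rcases hℓ.dvd_mul.mp h with h | h
    · exact hℓN h
    · exact hℓp ((Nat.prime_dvd_prime_iff_eq hℓ hp.out).mp h)
  apply Subtype.ext
  have h1 := x.2 ⟨ℓ, hℓ, hℓS⟩
  rw [HV_frob hℓ hℓS hℓNp hA hτ, hkA_ι, ← hθ ℓ hℓ hℓN hℓS A hA τ hτ, Matrix.add_mulVec,
    Matrix.smul_mulVec] at h1
  exact h1

end Rep

end Fermat.Agent.MazurP
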